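import Mathlib
import Fermat.Agent.LT.H17.Board
import Fermat.Agent.LT.H130.Wall
import Fermat.Agent.LT.H556.A0
import Fermat.Agent.LT.H556.WallTop

/-!
# Row LT, tower T7 (architect helper797): comparison, descent, fibres -- SPEC v1.2

OFF-MAIN.  Definitions, frozen Props, PROVED top.  No `sorry`, no opaque constant, nothing assumed.

Vocabulary: `LT/H556/A0.lean` (notion), `LT/H130/Wall.lean` (fields, stations, Frobenius data),
`LT/H556/WallTop.lean` (the frozen leaves `A3c_556`, `A3q_556`), all byte-identical copies of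
origin/helper556@0fa0be5a0.

## What T7 delivers

`top : ... → WT.A3c_556 ∧ WT.A3q_556` (both VERBATIM the leaves of the frozen wall).

## Shape of the tower

```
A3c_556  ⇐  DictEFC  +  DescTrivAll
A3q_556  ⇐  DictFQC  +  SqrtC  +  MidStableC  +  DescQ3All
DescTrivAll ⇐ DescAll + TwistAll                      (leaf  DescTrivFromC, elementary)
MidStableC  ⇐ MidUniqueC + ConjAll                    (leaf  MidStableFromUniqueC, elementary)
MidUniqueC  ⇐ ThinC + RigidAll                        (leaf  MidUniqueFromC, elementary)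
DescAll, DescQ3All     NODES: comparison of the trace identities of T4/T5 through the matching
                       of T6, separation, non-vanishing, archimedean type (`T7/Comparison.lean`)
ThinC                  NODE: mass bound over `F` (the method of tower T8, over `ℚ(√-3)`)
RigidAll               NODE: Rankin--Selberg rigidity (Jacquet--Shalika) -- NOT a consequence of
                       the comparison of trace formulas, see `FibreC`
TwistAll, ConjAll, DictEFC, DictFQC                   (LEAVES, no trace formula)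
```

WHY `ThinC + RigidAll` (v1).  The station `F` of the frozen wall carries `MidData` only, and
`MidData` determines `a_v` at the places inert in `E/F` only up to the finite ambiguity
`a_v³ - 3 a_v = ± 2`, i.e. `a_v ∈ {true value ∓ 1, degenerate value ± 2}`.  The quadratic descent
needs `π_F ≅ π_F ∘ s` for the conjugation `s` of `F`, hence the UNIQUENESS of the form with
`MidData` (`MidUniqueC`).  This is the fibre theorem of base change ([L] §2 (d)), and it CANNOT be
extracted from the comparison of trace formulas: at an inert unramified place every function `f_v`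
with a matching `φ_w` has a trace on `I(α, β)` which depends on `(α^ℓ, β^ℓ)` only (its hyperbolic
orbital integrals are supported on norms, and the characters of the principal series vanish on
the elliptic set), so `I(ζ, ζ̄)` and `I(1, 1)` are not separated.  In the literature the fibres are
obtained from `L(s, π × π̃')` ([L] §11, Arthur--Clozel III.3, [JS]).  Here: `ThinC` (the degenerate
places form a thin set: the elementary mass bound) and `RigidAll` (two cuspidal representations
which agree outside a thin set are equal).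

All Props are statements about Hecke eigensystems `AutomorphicForm.HeckeEigensystem K ℂ`
(Prelude) in the UNITARY normalisation of A0 (`a_v = α_v + β_v`, `b_v = α_v β_v`).

## The traps respected (memo `coord/LT-A3-helper797.md` §1)

* the base change relation at a place of residue degree `f` is the SATAKE POWER
  `a_w = satakePow f a_v b_v`, `b_w = b_v ^ f` -- at the inert places `a_v` itself is NOT
  determined by the data upstairs;
* every relation holds outside a FINITE set of places only, nothing is claimed at the bad places;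
* the station `F` does not carry Galois stability: `A3q_556` CONTAINS the fibre theorem for
  `E/F` (`MidStableC`);
* `FibreC` is stated for TRIVIAL central characters and ODD degree (then the fibre is a point);
  it is NOT a consequence of the comparison of trace formulas (see below);
* no parity claim in the quadratic descent: `DescQC` ends in the TWO alternatives of
  `A0.notion556` (Maass form of eigenvalue `1/4`, or holomorphic of weight one);
* degree, Galois property and the type of the infinite places are carried explicitly.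

References: [L] R. P. Langlands, *Base change for GL(2)*, Ann. of Math. Studies 96 (1980);
[GJ] Gelbart--Jacquet, *Forms of GL(2) from the analytic point of view*, Proc. Symp. Pure Math. 33
(1979); [F] Y. Flicker, *Regular trace formula and base change lifting*, Amer. J. Math. 110
(1988); [LV] Lindenstrauss--Venkatesh, GAFA 17 (2007) §§3-4 (memo of helper261); [JS]
Jacquet--Shalika, *On Euler products and the classification of automorphic representations I*,
Amer. J. Math. 103 (1981) (strong multiplicity one); [C] Casselman, *On some results of Atkin and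
Lehner*, Math. Ann. 201 (1973).
-/

set_option autoImplicit false

open AutomorphicForm FLT.ExplicitLift EisensteinWeightOne
open WeierstrassCurve CongruenceSubgroup
open IsDedekindDomain NumberField
open scoped MatrixGroups

noncomputable section

namespace Fermat.Agent.LT.T7

open Fermat.Agent.LT.H130 Fermat.Agent.LT.H556

local notation "Γℚ" => (AlgebraicClosure ℚ ≃ₐ[ℚ] AlgebraicClosure ℚ)

/-! ## 1. Vocabulary: places, residue degrees, base change of eigensystems -/

section Relative

variable (K K' : Type) [Field K] [NumberField K] [Field K'] [NumberField K'] [Algebra K K']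

/-- `K'/K` is a Galois extension of prime degree `ℓ` (hence cyclic). -/
structure IsCycExt (ℓ : ℕ) : Prop where
  prime : ℓ.Prime
  galois : IsGalois K K'
  degree : Module.finrank K K' = ℓ

/-- The finite place `w` of `K'` lies over the finite place `v` of `K`
(`w ∩ 𝓞_K = v`, written without any algebra structure on the rings of integers). -/
def PlaceOver (v : HeightOneSpectrum (𝓞 K)) (w : HeightOneSpectrum (𝓞 K')) : Prop :=
  ∀ (x : 𝓞 K) (y : 𝓞 K'), (y : K') = algebraMap K K' (x : K) →
    (x ∈ v.asIdeal ↔ y ∈ w.asIdeal)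

/-- `w` lies over `v` with residue degree `f`: `N w = (N v) ^ f`. -/
def HasResDeg (v : HeightOneSpectrum (𝓞 K)) (w : HeightOneSpectrum (𝓞 K')) (f : ℕ) : Prop :=
  PlaceOver K K' v w ∧ Ideal.absNorm w.asIdeal = Ideal.absNorm v.asIdeal ^ f

variable {K K'}

/-- **Base change relation** between an eigensystem `π` over `K` and an eigensystem `Φ` over
`K'`, outside a finite set of places of `K'`: at `w ∣ v` of residue degree `f` the Satake
parameter of `Φ_w` is the `f`-th power of the one of `π_v`:
`a_w = α_v^f + β_v^f = satakePow f a_v b_v`, `b_w = b_v^f`.  ([L] §2 (ii): local lifting of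
unramified representations; at a split place `f = 1` and `Φ_w = π_v`.) -/
def IsBC (π : HeckeEigensystem K ℂ) (Φ : HeckeEigensystem K' ℂ) : Prop :=
  ∃ S : Finset (HeightOneSpectrum (𝓞 K')), ∀ w : HeightOneSpectrum (𝓞 K'), w ∉ S →
    ∀ (v : HeightOneSpectrum (𝓞 K)) (f : ℕ), HasResDeg K K' v w f →
      Φ.a w = satakePow f (π.a v) (π.b v) ∧ Φ.b w = π.b v ^ f

/-- `π` and `π'` (over `K`) have the same base change data to `K'` outside a finite set. -/
def SameBC (K' : Type) [Field K'] [NumberField K'] [Algebra K K']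
    (π π' : HeckeEigensystem K ℂ) : Prop :=
  ∃ S : Finset (HeightOneSpectrum (𝓞 K')), ∀ w : HeightOneSpectrum (𝓞 K'), w ∉ S →
    ∀ (v : HeightOneSpectrum (𝓞 K)) (f : ℕ), HasResDeg K K' v w f →
      satakePow f (π.a v) (π.b v) = satakePow f (π'.a v) (π'.b v) ∧ π.b v ^ f = π'.b v ^ f

/-- The eigensystem `Φ` over `K'` is constant on the fibres of `w ↦ w ∩ K`, outside a finite
set: the eigensystem form of `Φ ∘ σ ≅ Φ` for all `σ ∈ Gal(K'/K)` (the Galois group permutes the
places over `v` transitively). -/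
def ConstOnFibres (K : Type) [Field K] [NumberField K] [Algebra K K']
    (Φ : HeckeEigensystem K' ℂ) : Prop :=
  ∃ S : Finset (HeightOneSpectrum (𝓞 K')), ∀ w : HeightOneSpectrum (𝓞 K'), w ∉ S →
    ∀ w' : HeightOneSpectrum (𝓞 K'), w' ∉ S → ∀ v : HeightOneSpectrum (𝓞 K),
      PlaceOver K K' v w → PlaceOver K K' v w' → Φ.a w = Φ.a w' ∧ Φ.b w = Φ.b w'

end Relative

section Absolute

variable (K : Type) [Field K] [NumberField K]

/-- `K` is totally complex. -/
def TotCplx : Prop := ∀ w : InfinitePlace K, w.IsComplex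

/-- `K` is an imaginary quadratic field: one infinite place, and it is complex
(`r₁ + 2 r₂ = [K : ℚ]`; stated without the `ℚ`-algebra structure of `K`). -/
def IsImagQuad : Prop := Nat.card (InfinitePlace K) = 1 ∧ TotCplx K

variable {K}

/-- The central character of `π` is trivial at almost all places. -/
def TrivCentral (π : HeckeEigensystem K ℂ) : Prop :=
  ∃ S : Finset (HeightOneSpectrum (𝓞 K)), ∀ v : HeightOneSpectrum (𝓞 K), v ∉ S → π.b v = 1

/-- `π` and `π'` agree at almost all places. -/
def AEq (π π' : HeckeEigensystem K ℂ) : Prop :=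
  ∃ S : Finset (HeightOneSpectrum (𝓞 K)), ∀ v : HeightOneSpectrum (𝓞 K), v ∉ S →
    π.a v = π'.a v ∧ π.b v = π'.b v

/-- The finite place `v'` is the image of `v` under the automorphism `s` of `K`. -/
def PlaceImage (s : K ≃+* K) (v v' : HeightOneSpectrum (𝓞 K)) : Prop :=
  ∀ x y : 𝓞 K, (y : K) = s (x : K) → (x ∈ v.asIdeal ↔ y ∈ v'.asIdeal)

/-- **Base change relation for `F/ℚ`**, in the vocabulary of `H130.AlmostAllFrob` (places of `ℚ`
and of `F` over the prime number `p`; no `ℚ`-algebra structure of `F` is used): at `w ∣ p` of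
residue degree `f` (`N w = p ^ f`), `a_w = satakePow f a_p b_p` and `b_w = b_p ^ f`. -/
def IsBCQ (π : HeckeEigensystem ℚ ℂ) (Φ : HeckeEigensystem K ℂ) : Prop :=
  ∃ S : Finset ℕ, ∀ p : ℕ, p.Prime → p ∉ S →
    ∀ v : HeightOneSpectrum (𝓞 ℚ), ((p : ℕ) : 𝓞 ℚ) ∈ v.asIdeal →
    ∀ (w : HeightOneSpectrum (𝓞 K)) (f : ℕ), ((p : ℕ) : 𝓞 K) ∈ w.asIdeal →
      Ideal.absNorm w.asIdeal = p ^ f →
      Φ.a w = satakePow f (π.a v) (π.b v) ∧ Φ.b w = π.b v ^ f

/-- `Φ` (over `K`) takes the same values at the places over the same prime number, for almost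
all primes: the eigensystem form of `Φ ∘ σ ≅ Φ` for all `σ ∈ Gal(K/ℚ)`, `K/ℚ` Galois. -/
def ConstOnFibresQ (Φ : HeckeEigensystem K ℂ) : Prop :=
  ∃ S : Finset ℕ, ∀ p : ℕ, p.Prime → p ∉ S →
    ∀ w w' : HeightOneSpectrum (𝓞 K), ((p : ℕ) : 𝓞 K) ∈ w.asIdeal →
      ((p : ℕ) : 𝓞 K) ∈ w'.asIdeal → Φ.a w = Φ.a w' ∧ Φ.b w = Φ.b w'

end Absolute

/-! ## 2. The NODES: cyclic base change for `GL₂` in the vocabulary of A0

Each of the three Props is a theorem of Langlands for the cuspidal automorphic representation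
generated by the cusp form of `A0.IsSph0CuspFormFor`.  (A function `φ` as in A0 is bounded,
cuspidal and an eigenfunction of the centre, of the Laplacians and of almost all Hecke operators,
hence a cusp form in `L²`; by strong multiplicity one [JS], [C] it lies in ONE irreducible
cuspidal representation `Φ`, and `Φ_w = π(1,1)` at the complex places, `Φ_w ∈ {π(1,1),
π(sgn,sgn)}` at the real places.)  They are NODES of the tower, not leaves: their splitting into
leaves `≤ 3k` lines (trace identities of T4/T5, matching of T6, separation, non-vanishing,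
archimedean type) is `T7/Comparison.lean`. -/

section Nodes

variable (K K' : Type) [Field K] [NumberField K] [Field K'] [NumberField K'] [Algebra K K']

/-- **NODE DESC (cyclic descent, odd prime degree, totally complex base).**
[L] §2 Property (iii)/(c) and §11: for `K'/K` cyclic of prime degree, a cuspidal `Φ` with
`Φ^σ ≅ Φ` is the lifting of a cuspidal `π`.  All infinite places of `K` are complex, hence split
in `K'`, so `π_v = Φ_w = π(1,1)` at infinity: the descent is again spherical of parameter `0`.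
The level of `π` is NOT controlled. -/
def DescC : Prop :=
  ∀ ℓ : ℕ, IsCycExt K K' ℓ → ℓ ≠ 2 → TotCplx K →
    ∀ Φ : HeckeEigensystem K' ℂ, A0.IsCuspAdelicSph0 K' Φ → ConstOnFibres K Φ →
      ∃ π : HeckeEigensystem K ℂ, A0.IsCuspAdelicSph0 K π ∧ IsBC π Φ

/-- **FIBRE (fibres of base change, odd prime degree, trivial central characters)** -- TRUE,
recorded for reference, NOT used by `top` (v1 uses `MidUniqueC`).
[L] §2 Property (iv)/(d): two cuspidal representations of `GL₂(𝔸_K)` with the same lifting to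
`K'` (cuspidal, because `ℓ` is odd) differ by a power `ω^j` of a character `ω` of order `ℓ`
attached to `K'/K`; the central characters differ by `ω^{2j}`, so for trivial central characters
and `ℓ` odd, `ω^j = 1` and `π' ≅ π`.
FALSE for `ℓ = 2` (`π ⊗ ω` has the same central character) -- hence `ℓ ≠ 2`.
FALSE without the central characters (the three descents) -- hence `TrivCentral`. -/
def FibreC : Prop :=
  ∀ ℓ : ℕ, IsCycExt K K' ℓ → ℓ ≠ 2 → TotCplx K →
    ∀ π π' : HeckeEigensystem K ℂ, A0.IsCuspAdelicSph0 K π → A0.IsCuspAdelicSph0 K π' →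
      TrivCentral π → TrivCentral π' → SameBC K' π π' → AEq π π'

end Nodes

/-- **NODE DESCQ (quadratic descent to `ℚ` from an imaginary quadratic field).**
[L] §2 (c) for `ℓ = 2`: a cuspidal `Φ` over `F` with `Φ^σ ≅ Φ` is the lifting of a cuspidal `π`
over `ℚ`.  At infinity `BC_{ℂ/ℝ}(π_∞) = π(1,1)`, i.e. the parameter of `π_∞` is trivial on
`W_ℂ = ℂˣ`, so it is a sum of two characters of `W_ℝ / ℂˣ = ℤ/2`:
`π_∞ ∈ {π(1,1), π(sgn,sgn)}` (first alternative of `A0.notion556`: a Maass form of eigenvalue
`1/4`, invariant under `SO(2)`) or `π_∞ = π(1,sgn)` (second alternative: the newform of `π` is a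
classical holomorphic cusp form of weight one on `Γ₁(N)`, `a_p = α_p + β_p`, `ε(p) = α_p β_p`;
[GJ] §4, Gelbart, *Automorphic forms on adele groups*, §5.C for the dictionary).
NO parity claim. -/
def DescQC (F : Type) [Field F] [NumberField F] : Prop :=
  IsImagQuad F →
    ∀ Φ : HeckeEigensystem F ℂ, A0.IsCuspAdelicSph0 F Φ → ConstOnFibresQ Φ →
      ∃ π : HeckeEigensystem ℚ ℂ, A0.notion556.IsCusp ℚ π ∧ IsBCQ π Φ

/-- `F` contains a square root of `-3` (so an imaginary quadratic `F` is `ℚ(√-3)`). -/
def HasSqrtNegThree (F : Type) [Field F] : Prop := ∃ x : F, x * x = -3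

/-- **NODE DESCQ3** = `DescQC` for `F = ℚ(√-3)` only (request of the architect of T6, helper22:
the class field theory input of the comparison, `T6.NormImageQC`, is available for
`ℚ(√-3)/ℚ` only; the wall needs nothing else).  This is the node USED by `top`. -/
def DescQ3C (F : Type) [Field F] [NumberField F] : Prop :=
  HasSqrtNegThree F → DescQC F

/-! ## 3. The LEAVES without trace formula -/

/-- **LEAF TWIST (twist by the central character).**  For a cusp form `φ` as in A0 the centre
`Z(𝔸_K)` acts on `φ` by a character `ω` of finite order (`φ` is invariant under `Kˣ`, under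
`Z(𝔸_K) ∩ U(𝔫)`, under `K_wˣ` at every infinite place, and `φ(g ϖ_v) = b_v φ(g)`), unramified
outside `𝔫`, `ω(ϖ_v) = b_v`; then `g ↦ ω(det g) φ(g)` is a cusp form as in A0 with eigenvalues
`(b_v a_v, b_v³)`.  Elementary (no trace formula): weak approximation for ideles + A0. -/
def TwistC (K : Type) [Field K] [NumberField K] : Prop :=
  ∀ π : HeckeEigensystem K ℂ, A0.IsCuspAdelicSph0 K π →
    ∃ π' : HeckeEigensystem K ℂ, A0.IsCuspAdelicSph0 K π' ∧
      ∃ S : Finset (HeightOneSpectrum (𝓞 K)), ∀ v : HeightOneSpectrum (𝓞 K), v ∉ S →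
        π'.a v = π.b v * π.a v ∧ π'.b v = π.b v ^ 3

/-- **LEAF CONJ (transport by an automorphism of the field).**  `s : K ≃+* K` extends to a
topological automorphism of `𝔸_K` permuting the places; `φ ∘ s⁻¹` is a cusp form as in A0 for the
level `s(𝔫)` with eigenvalues `a_{s v}' = a_v`, `b_{s v}' = b_v`.  (At a complex place the local
isomorphism may be conjugate-linear: `conj (rotZ α) = rotZ (-α) = - rotZ (2π - α)` and `-1` is a
central element of `U(2)`, so the mean value property is preserved.)  Elementary. -/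
def ConjC (K : Type) [Field K] [NumberField K] : Prop :=
  ∀ (s : K ≃+* K) (π : HeckeEigensystem K ℂ), A0.IsCuspAdelicSph0 K π →
    ∃ π' : HeckeEigensystem K ℂ, A0.IsCuspAdelicSph0 K π' ∧
      ∃ S : Finset (HeightOneSpectrum (𝓞 K)), ∀ v : HeightOneSpectrum (𝓞 K), v ∉ S →
        ∀ v' : HeightOneSpectrum (𝓞 K), PlaceImage s v v' →
          π'.a v' = π.a v ∧ π'.b v' = π.b v

/-- `DescC` for all cyclic extensions. -/
def DescAll : Prop :=
  ∀ (K K' : Type) [Field K] [NumberField K] [Field K'] [NumberField K'] [Algebra K K'],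
    DescC K K'

/-- `FibreC` for all cyclic extensions (not used by `top`). -/
def FibreAll : Prop :=
  ∀ (K K' : Type) [Field K] [NumberField K] [Field K'] [NumberField K'] [Algebra K K'],
    FibreC K K'

/-- `DescQC` for all imaginary quadratic fields. -/
def DescQAll : Prop := ∀ (F : Type) [Field F] [NumberField F], DescQC F

/-- `DescQ3C` for all number fields (i.e. for `ℚ(√-3)`). -/
def DescQ3All : Prop := ∀ (F : Type) [Field F] [NumberField F], DescQ3C F

/-- `TwistC` for all number fields. -/
def TwistAll : Prop := ∀ (K : Type) [Field K] [NumberField K], TwistC K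

/-- `ConjC` for all number fields. -/
def ConjAll : Prop := ∀ (K : Type) [Field K] [NumberField K], ConjC K

/-- **Descent with trivial central character** (odd prime degree): a `Gal(K'/K)`-stable cuspidal
`Φ` with trivial central character has a descent with trivial central character.
(From `DescC`: `b_v ^ f = 1` a.e., `f ∈ {1, ℓ}`, so `b_v ^ ℓ = 1`; twist the descent by
`ω_π ^ ((ℓ - 1) / 2)`: `b` becomes `b ^ ℓ = 1`, and the base change does not move because
`ω_π ∘ N_{K'/K} = 1`.) -/
def DescTrivAll : Prop :=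
  ∀ (K K' : Type) [Field K] [NumberField K] [Field K'] [NumberField K'] [Algebra K K'],
    IsCycExt K K' 3 → TotCplx K →
    ∀ Φ : HeckeEigensystem K' ℂ, A0.IsCuspAdelicSph0 K' Φ → ConstOnFibres K Φ →
      TrivCentral Φ →
      ∃ π : HeckeEigensystem K ℂ, A0.IsCuspAdelicSph0 K π ∧ IsBC π Φ ∧ TrivCentral π

/-- **LEAF T7.03 (elementary).**  `DescAll + TwistAll ⇒ DescTrivAll` for `ℓ = 3`: with
`π' = ` the twist of `TwistC`, `b' = b³ = 1` a.e. (`b ^ f = 1`, `f ∣ 3`), at the split places
`b = 1` and `a' = a`, at the inert places `satakePow 3 (b a) (b³) = a³ - 3 a b = satakePow 3 a b`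
(`b³ = 1`).  Needs: a place of `K'` lies over a unique place of `K` and has residue degree
`1` or `3`; finitely many places over a finite set. -/
def DescTrivFromC : Prop := DescAll → TwistAll → DescTrivAll

/-! ## 4. The dictionary leaves (fields `F ⊂ E` of the wall, Frobenius data) -/

/-- **LEAF DICT(E/F).**  Under `LTB.Hyp`: `F = fieldF ρ = ℚ(√-3)` is a number field, totally
complex, `F ⊂ E = fieldE ρ`, `E/F` is Galois of degree `3` (group `SL₂(𝔽₃)/Q8`), and for the
inclusion as algebra structure:
* an eigensystem over `E` with the data `SeedData` is constant on the fibres over `F` and has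
  trivial central character (its values at `w ∣ p` depend only on `ρ(Frob_p)`; a Frobenius
  element exists for every `p`);
* if `π` over `F` has trivial central character and base change `Φ` with `SeedData`, then `π`
  has `MidData` (for `p` unramified in `E`, `g = ρ(Frob_p)`: the residue degree of `v ∣ p` in
  `F/ℚ` is `ordSL g`, the one of `w ∣ v` in `E/F` is `ordQ8 (g ^ ordSL g)`, and
  `ordQ8 g = ordSL g * ordQ8 (g ^ ordSL g)` because `GL₂(𝔽₃)/Q8 ≅ S₃`).
Galois theory of `ρ` + decomposition groups; no automorphic input. -/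
def DictEFC : Prop :=
  ∀ (ρ : Γℚ →* GL (Fin 2) (ZMod 3)) (Ψ : GL (Fin 2) (ZMod 3) →* GL (Fin 2) (ℤ√(-2)))
    (ι : ℤ√(-2) →+* ℂ), LTB.Hyp ρ Ψ → ∀ (_ : NumberField (fieldE ρ)),
    ∃ (_ : NumberField (fieldF ρ)) (_ : Algebra (fieldF ρ) (fieldE ρ)),
      (∀ x : fieldF ρ, ((algebraMap (fieldF ρ) (fieldE ρ) x : fieldE ρ) : AlgebraicClosure ℚ)
        = (x : AlgebraicClosure ℚ)) ∧
      IsCycExt (fieldF ρ) (fieldE ρ) 3 ∧ TotCplx (fieldF ρ) ∧
      ∀ Φ : HeckeEigensystem (fieldE ρ) ℂ, SeedData (fieldE ρ) ρ Ψ ι Φ →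
        ConstOnFibres (fieldF ρ) Φ ∧ TrivCentral Φ ∧
        ∀ π : HeckeEigensystem (fieldF ρ) ℂ, IsBC π Φ → TrivCentral π →
          MidData (fieldF ρ) ρ Ψ ι π

/-- **LEAF DICT(F/ℚ).**  Under `LTB.Hyp`: `F = fieldF ρ` is imaginary quadratic, and if `π` over
`ℚ` has base change `πF` (relation `IsBCQ`) with `MidData`, then `π` has `BotData` (the residue
degree of `v ∣ p` in `F/ℚ` is `ordSL (ρ Frob_p)`).  No automorphic input. -/
def DictFQC : Prop :=
  ∀ (ρ : Γℚ →* GL (Fin 2) (ZMod 3)) (Ψ : GL (Fin 2) (ZMod 3) →* GL (Fin 2) (ℤ√(-2)))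
    (ι : ℤ√(-2) →+* ℂ), LTB.Hyp ρ Ψ → ∀ (_ : NumberField (fieldF ρ)),
    IsImagQuad (fieldF ρ) ∧
      ∀ πF : HeckeEigensystem (fieldF ρ) ℂ, MidData (fieldF ρ) ρ Ψ ι πF →
        ∀ π : HeckeEigensystem ℚ ℂ, IsBCQ π πF → BotData ρ Ψ ι π

/-- **LEAF T7.09 (elementary).**  Under `LTB.Hyp` the field `fieldF ρ` contains a square root of
`-3`: `det ∘ ρ` is the cyclotomic character modulo `3`, so `fieldF ρ` is the fixed field of the
stabiliser of the cube roots of unity, and `(2 ζ₃ + 1)² = -3`. -/
def SqrtC : Prop :=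
  ∀ (ρ : Γℚ →* GL (Fin 2) (ZMod 3)) (Ψ : GL (Fin 2) (ZMod 3) →* GL (Fin 2) (ℤ√(-2))),
    LTB.Hyp ρ Ψ → HasSqrtNegThree (fieldF ρ)

/-! ## 4b. Uniqueness at the station `F` (the fibre theorem in the form used by the wall) -/

/-- A set of prime numbers is THIN: `∑_{p ∈ A} 1/p < ∞`. -/
def IsThin (A : Set ℕ) : Prop := Summable fun p : A => ((p : ℕ) : ℝ)⁻¹

/-- A set of finite places of `K` is THIN: `∑_{v ∈ A} 1/N v < ∞`. -/
def IsThinPlaces {K : Type} [Field K] [NumberField K] (A : Set (HeightOneSpectrum (𝓞 K))) :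
    Prop :=
  Summable fun v : A => ((Ideal.absNorm (v : HeightOneSpectrum (𝓞 K)).asIdeal : ℕ) : ℝ)⁻¹

/-- `H130.AlmostAllFrob` with a THIN exceptional set of primes instead of a finite one. -/
def ThinFrob (K : Type) [Field K] [NumberField K] (ρ : Γℚ →* GL (Fin 2) (ZMod 3))
    (P : HeightOneSpectrum (𝓞 K) → GL (Fin 2) (ZMod 3) → Prop) : Prop :=
  ∃ A : Set ℕ, IsThin A ∧ ∀ p : ℕ, p.Prime → p ∉ A →
    ∀ V : ValuationSubring (AlgebraicClosure ℚ), V.LiesOverPrime p →
      ∀ σ : Γℚ, V.IsFrobeniusAt σ p →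
        ∀ w : HeightOneSpectrum (𝓞 K), ((p : ℕ) : 𝓞 K) ∈ w.asIdeal → P w (ρ σ)

/-- TRUE DATA over `F`, outside a thin set: `a_v = tr Ψ (Frob_v)`, `Frob_v = g ^ ordSL g`
(`tr Ψ` is a class function on `GL₂(𝔽₃)`, so the value does not depend on the place over `p`),
and `b_v = 1`. -/
def MidTrue (K : Type) [Field K] [NumberField K] (ρ : Γℚ →* GL (Fin 2) (ZMod 3))
    (Ψ : GL (Fin 2) (ZMod 3) →* GL (Fin 2) (ℤ√(-2))) (ι : ℤ√(-2) →+* ℂ)
    (π : HeckeEigensystem K ℂ) : Prop :=
  ThinFrob K ρ fun v g => π.a v = trΨ Ψ ι (g ^ ordSL g) ∧ π.b v = 1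

/-- **NODE THIN (mass bound over `F`).**  A cusp form over `F = ℚ(√-3)` with the data `MidData`
has the TRUE data outside a thin set of primes.
Proof plan.  (1) `MidData` gives, at `v ∣ p`, `p` split in `F`, `τ = ρ(Frob_p) ∈ SL₂(𝔽₃)`:
`a_v = tr Ψ τ` if `τ ∈ Q8`, and `a_v³ - 3 a_v = tr Ψ (τ³) = ± 2` otherwise, so
`a_v ∈ {tr Ψ τ = ∓ 1, ± 2}` (`x³ - 3x ∓ 2 = (x ∓ 2)(x ± 1)²`); at `p` inert in `F`, `Frob_v ∈ Q8`
and `a_v = tr Ψ (Frob_v)`.  (2) ELEMENTARY MASS BOUND (the method of tower T8, helper19 /
helper51, over `F`; `F` has class number one): `φ` bounded ⇒ `∑_{N 𝔞 ≤ X} |a_𝔞|² = O(X)` ⇒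
`∑_v |a_v|² N v^{-s} ≤ log (1/(s-1)) + O(1)` as `s → 1⁺` (Euler product, `|a_v| ≤ 2`).
(3) Chebotarev for `ρ` in the form `∑_{Frob_v ∈ C} N v^{-s} = (|C|/|G|) log (1/(s-1)) + O(1)`
and `⟨tr Ψ|_{SL₂}, tr Ψ|_{SL₂}⟩ = 1`: `∑_v |tr Ψ Frob_v|² N v^{-s} = log (1/(s-1)) + O(1)`.
(4) Each degenerate place contributes `4 - 1 = 3`: `3 ∑_{v degenerate} N v^{-s} ≤ O(1)`.
NO Rankin--Selberg integral (upper bound only). -/
def ThinC : Prop :=
  ∀ (ρ : Γℚ →* GL (Fin 2) (ZMod 3)) (Ψ : GL (Fin 2) (ZMod 3) →* GL (Fin 2) (ℤ√(-2)))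
    (ι : ℤ√(-2) →+* ℂ), LTB.Hyp ρ Ψ → ∀ (_ : NumberField (fieldF ρ))
    (π : HeckeEigensystem (fieldF ρ) ℂ), A0.IsCuspAdelicSph0 (fieldF ρ) π →
      MidData (fieldF ρ) ρ Ψ ι π → MidTrue (fieldF ρ) ρ Ψ ι π

/-- **NODE RIGID (strong multiplicity one outside a thin set).**  Two cusp forms over `K`
(totally complex), spherical of parameter `0`, with trivial central characters and `|a_v| ≤ 2`
almost everywhere, which have the same eigenvalues outside a THIN set of places, have the same
eigenvalues almost everywhere.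
[JS] Jacquet--Shalika (Thm 4.8 and its proof): `L^S(s, π × π̃')` is holomorphic at `s = 1` unless
`π' ≅ π`, and `L^S(s, π × π̃)` has a pole at `s = 1`; for tempered parameters
`log L^S(s, π × π̃') = ∑_v a_v ā'_v N v^{-s} + O(1)` and the thin set changes the sum by `O(1)`.
(Also a special case of Ramakrishnan, *A refinement of the strong multiplicity one theorem for
GL(2)*, Invent. Math. 116 (1994): density `< 1/8`.)
Inputs: the Eisenstein series `E(g, s)` of `GL₂(𝔸_K)` induced from the trivial character near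
`s = 1` (Epstein zeta function, Poisson summation `T3.PoissonC`), unfolding, the unramified
computation; the Whittaker function of parameter `0` at the complex places. -/
def RigidC (K : Type) [Field K] [NumberField K] : Prop :=
  TotCplx K →
  ∀ π π' : HeckeEigensystem K ℂ, A0.IsCuspAdelicSph0 K π → A0.IsCuspAdelicSph0 K π' →
    TrivCentral π → TrivCentral π' →
    (∃ S : Finset (HeightOneSpectrum (𝓞 K)), ∀ v : HeightOneSpectrum (𝓞 K), v ∉ S →
      ‖π.a v‖ ≤ 2 ∧ ‖π'.a v‖ ≤ 2) →
    (∃ A : Set (HeightOneSpectrum (𝓞 K)), IsThinPlaces A ∧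
      ∀ v : HeightOneSpectrum (𝓞 K), v ∉ A → π.a v = π'.a v) →
    AEq π π'

/-- `RigidC` for all number fields. -/
def RigidAll : Prop := ∀ (K : Type) [Field K] [NumberField K], RigidC K

/-- **Uniqueness at the station `F`.**  Two cusp forms over `F` with the data `MidData` (same
`ρ`, `Ψ`, `ι`) have the same eigenvalues almost everywhere. -/
def MidUniqueC : Prop :=
  ∀ (ρ : Γℚ →* GL (Fin 2) (ZMod 3)) (Ψ : GL (Fin 2) (ZMod 3) →* GL (Fin 2) (ℤ√(-2)))
    (ι : ℤ√(-2) →+* ℂ), LTB.Hyp ρ Ψ → ∀ (_ : NumberField (fieldF ρ))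
    (π π' : HeckeEigensystem (fieldF ρ) ℂ), A0.IsCuspAdelicSph0 (fieldF ρ) π →
      A0.IsCuspAdelicSph0 (fieldF ρ) π' →
      MidData (fieldF ρ) ρ Ψ ι π → MidData (fieldF ρ) ρ Ψ ι π' → AEq π π'

/-- **LEAF T7.07 (elementary).**  `ThinC + RigidAll ⇒ MidUniqueC`: both forms have the true
data outside a thin set of primes, hence agree outside a thin set of places (at most two places
of `F` over a prime, `N v ≥ p`); `b = 1` and `|a_v| ≤ 2` almost everywhere by `MidData`
(`a_v = tr Ψ τ`, `τ ∈ Q8`, or `a_v³ - 3 a_v = ± 2`); `F` is totally complex. -/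
def MidUniqueFromC : Prop := ThinC → RigidAll → MidUniqueC

/-- **Galois stability of the station `F`.**  A cusp form over `F` with the data `MidData` is
`Gal(F/ℚ)`-stable: its conjugate (`ConjC`) has the data `MidData` (`MidData` at `v` and at `s v`
is the SAME identity), hence is equal to it almost everywhere by `MidUniqueC`. -/
def MidStableC : Prop :=
  ∀ (ρ : Γℚ →* GL (Fin 2) (ZMod 3)) (Ψ : GL (Fin 2) (ZMod 3) →* GL (Fin 2) (ℤ√(-2)))
    (ι : ℤ√(-2) →+* ℂ), LTB.Hyp ρ Ψ → ∀ (_ : NumberField (fieldF ρ))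
    (πF : HeckeEigensystem (fieldF ρ) ℂ), A0.IsCuspAdelicSph0 (fieldF ρ) πF →
      MidData (fieldF ρ) ρ Ψ ι πF → ConstOnFibresQ πF

/-- **LEAF T7.04 (elementary; statement of v0, UNCHANGED).**
`FibreAll + ConjAll + DictEFC ⇒ MidStableC`.  Needs: `E` is a number field under `LTB.Hyp`; the
non-trivial automorphism of `F`; at a prime `p` split in `F` the two places over `p` are exchanged
by it, at an inert prime there is one place.  (Not used by `top` since v1; used by `top'`.) -/
def MidStableFromC : Prop := FibreAll → ConjAll → DictEFC → MidStableC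

/-- **LEAF T7.08 (elementary).**  `MidUniqueC + ConjAll ⇒ MidStableC`.  Needs: `F/ℚ` is Galois of
degree `2` under `LTB.Hyp` (the non-trivial automorphism `s` of `F`); the places of `F` over `p`
are `v` and `s v`; `MidData` is stable under `s` (same identity at `v` and at `s v`). -/
def MidStableFromUniqueC : Prop := MidUniqueC → ConjAll → MidStableC

/-! ## 5. The top (PROVED) -/

/-- `A3c_556` from the dictionary and the descent with trivial central character. -/
theorem a3c_of (hD : DictEFC) (hT : DescTrivAll) : WT.A3c_556 := by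
  intro ρ Ψ ι hyp hseed
  obtain ⟨nfE, Φ, hΦ, hdata⟩ := hseed
  obtain ⟨nfF, alg, -, hcyc, hcplx, hdict⟩ := hD ρ Ψ ι hyp nfE
  obtain ⟨hconst, htriv, hmid⟩ := hdict Φ hdata
  obtain ⟨π, hπ, hbc, hb⟩ := hT (fieldF ρ) (fieldE ρ) hcyc hcplx Φ hΦ hconst htriv
  exact ⟨nfF, π, hπ, hmid π hbc hb⟩

/-- `A3q_556` from the dictionary, the Galois stability of the station `F` and the quadratic
descent. -/
theorem a3q_of (hD : DictFQC) (hS : MidStableC) (hQ : DescQAll) : WT.A3q_556 := by
  intro ρ Ψ ι hyp hmidAt
  obtain ⟨nfF, πF, hπF, hdata⟩ := hmidAt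
  obtain ⟨hquad, hdict⟩ := hD ρ Ψ ι hyp nfF
  have hst := hS ρ Ψ ι hyp nfF πF hπF hdata
  have hQ' : DescQC (fieldF ρ) := hQ (fieldF ρ)
  unfold DescQC at hQ'
  obtain ⟨π, hπ, hbc⟩ := hQ' hquad πF hπF hst
  exact ⟨π, hπ, hdict πF hdata π hbc⟩

/-- `A3q_556` from the dictionary, the Galois stability of the station `F` and the quadratic
descent for `ℚ(√-3)`. -/
theorem a3q_of3 (hD : DictFQC) (hR : SqrtC) (hS : MidStableC) (hQ : DescQ3All) : WT.A3q_556 := by
  intro ρ Ψ ι hyp hmidAt
  obtain ⟨nfF, πF, hπF, hdata⟩ := hmidAt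
  obtain ⟨hquad, hdict⟩ := hD ρ Ψ ι hyp nfF
  have hst := hS ρ Ψ ι hyp nfF πF hπF hdata
  have hQ' : DescQ3C (fieldF ρ) := hQ (fieldF ρ)
  unfold DescQ3C DescQC at hQ'
  obtain ⟨π, hπ, hbc⟩ := hQ' (hR ρ Ψ hyp) hquad πF hπF hst
  exact ⟨π, hπ, hdict πF hdata π hbc⟩

/-- **THE TOP OF TOWER T7**: the two descent leaves of the frozen wall, VERBATIM, from the four
nodes (`DescAll`, `DescQ3All`, `ThinC`, `RigidAll`) and the eight leaves without trace formula. -/
theorem top (hDesc : DescAll) (hDescQ : DescQ3All) (hThin : ThinC) (hRigid : RigidAll)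
    (hTw : TwistAll) (hConj : ConjAll)
    (hDT : DescTrivFromC) (hMU : MidUniqueFromC) (hMS : MidStableFromUniqueC)
    (hEF : DictEFC) (hFQ : DictFQC) (hR : SqrtC) : WT.A3c_556 ∧ WT.A3q_556 :=
  ⟨a3c_of hEF (hDT hDesc hTw), a3q_of3 hFQ hR (hMS (hMU hThin hRigid) hConj) hDescQ⟩

/-- The top of v0 (through the general fibre theorem `FibreAll`), kept: every leaf of v0 is
still a leaf. -/
theorem top' (hDesc : DescAll) (hFib : FibreAll) (hDescQ : DescQAll)
    (hTw : TwistAll) (hConj : ConjAll)
    (hDT : DescTrivFromC) (hMS : MidStableFromC)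
    (hEF : DictEFC) (hFQ : DictFQC) : WT.A3c_556 ∧ WT.A3q_556 :=
  ⟨a3c_of hEF (hDT hDesc hTw), a3q_of hFQ (hMS hFib hConj hEF) hDescQ⟩

end Fermat.Agent.LT.T7

end
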