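import Mathlib
import Fermat.Agent.LT.H556.A0
import Fermat.Agent.LT.T7.Spec

/-!
# Row LT, tower T7 (architect helper797): the comparison layer -- first split of the nodes

OFF-MAIN.  Definitions, frozen Props, PROVED tops.  No `sorry`, nothing assumed.
Imports `T7/Spec.lean` (v1.2) only; the vocabulary is A0 + Prelude.

## What is proved here

    descAll_of   : TraceWordsAll  → SepAll → T7.DescAll
    descQ3All_of : TraceWordsQAll → SepAll → T7.DescQ3All

## The interface between the trace identities (T4, T5, T6) and the descent (T7)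

The comparison of the trace identities is consumed by T7 in ONE form, the TRACE IDENTITY FOR
WORDS.  Upstairs (over `K'`) and downstairs (over `K`) there are orthonormal families of joint
eigen-cusp-functions (`T2.IsCuspBasis`), with joint eigen-data `C_j` (upstairs) and `c_i`
(downstairs), and diagonal coefficients

    y_j = ⟨R(φ) R(σ) e'_j, e'_j⟩,      x_i = const · ⟨R(f) e_i, e_i⟩

of ONE matched pair `(φ, f)` of test functions.  For every WORD `X` in the commuting operators at
the places outside `S'` (Hecke operators `T_w`, `S_w`, `S_w⁻¹` at the finite places, sphere means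
of radius `d` at the infinite places) the pair `(φ ⋆ X, f ⋆ b(X))` is again matched, `X` acts on
`e'_j` by the scalar `X(C_j)` and `b(X)` acts on `e_i` by the scalar `X(Ĉ_i)`, `Ĉ_i` = the base
change of the parameters of `e_i`.  Hence

    ∑_i X(Ĉ_i) x_i  =  ∑_j X(C_j) y_j          for all words `X`.                    (★)

`TraceWordsC` asserts the existence of such data with (★), with a NON-ZERO total coefficient on
the class of the given `Π`, and with the realisation of every `c_i` whose base change is spherical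
of parameter `0` at infinity by a cusp form as in A0.  `SepC` (Stone--Weierstrass on the compact
space of unitary parameters; asset `LT/H907/HeckeSeparation.lean` of helper907) turns (★) into the
identity class by class.  The two together give the descent: `descAll_of`.

`TraceWordsC` is a NODE; its split (C0 bases, C1 operators on test functions, C2 geometric
comparison, C3 assembly of (★), C5 non-vanishing) is described in `coord/LT-T7-helper797.md` §C
and is the next file of this tower.
-/

set_option autoImplicit false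

open AutomorphicForm IsDedekindDomain NumberField
open scoped ComplexConjugate

noncomputable section

namespace Fermat.Agent.LT.T7

open Fermat.Agent.LT.H556

/-! ## 1. Joint eigen-data, words -/

/-- The eigenvalue function of the sphere means of parameter `0` at a complex place:
`d ↦ 4π d / sinh d` (the constant of `A0.MeanValueComplex`; equal to `T2.sph0C`). -/
def sph0 : ℝ → ℂ := fun d => ((4 * Real.pi * (d / Real.sinh d) : ℝ) : ℂ)

/-- Joint eigen-data over `K`: eigenvalues of `T_v` (unitary normalisation) and `S_v` at the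
finite places, eigenvalue functions of the sphere means at the infinite places. -/
structure EigData (K : Type) [Field K] [NumberField K] where
  /-- eigenvalue of `T_v / √q_v` -/
  a : HeightOneSpectrum (𝓞 K) → ℂ
  /-- eigenvalue of `S_v` -/
  b : HeightOneSpectrum (𝓞 K) → ℂ
  /-- eigenvalue of the sphere mean of radius `d` at `w` -/
  m : InfinitePlace K → ℝ → ℂ

/-- The eigen-data of an eigensystem which is spherical of parameter `0` at infinity. -/
def eigOf {K : Type} [Field K] [NumberField K] (π : HeckeEigensystem K ℂ) : EigData K :=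
  ⟨π.a, π.b, fun _ => sph0⟩

/-- The generators of the commutative algebra of operators: `T_w`, `S_w`, `S_w⁻¹` at a finite
place, the sphere mean of radius `d` at an infinite place. -/
inductive Gen (K : Type) [Field K] [NumberField K] : Type
  | T (w : HeightOneSpectrum (𝓞 K)) : Gen K
  | S (w : HeightOneSpectrum (𝓞 K)) : Gen K
  | Sinv (w : HeightOneSpectrum (𝓞 K)) : Gen K
  | M (w : InfinitePlace K) (d : ℝ) : Gen K

section Words

variable {K : Type} [Field K] [NumberField K]

/-- The eigenvalue of a generator on joint eigen-data. -/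
def Gen.ev : Gen K → EigData K → ℂ
  | Gen.T w, D => D.a w
  | Gen.S w, D => D.b w
  | Gen.Sinv w, D => (D.b w)⁻¹
  | Gen.M w d, D => D.m w d

/-- The generator lives outside the finite set `S` of finite places (and has positive radius). -/
def Gen.Out (S : Finset (HeightOneSpectrum (𝓞 K))) : Gen K → Prop
  | Gen.T w => w ∉ S
  | Gen.S w => w ∉ S
  | Gen.Sinv w => w ∉ S
  | Gen.M _ d => 0 < d

/-- The eigenvalue of a word (a product of generators). -/
def wordEv (X : List (Gen K)) (D : EigData K) : ℂ := (X.map fun g => g.ev D).prod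

/-- Two eigen-data agree outside `S` (and at all positive radii). -/
def EigData.AgreeOut (S : Finset (HeightOneSpectrum (𝓞 K))) (D D' : EigData K) : Prop :=
  (∀ w : HeightOneSpectrum (𝓞 K), w ∉ S → D.a w = D'.a w ∧ D.b w = D'.b w) ∧
    ∀ (w : InfinitePlace K) (d : ℝ), 0 < d → D.m w d = D'.m w d

/-- The eigen-data are UNITARY outside `S`: `|b_w| = 1`, `conj a_w = a_w conj b_w`
(`T_w* = S_w⁻¹ T_w`), `√q_w |a_w| ≤ q_w + 1`, the sphere means are self-adjoint of norm `≤ 4π`. -/
def EigData.IsUnitaryOut (S : Finset (HeightOneSpectrum (𝓞 K))) (D : EigData K) : Prop :=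
  (∀ w : HeightOneSpectrum (𝓞 K), w ∉ S →
      ‖D.b w‖ = 1 ∧ conj (D.a w) = D.a w * conj (D.b w) ∧
      ‖D.a w‖ * Real.sqrt (Ideal.absNorm w.asIdeal : ℝ) ≤ (Ideal.absNorm w.asIdeal : ℝ) + 1) ∧
    ∀ (w : InfinitePlace K) (d : ℝ), 0 < d → (D.m w d).im = 0 ∧ ‖D.m w d‖ ≤ 4 * Real.pi

/-- `D` is spherical of parameter `0` at every infinite place. -/
def EigData.IsSph0 (D : EigData K) : Prop :=
  ∀ (w : InfinitePlace K) (d : ℝ), 0 < d → D.m w d = sph0 d

end Words

/-! ## 2. The separation leaf -/

/-- **LEAF T7.C4 = SEP (separation of joint eigen-data).**  Two absolutely summable families of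
atoms on the compact space of unitary parameters outside `S` which have the same integral
against every word have the same mass at every point.
Proof: the words span a subalgebra of the continuous functions on the compact space
`X₀ = {unitary parameters}` (a closed subset of a product of discs and intervals) which contains
the constants, separates the points and is closed under conjugation (`conj a_w = a_w b_w⁻¹`,
`conj b_w = b_w⁻¹`, `m` real); Stone--Weierstrass; an atomic measure with summable weights is
determined by its integrals against continuous functions.  Asset: helper907,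
`LT/H907/HeckeSeparation.lean` (`hecke_atoms_eq_zero`, `sum_atoms_eq_zero_of_generators`).
Mathlib only. -/
def SepC (K : Type) [Field K] [NumberField K] : Prop :=
  ∀ (S : Finset (HeightOneSpectrum (𝓞 K))) (ι ι' : Type) (A : ι → EigData K)
    (B : ι' → EigData K) (x : ι → ℂ) (y : ι' → ℂ),
    Summable (fun i => ‖x i‖) → Summable (fun j => ‖y j‖) →
    (∀ i, (A i).IsUnitaryOut S) → (∀ j, (B j).IsUnitaryOut S) →
    (∀ X : List (Gen K), (∀ g ∈ X, g.Out S) →
      ∑' i, wordEv X (A i) * x i = ∑' j, wordEv X (B j) * y j) →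
    ∀ D₀ : EigData K,
      ∑' i : {i : ι // (A i).AgreeOut S D₀}, x i = ∑' j : {j : ι' // (B j).AgreeOut S D₀}, y j

/-- `SepC` for all number fields. -/
def SepAll : Prop := ∀ (K : Type) [Field K] [NumberField K], SepC K

/-! ## 3. The trace identity for words: cyclic extension, totally complex base -/

section Cyclic

variable (K K' : Type) [Field K] [NumberField K] [Field K'] [NumberField K'] [Algebra K K']

/-- The finite part of `Ĉ` (over `K'`) is the base change of the eigensystem `c` (over `K`)
outside `S'`. -/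
def IsBCEig (c : HeckeEigensystem K ℂ) (C : EigData K')
    (S' : Finset (HeightOneSpectrum (𝓞 K'))) : Prop :=
  ∀ w : HeightOneSpectrum (𝓞 K'), w ∉ S' →
    ∀ (v : HeightOneSpectrum (𝓞 K)) (f : ℕ), HasResDeg K K' v w f →
      C.a w = satakePow f (c.a v) (c.b v) ∧ C.b w = c.b v ^ f

/-- **NODE T7.C3 = TRACE IDENTITY FOR WORDS** (`K'/K` cyclic of odd prime degree, `K` totally
complex, `Π` a `Gal(K'/K)`-stable cusp form over `K'`).  There are a finite set `S'` of places of
`K'`, families of eigensystems `c i` over `K` with base changes `Ĉ i`, of joint eigen-data `C j`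
over `K'`, and absolutely summable coefficients `x i`, `y j` such that
* (★) holds for every word outside `S'`;
* the total coefficient of the class of `Π` upstairs is NOT zero;
* every `c i` whose base change is spherical of parameter `0` at infinity is the eigensystem of a
  cusp form as in A0.
Source: `T5.STFsigma` for `(K', σ)` and for `(K, id)` (= T4) applied to a matched pair
`(φ₁♮ ⋆ φ₂♮, f₁♮ ⋆ f₂♮)` (rulings R1-R3 of `coord/LT-T7-helper797.md`), `T5.GeomUnfold`,
`T5.RegularOfIwahori`, the local matching of T6 (`FundLemmaC`, `SplitMatchC`, `SplitInt3C`,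
`BadMatchC`, `NormClassC`, `NormInjC`, `TwCentC`, `NormImageTCC`), the bases of `T2.CuspSpec`, the
EK functions of T3 (`EKExistC`, with `Frob_{v₀}` of eigenvalues `≠ 1`: tower CFT) and multiplicity
one (non-vanishing of the twisted trace on the class of `Π`).  [L] §§4-6, 8, 10, 11; [F] §§1-2;
[LV] §§3-4. -/
def TraceWordsC : Prop :=
  ∀ ℓ : ℕ, IsCycExt K K' ℓ → ℓ ≠ 2 → TotCplx K →
    ∀ Φ : HeckeEigensystem K' ℂ, A0.IsCuspAdelicSph0 K' Φ → ConstOnFibres K Φ →
      ∃ (S' : Finset (HeightOneSpectrum (𝓞 K'))) (ι ι' : Type)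
        (c : ι → HeckeEigensystem K ℂ) (Ch : ι → EigData K') (C : ι' → EigData K')
        (x : ι → ℂ) (y : ι' → ℂ),
        Summable (fun i => ‖x i‖) ∧ Summable (fun j => ‖y j‖) ∧
        (∀ i, (Ch i).IsUnitaryOut S') ∧ (∀ j, (C j).IsUnitaryOut S') ∧
        (∀ i, IsBCEig K K' (c i) (Ch i) S') ∧
        (∀ X : List (Gen K'), (∀ g ∈ X, g.Out S') →
          ∑' i, wordEv X (Ch i) * x i = ∑' j, wordEv X (C j) * y j) ∧
        (∑' j : {j : ι' // (C j).AgreeOut S' (eigOf Φ)}, y j) ≠ 0 ∧
        ∀ i, (Ch i).IsSph0 → A0.IsCuspAdelicSph0 K (c i)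

end Cyclic

/-- `TraceWordsC` for all cyclic extensions. -/
def TraceWordsAll : Prop :=
  ∀ (K K' : Type) [Field K] [NumberField K] [Field K'] [NumberField K'] [Algebra K K'],
    TraceWordsC K K'

/-! ## 4. The trace identity for words: `ℚ(√-3) / ℚ` -/

/-- The finite part of `Ĉ` (over `F`) is the base change of the eigensystem `c` over `ℚ` outside
the primes of `S` (vocabulary of `T7.IsBCQ`). -/
def IsBCEigQ (F : Type) [Field F] [NumberField F] (c : HeckeEigensystem ℚ ℂ) (C : EigData F)
    (S : Finset ℕ) : Prop :=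
  ∀ p : ℕ, p.Prime → p ∉ S →
    ∀ v : HeightOneSpectrum (𝓞 ℚ), ((p : ℕ) : 𝓞 ℚ) ∈ v.asIdeal →
    ∀ (w : HeightOneSpectrum (𝓞 F)) (f : ℕ), ((p : ℕ) : 𝓞 F) ∈ w.asIdeal →
      Ideal.absNorm w.asIdeal = p ^ f →
      C.a w = satakePow f (c.a v) (c.b v) ∧ C.b w = c.b v ^ f

/-- **NODE T7.C3Q = TRACE IDENTITY FOR WORDS, `F = ℚ(√-3)` over `ℚ`.**  As `TraceWordsC`; the
infinite place of `ℚ` does not split in `F`, the forms downstairs have a `K_∞`-type (ruling R6),
and `Ĉ i` carries the sphere-mean eigenvalues of the base change `BC_{ℂ/ℝ}` of the archimedean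
parameter of the `i`-th form.  Realisation: if that base change is spherical of parameter `0`,
the archimedean component downstairs is `π(1,1)`, `π(sgn,sgn)` or `π(1,sgn)`, and `c i` is
cuspidal in the sense of `A0.notion556` (Maass form of eigenvalue `1/4`, or classical holomorphic
form of weight one; dictionary: rows `T7.Q.*`).  Archimedean matching: T6 `P7`. -/
def TraceWordsQC (F : Type) [Field F] [NumberField F] : Prop :=
  HasSqrtNegThree F → IsImagQuad F →
    ∀ Φ : HeckeEigensystem F ℂ, A0.IsCuspAdelicSph0 F Φ → ConstOnFibresQ Φ →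
      ∃ (S : Finset ℕ) (S' : Finset (HeightOneSpectrum (𝓞 F))) (ι ι' : Type)
        (c : ι → HeckeEigensystem ℚ ℂ) (Ch : ι → EigData F) (C : ι' → EigData F)
        (x : ι → ℂ) (y : ι' → ℂ),
        (∀ p : ℕ, p.Prime → ∀ w : HeightOneSpectrum (𝓞 F), ((p : ℕ) : 𝓞 F) ∈ w.asIdeal →
          w ∈ S' → p ∈ S) ∧
        Summable (fun i => ‖x i‖) ∧ Summable (fun j => ‖y j‖) ∧
        (∀ i, (Ch i).IsUnitaryOut S') ∧ (∀ j, (C j).IsUnitaryOut S') ∧
        (∀ i, IsBCEigQ F (c i) (Ch i) S) ∧
        (∀ X : List (Gen F), (∀ g ∈ X, g.Out S') →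
          ∑' i, wordEv X (Ch i) * x i = ∑' j, wordEv X (C j) * y j) ∧
        (∑' j : {j : ι' // (C j).AgreeOut S' (eigOf Φ)}, y j) ≠ 0 ∧
        ∀ i, (Ch i).IsSph0 → A0.notion556.IsCusp ℚ (c i)

/-- `TraceWordsQC` for all number fields (i.e. for `ℚ(√-3)`). -/
def TraceWordsQAll : Prop := ∀ (F : Type) [Field F] [NumberField F], TraceWordsQC F

/-! ## 5. The tops (PROVED) -/

section Tops

variable {K : Type} [Field K] [NumberField K]

/-- A sum over an empty index set vanishes: a non-zero sum has an index. -/
theorem exists_index_of_tsum_ne_zero {ι : Type} {P : ι → Prop} {x : ι → ℂ}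
    (h : (∑' i : {i : ι // P i}, x i) ≠ 0) : ∃ i, P i := by
  by_contra hne
  apply h
  have : IsEmpty {i : ι // P i} := ⟨fun i => hne ⟨i.1, i.2⟩⟩
  exact tsum_empty

theorem isSph0_of_agreeOut {S : Finset (HeightOneSpectrum (𝓞 K))} {D : EigData K}
    {π : HeckeEigensystem K ℂ} (h : D.AgreeOut S (eigOf π)) : D.IsSph0 :=
  fun w d hd => h.2 w d hd

end Tops

/-- **The cyclic descent from the trace identity for words and the separation.** -/
theorem descC_of (K K' : Type) [Field K] [NumberField K] [Field K'] [NumberField K']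
    [Algebra K K'] (hT : TraceWordsC K K') (hS : SepC K') : DescC K K' := by
  intro ℓ hcyc hℓ hcplx Φ hΦ hconst
  obtain ⟨S', ι, ι', c, Ch, C, x, y, hx, hy, hUA, hUB, hbc, hword, hne, hreal⟩ :=
    hT ℓ hcyc hℓ hcplx Φ hΦ hconst
  have hsep := hS S' ι ι' Ch C x y hx hy hUA hUB hword (eigOf Φ)
  rw [← hsep] at hne
  obtain ⟨i, hi⟩ := exists_index_of_tsum_ne_zero hne
  refine ⟨c i, hreal i (isSph0_of_agreeOut hi), S', ?_⟩
  intro w hw v f hvw
  obtain ⟨ha, hb⟩ := hbc i w hw v f hvw
  obtain ⟨ha', hb'⟩ := hi.1 w hw
  exact ⟨by rw [← ha, ha']; rfl, by rw [← hb, hb']; rfl⟩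

/-- **`DescAll` from the two Props of the comparison layer.** -/
theorem descAll_of (hT : TraceWordsAll) (hS : SepAll) : DescAll :=
  fun K K' _ _ _ _ _ => descC_of K K' (hT K K') (hS K')

/-- **The quadratic descent to `ℚ` from the trace identity for words and the separation.** -/
theorem descQ3C_of (F : Type) [Field F] [NumberField F] (hT : TraceWordsQC F) (hS : SepC F) :
    DescQ3C F := by
  intro h3 hquad Φ hΦ hconst
  obtain ⟨S, S', ι, ι', c, Ch, C, x, y, hSS', hx, hy, hUA, hUB, hbc, hword, hne, hreal⟩ :=
    hT h3 hquad Φ hΦ hconst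
  have hsep := hS S' ι ι' Ch C x y hx hy hUA hUB hword (eigOf Φ)
  rw [← hsep] at hne
  obtain ⟨i, hi⟩ := exists_index_of_tsum_ne_zero hne
  refine ⟨c i, hreal i (isSph0_of_agreeOut hi), S, ?_⟩
  intro p hp hpS v hv w f hw hf
  have hwS' : w ∉ S' := fun hmem => hpS (hSS' p hp w hw hmem)
  obtain ⟨ha, hb⟩ := hbc i p hp hpS v hv w f hw hf
  obtain ⟨ha', hb'⟩ := hi.1 w hwS'
  exact ⟨by rw [← ha, ha']; rfl, by rw [← hb, hb']; rfl⟩

/-- **`DescQ3All` from the two Props of the comparison layer.** -/
theorem descQ3All_of (hT : TraceWordsQAll) (hS : SepAll) : DescQ3All :=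
  fun F _ _ => descQ3C_of F (hT F) (hS F)

/-! ## Appendix (v0.1, additive): the equation lemmas of `Gen.ev`, `Gen.Out` are realised HERE

`Gen.ev` and `Gen.Out` are defined by pattern matching.  Their equation lemmas (`eq_1`, …,
`eq_def`) are generated on demand, in the module which first uses `simp [Gen.ev]`,
`unfold Gen.ev`, `rw [Gen.ev]`; copies generated in two different modules DIFFER (they mention
private auxiliary names) and the kernel checker of the grader rejects a closure which contains
both (helper8, helper112).  Citing them here generates them once, upstream of every user.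
No statement of this file is changed. -/

section Realise

variable {K : Type} [Field K] [NumberField K]

theorem Gen.ev_T797 (w : HeightOneSpectrum (𝓞 K)) (D : EigData K) : (Gen.T w).ev D = D.a w :=
  rfl

theorem Gen.ev_S797 (w : HeightOneSpectrum (𝓞 K)) (D : EigData K) : (Gen.S w).ev D = D.b w :=
  rfl

theorem Gen.ev_Sinv797 (w : HeightOneSpectrum (𝓞 K)) (D : EigData K) :
    (Gen.Sinv w).ev D = (D.b w)⁻¹ :=
  rfl

theorem Gen.ev_M797 (w : InfinitePlace K) (d : ℝ) (D : EigData K) : (Gen.M w d).ev D = D.m w d :=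
  rfl

theorem Gen.out_T797 (S : Finset (HeightOneSpectrum (𝓞 K))) (w : HeightOneSpectrum (𝓞 K)) :
    (Gen.T w).Out S = (w ∉ S) :=
  rfl

theorem Gen.out_S797 (S : Finset (HeightOneSpectrum (𝓞 K))) (w : HeightOneSpectrum (𝓞 K)) :
    (Gen.S w).Out S = (w ∉ S) :=
  rfl

theorem Gen.out_Sinv797 (S : Finset (HeightOneSpectrum (𝓞 K))) (w : HeightOneSpectrum (𝓞 K)) :
    (Gen.Sinv w).Out S = (w ∉ S) :=
  rfl

theorem Gen.out_M797 (S : Finset (HeightOneSpectrum (𝓞 K))) (w : InfinitePlace K) (d : ℝ) :
    (Gen.M w d).Out S = (0 < d) :=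
  rfl

theorem Gen.eqns_realised797 : True := by
  have _e1 := @Gen.ev.eq_1
  have _e2 := @Gen.ev.eq_2
  have _e3 := @Gen.ev.eq_3
  have _e4 := @Gen.ev.eq_4
  have _o1 := @Gen.Out.eq_1
  have _o2 := @Gen.Out.eq_2
  have _o3 := @Gen.Out.eq_3
  have _o4 := @Gen.Out.eq_4
  have _h1 := @Gen.ev.eq_def
  have _h2 := @Gen.Out.eq_def
  have _h3 := @Gen.ev.eq_unfold
  have _h4 := @Gen.Out.eq_unfold
  have _h5 := @wordEv.eq_1
  have _h6 := @wordEv.eq_def
  have _h7 := @wordEv.eq_unfold
  trivial

end Realise

end Fermat.Agent.LT.T7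

end
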