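import Mathlib
import Fermat.Agent.LT.H556.A0
import Fermat.Agent.LT.T7.Spec
import Fermat.Agent.LT.T7.Comparison
import Fermat.Agent.LT.T7.H557.DescTriv

/-!
# Row LT, tower T7 (architect helper797): the descent ALONG THE EK ROUTE -- the top that is used

OFF-MAIN.  Definitions, frozen Props, PROVED tops.  No `sorry`, nothing assumed.
ADDITIVE: `T7/Spec.lean` v1.2 (sha256 76a196044a64b920) and `T7/Comparison.lean` v0
(sha256 145a1ebb5a649e8e) are FROZEN and unchanged; every leaf delivered against them stays valid.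

## Why this file

The trace identities of T4/T5 are identities for EISENSTEIN-KILLING test functions (T3, operator
form `T3.EKOpExistC`): the test function contains, at an auxiliary place `w₀`, a Hecke
operator which acts on a spherical vector with Satake parameters `(z₁, z₂)` at `w₀` by a multiple
of `(1 - z₁ⁿ)(1 - z₂ⁿ)`.  So the comparison sees a cusp form `Φ` ONLY IF `Φ` has a GOOD EK PLACE:
a place `w₀ ∤ 𝔑` with `w₀ⁿ = (a₀)`, `a₀ ≡ 1 mod 𝔑`, whose Satake parameters are not `n`-th roots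
of unity.  The nodes `DescC`, `DescQ3C`, `TraceWordsC`, `TraceWordsQC` of v1.2 / v0 are TRUE for
every `Φ` (Langlands), but our route proves them for the `Φ` WITH a good EK place only.  The wall
needs nothing else: the seed over `E` and every form over `F` with `MidData` have good EK places
(`Frob_{w₀} = -1`, Satake parameters `(-1, -1)`, `n = 1`), by Chebotarev and class field theory
(leaves `SeedEKC`, `MidEKC`).

## What is proved here

    descEKAll_of     : TraceWordsEKAll  → SepAll → DescEKAll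
    descQ3EKAll_of   : TraceWordsQEKAll → SepAll → DescQ3EKAll
    descTrivEKAll_of : DescEKAll → TwistAll → DescTrivEKAll      (proof of helper557, re-typed)
    topEK            : … → WT.A3c_556 ∧ WT.A3q_556                (VERBATIM the frozen wall)

## The tower after this file (USED top = `topEK`)

```
A3c_556 ⇐ DictEFC + SeedEKC + DescTrivEKAll          DescTrivEKAll ⇐ DescEKAll + TwistAll
A3q_556 ⇐ DictFQC + SqrtC + MidEKC + MidStableC + DescQ3EKAll
MidStableC ⇐ MidUniqueC + ConjAll ,  MidUniqueC ⇐ ThinC + RigidAll          (as in v1.2)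
DescEKAll   ⇐ TraceWordsEKAll  + SepAll
DescQ3EKAll ⇐ TraceWordsQEKAll + SepAll
```

NODES: `TraceWordsEKAll`, `TraceWordsQEKAll` (split: `T7/Matching.lean`), `ThinC`, `RigidAll`.
LEAVES: `SepAll`, `SeedEKC`, `MidEKC`, `TwistAll`, `ConjAll`, `MidUniqueFromC`,
`MidStableFromUniqueC`, `DictEFC`, `DictFQC`, `SqrtC`.
-/

set_option autoImplicit false
set_option linter.style.haveILetI false

open AutomorphicForm FLT.ExplicitLift EisensteinWeightOne
open WeierstrassCurve CongruenceSubgroup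
open IsDedekindDomain NumberField
open scoped MatrixGroups

noncomputable section

namespace Fermat.Agent.LT.T7

open Fermat.Agent.LT.H130 Fermat.Agent.LT.H556

local notation "Γℚ" => (AlgebraicClosure ℚ ≃ₐ[ℚ] AlgebraicClosure ℚ)

/-! ## 1. Good EK places -/

/-- **`Φ` HAS GOOD EK PLACES**: for every level `𝔑 ≠ 0` and every finite set `S` of places there
are a place `w₀ ∉ S`, `w₀ ∤ 𝔑`, of PRIME absolute norm (residue degree one over `ℚ`, hence over
every subfield), an integer `n ≥ 1` and a generator `a₀ ≡ 1 mod 𝔑` of `w₀ⁿ`, such that no Satake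
parameter of `Φ` at `w₀` is an `n`-th root of unity.
(Then the Eisenstein-killing function of `T3.EKOpExistC` for `(𝔑, w₀, a₀, n)` acts on the vectors
of `Φ` by a NON-ZERO scalar.) -/
def GoodEK (K : Type) [Field K] [NumberField K] (Φ : HeckeEigensystem K ℂ) : Prop :=
  ∀ 𝔑 : Ideal (𝓞 K), 𝔑 ≠ ⊥ → ∀ S : Finset (HeightOneSpectrum (𝓞 K)),
    ∃ (w₀ : HeightOneSpectrum (𝓞 K)) (a₀ : 𝓞 K) (n : ℕ),
      w₀ ∉ S ∧ ¬ w₀.asIdeal ∣ 𝔑 ∧ (Ideal.absNorm w₀.asIdeal).Prime ∧ 0 < n ∧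
      Ideal.span {a₀} = w₀.asIdeal ^ n ∧ a₀ - 1 ∈ 𝔑 ∧
      ∀ z₁ z₂ : ℂ, z₁ + z₂ = Φ.a w₀ → z₁ * z₂ = Φ.b w₀ → z₁ ^ n ≠ 1 ∧ z₂ ^ n ≠ 1

/-- **LEAF T7.15 = SEED-EK (Chebotarev + ray classes over `E`).**  Under `LTB.Hyp` an eigensystem
over `E = fieldE ρ` with the data `SeedData` has good EK places.
Proof.  `L` = the field cut out by `ρ`, `Gal(L/E) = Q8`; `H` = the ray class field of `E` modulo
`𝔑`.  `L ∩ H` is abelian over `E`, hence fixed by `[Q8, Q8] = {± 1}`: there is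
`τ ∈ Gal(L H / E)` with `τ|_L = -1`, `τ|_H = 1`.  Chebotarev for `L H / E`: infinitely many places
`w₀` of `E` of degree one over `ℚ`, unramified, with Frobenius `τ`.  Then `w₀ = (a₀)`,
`a₀ ≡ 1 mod 𝔑` (`n = 1`), `ρ(Frob_p) = -1` for `p = N w₀`, and by `SeedData`
`a_{w₀} = tr Ψ(-1) = -2`, `b_{w₀} = 1` (`Ψ(-1) = -1`: it is central of order two and reduces to
`-1`): the Satake parameters are `(-1, -1)`, and `(-1)¹ ≠ 1`.
WITHOUT the ray class field: a place `w₀` with `ρ(Frob) = -1` whose class in the ray class group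
modulo `𝔑` has ODD order `n` suffices. -/
def SeedEKC : Prop :=
  ∀ (ρ : Γℚ →* GL (Fin 2) (ZMod 3)) (Ψ : GL (Fin 2) (ZMod 3) →* GL (Fin 2) (ℤ√(-2)))
    (ι : ℤ√(-2) →+* ℂ), LTB.Hyp ρ Ψ → ∀ (_ : NumberField (fieldE ρ))
    (Φ : HeckeEigensystem (fieldE ρ) ℂ), SeedData (fieldE ρ) ρ Ψ ι Φ → GoodEK (fieldE ρ) Φ

/-- **LEAF T7.16 = MID-EK (Chebotarev + ray classes over `F`).**  Under `LTB.Hyp` an eigensystem
over `F = fieldF ρ = ℚ(√-3)` with the data `MidData` has good EK places.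
Proof.  As `SeedEKC` with `Gal(L/F) = SL₂(𝔽₃)`, `[SL₂(𝔽₃), SL₂(𝔽₃)] = Q8 ∋ -1`: places `w₀` of
`F` of degree one with `ρ(Frob_{w₀}) = -1` and trivial ray class modulo `𝔑` (`F` has class number
one).  At such a place `ordSL g = 1`, `ordQ8 g = 1` and `MidData` reads `a_{w₀} = tr Ψ(-1) = -2`,
`b_{w₀} = 1` (NO degenerate value: the place splits in `E/F`). -/
def MidEKC : Prop :=
  ∀ (ρ : Γℚ →* GL (Fin 2) (ZMod 3)) (Ψ : GL (Fin 2) (ZMod 3) →* GL (Fin 2) (ℤ√(-2)))
    (ι : ℤ√(-2) →+* ℂ), LTB.Hyp ρ Ψ → ∀ (_ : NumberField (fieldF ρ))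
    (π : HeckeEigensystem (fieldF ρ) ℂ), MidData (fieldF ρ) ρ Ψ ι π → GoodEK (fieldF ρ) π

/-! ## 2. The descent nodes along the EK route -/

section Cyclic

variable (K K' : Type) [Field K] [NumberField K] [Field K'] [NumberField K'] [Algebra K K']

/-- **NODE DESC-EK** = `DescC` for the `Φ` with good EK places. -/
def DescEKC : Prop :=
  ∀ ℓ : ℕ, IsCycExt K K' ℓ → ℓ ≠ 2 → TotCplx K →
    ∀ Φ : HeckeEigensystem K' ℂ, A0.IsCuspAdelicSph0 K' Φ → ConstOnFibres K Φ →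
      GoodEK K' Φ →
      ∃ π : HeckeEigensystem K ℂ, A0.IsCuspAdelicSph0 K π ∧ IsBC π Φ

/-- **NODE T7.C3-EK = TRACE IDENTITY FOR WORDS along the EK route** = `TraceWordsC` for the `Φ`
with good EK places.  THIS is the node which the comparison of the trace identities proves
(split: `T7/Matching.lean`). -/
def TraceWordsEKC : Prop :=
  ∀ ℓ : ℕ, IsCycExt K K' ℓ → ℓ ≠ 2 → TotCplx K →
    ∀ Φ : HeckeEigensystem K' ℂ, A0.IsCuspAdelicSph0 K' Φ → ConstOnFibres K Φ →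
      GoodEK K' Φ →
      ∃ (S' : Finset (HeightOneSpectrum (𝓞 K'))) (ι ι' : Type)
        (c : ι → HeckeEigensystem K ℂ) (Ch : ι → EigData K') (C : ι' → EigData K')
        (x : ι → ℂ) (y : ι' → ℂ),
        Summable (fun i => ‖x i‖) ∧ Summable (fun j => ‖y j‖) ∧
        (∀ i, (Ch i).IsUnitaryOut S') ∧ (∀ j, (C j).IsUnitaryOut S') ∧
        (∀ i, IsBCEig K K' (c i) (Ch i) S') ∧
        (∀ X : List (Gen K'), (∀ g ∈ X, g.Out S') →
          ∑' i, wordEv X (Ch i) * x i = ∑' j, wordEv X (C j) * y j) ∧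
        (∑' j : {j : ι' // (C j).AgreeOut S' (eigOf Φ)}, y j) ≠ 0 ∧
        ∀ i, (Ch i).IsSph0 → A0.IsCuspAdelicSph0 K (c i)

end Cyclic

/-- `DescEKC` for all cyclic extensions. -/
def DescEKAll : Prop :=
  ∀ (K K' : Type) [Field K] [NumberField K] [Field K'] [NumberField K'] [Algebra K K'],
    DescEKC K K'

/-- `TraceWordsEKC` for all cyclic extensions. -/
def TraceWordsEKAll : Prop :=
  ∀ (K K' : Type) [Field K] [NumberField K] [Field K'] [NumberField K'] [Algebra K K'],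
    TraceWordsEKC K K'

/-- **NODE DESCQ3-EK** = `DescQ3C` for the `Φ` with good EK places. -/
def DescQ3EKC (F : Type) [Field F] [NumberField F] : Prop :=
  HasSqrtNegThree F → IsImagQuad F →
    ∀ Φ : HeckeEigensystem F ℂ, A0.IsCuspAdelicSph0 F Φ → ConstOnFibresQ Φ → GoodEK F Φ →
      ∃ π : HeckeEigensystem ℚ ℂ, A0.notion556.IsCusp ℚ π ∧ IsBCQ π Φ

/-- `DescQ3EKC` for all number fields (i.e. for `ℚ(√-3)`). -/
def DescQ3EKAll : Prop := ∀ (F : Type) [Field F] [NumberField F], DescQ3EKC F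

/-- **NODE T7.C3Q-EK** = `TraceWordsQC` for the `Φ` with good EK places. -/
def TraceWordsQEKC (F : Type) [Field F] [NumberField F] : Prop :=
  HasSqrtNegThree F → IsImagQuad F →
    ∀ Φ : HeckeEigensystem F ℂ, A0.IsCuspAdelicSph0 F Φ → ConstOnFibresQ Φ → GoodEK F Φ →
      ∃ (S : Finset ℕ) (S' : Finset (HeightOneSpectrum (𝓞 F))) (ι ι' : Type)
        (c : ι → HeckeEigensystem ℚ ℂ) (Ch : ι → EigData F) (C : ι' → EigData F)
        (x : ι → ℂ) (y : ι' → ℂ),
        (∀ p : ℕ, p.Prime → ∀ w : HeightOneSpectrum (𝓞 F), ((p : ℕ) : 𝓞 F) ∈ w.asIdeal →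
          w ∈ S' → p ∈ S) ∧
        Summable (fun i => ‖x i‖) ∧ Summable (fun j => ‖y j‖) ∧
        (∀ i, (Ch i).IsUnitaryOut S') ∧ (∀ j, (C j).IsUnitaryOut S') ∧
        (∀ i, IsBCEigQ F (c i) (Ch i) S) ∧
        (∀ X : List (Gen F), (∀ g ∈ X, g.Out S') →
          ∑' i, wordEv X (Ch i) * x i = ∑' j, wordEv X (C j) * y j) ∧
        (∑' j : {j : ι' // (C j).AgreeOut S' (eigOf Φ)}, y j) ≠ 0 ∧
        ∀ i, (Ch i).IsSph0 → A0.notion556.IsCusp ℚ (c i)

/-- `TraceWordsQEKC` for all number fields (i.e. for `ℚ(√-3)`). -/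
def TraceWordsQEKAll : Prop := ∀ (F : Type) [Field F] [NumberField F], TraceWordsQEKC F

/-- **Descent with trivial central character along the EK route** (degree `3`). -/
def DescTrivEKAll : Prop :=
  ∀ (K K' : Type) [Field K] [NumberField K] [Field K'] [NumberField K'] [Algebra K K'],
    IsCycExt K K' 3 → TotCplx K →
    ∀ Φ : HeckeEigensystem K' ℂ, A0.IsCuspAdelicSph0 K' Φ → ConstOnFibres K Φ →
      TrivCentral Φ → GoodEK K' Φ →
      ∃ π : HeckeEigensystem K ℂ, A0.IsCuspAdelicSph0 K π ∧ IsBC π Φ ∧ TrivCentral π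

/-! ## 3. The tops (PROVED) -/

/-- **The cyclic descent along the EK route from the trace identity for words.** -/
theorem descEKC_of (K K' : Type) [Field K] [NumberField K] [Field K'] [NumberField K']
    [Algebra K K'] (hT : TraceWordsEKC K K') (hS : SepC K') : DescEKC K K' := by
  intro ℓ hcyc hℓ hcplx Φ hΦ hconst hgood
  obtain ⟨S', ι, ι', c, Ch, C, x, y, hx, hy, hUA, hUB, hbc, hword, hne, hreal⟩ :=
    hT ℓ hcyc hℓ hcplx Φ hΦ hconst hgood
  have hsep := hS S' ι ι' Ch C x y hx hy hUA hUB hword (eigOf Φ)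
  rw [← hsep] at hne
  obtain ⟨i, hi⟩ := exists_index_of_tsum_ne_zero hne
  refine ⟨c i, hreal i (isSph0_of_agreeOut hi), S', ?_⟩
  intro w hw v f hvw
  obtain ⟨ha, hb⟩ := hbc i w hw v f hvw
  obtain ⟨ha', hb'⟩ := hi.1 w hw
  exact ⟨by rw [← ha, ha']; rfl, by rw [← hb, hb']; rfl⟩

/-- **`DescEKAll` from the two Props of the comparison layer.** -/
theorem descEKAll_of (hT : TraceWordsEKAll) (hS : SepAll) : DescEKAll :=
  fun K K' _ _ _ _ _ => descEKC_of K K' (hT K K') (hS K')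

/-- **The quadratic descent to `ℚ` along the EK route from the trace identity for words.** -/
theorem descQ3EKC_of (F : Type) [Field F] [NumberField F] (hT : TraceWordsQEKC F)
    (hS : SepC F) : DescQ3EKC F := by
  intro h3 hquad Φ hΦ hconst hgood
  obtain ⟨S, S', ι, ι', c, Ch, C, x, y, hSS', hx, hy, hUA, hUB, hbc, hword, hne, hreal⟩ :=
    hT h3 hquad Φ hΦ hconst hgood
  have hsep := hS S' ι ι' Ch C x y hx hy hUA hUB hword (eigOf Φ)
  rw [← hsep] at hne
  obtain ⟨i, hi⟩ := exists_index_of_tsum_ne_zero hne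
  refine ⟨c i, hreal i (isSph0_of_agreeOut hi), S, ?_⟩
  intro p hp hpS v hv w f hw hf
  have hwS' : w ∉ S' := fun hmem => hpS (hSS' p hp w hw hmem)
  obtain ⟨ha, hb⟩ := hbc i p hp hpS v hv w f hw hf
  obtain ⟨ha', hb'⟩ := hi.1 w hwS'
  exact ⟨by rw [← ha, ha']; rfl, by rw [← hb, hb']; rfl⟩

/-- **`DescQ3EKAll` from the two Props of the comparison layer.** -/
theorem descQ3EKAll_of (hT : TraceWordsQEKAll) (hS : SepAll) : DescQ3EKAll :=
  fun F _ _ => descQ3EKC_of F (hT F) (hS F)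

/-- **`DescEKAll + TwistAll ⇒ DescTrivEKAll`** (the proof of leaf T7.03 by helper557,
`LT/T7/H557/DescTriv.lean`, with the hypothesis `GoodEK` carried along). -/
theorem descTrivEKAll_of (hDesc : DescEKAll) (hTw : TwistAll) : DescTrivEKAll := by
  intro K K' _ _ _ _ _ hcyc hcplx Φ hΦ hconst htriv hgood
  obtain ⟨π₀, hπ₀, S₁, hbc⟩ := hDesc K K' 3 hcyc (by norm_num) hcplx Φ hΦ hconst hgood
  obtain ⟨S₂, htr⟩ := htriv
  obtain ⟨π', hπ', S₃, htw⟩ := hTw K π₀ hπ₀
  classical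
  have key : ∀ (w : HeightOneSpectrum (𝓞 K')) (v : HeightOneSpectrum (𝓞 K)) (f : ℕ),
      w ∉ S₁ → w ∉ S₂ → v ∉ S₃ → HasResDeg K K' v w f →
      (Φ.a w = satakePow f (π'.a v) (π'.b v) ∧ Φ.b w = π'.b v ^ f) ∧ π'.b v = 1 := by
    intro w v f h1 h2 h3 hres
    obtain ⟨ha, hb⟩ := hbc w h1 v f hres
    obtain ⟨ha', hb'⟩ := htw v h3
    have hbf : π₀.b v ^ f = 1 := by rw [← hb, htr w h2]
    have hf := H557.resDeg_cases_557 hcyc hres
    obtain ⟨e1, e2⟩ := H557.satakePow_twist_557 hf (π₀.a v) (π₀.b v) hbf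
    have hb3 : π₀.b v ^ 3 = 1 := by
      rcases hf with rfl | rfl
      · have : π₀.b v = 1 := by simpa using hbf
        rw [this, one_pow]
      · exact hbf
    refine ⟨⟨?_, ?_⟩, ?_⟩
    · rw [ha, ha', hb', e1]
    · rw [hb', e2, htr w h2]
    · rw [hb', hb3]
  refine ⟨π', hπ', ?_, ?_⟩
  · refine ⟨S₁ ∪ S₂ ∪ (H557.finite_over_557 (K' := K') S₃).toFinset, ?_⟩
    intro w hw v f hres
    simp only [Finset.mem_union, Set.Finite.mem_toFinset, Set.mem_ofPred_eq, not_or,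
      not_exists, not_and] at hw
    obtain ⟨⟨h1, h2⟩, h3⟩ := hw
    exact (key w v f h1 h2 (fun hv => h3 v hv hres.1) hres).1
  · refine ⟨S₃ ∪ (H557.finite_under_557 (K := K) (S₁ ∪ S₂)).toFinset, ?_⟩
    intro v hv
    simp only [Finset.mem_union, Set.Finite.mem_toFinset, Set.mem_ofPred_eq, not_or,
      not_exists, not_and] at hv
    obtain ⟨h3, h12⟩ := hv
    obtain ⟨w, hw⟩ := H557.exists_placeOver_557 (K' := K') v
    have hw1 : w ∉ S₁ := fun h => h12 w (Or.inl h) hw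
    have hw2 : w ∉ S₂ := fun h => h12 w (Or.inr h) hw
    haveI : w.asIdeal.LiesOver v.asIdeal := H557.placeOver_liesOver_557 hw
    have hN := Ideal.absNorm_eq_pow_inertiaDeg'_of_liesOver w.asIdeal v.asIdeal v.isPrime
      v.ne_bot
    exact (key w v _ hw1 hw2 h3 ⟨hw, hN⟩).2

/-- `A3c_556` along the EK route. -/
theorem a3c_ofEK (hD : DictEFC) (hE : SeedEKC) (hT : DescTrivEKAll) : WT.A3c_556 := by
  intro ρ Ψ ι hyp hseed
  obtain ⟨nfE, Φ, hΦ, hdata⟩ := hseed
  obtain ⟨nfF, alg, -, hcyc, hcplx, hdict⟩ := hD ρ Ψ ι hyp nfE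
  obtain ⟨hconst, htriv, hmid⟩ := hdict Φ hdata
  obtain ⟨π, hπ, hbc, hb⟩ :=
    hT (fieldF ρ) (fieldE ρ) hcyc hcplx Φ hΦ hconst htriv (hE ρ Ψ ι hyp nfE Φ hdata)
  exact ⟨nfF, π, hπ, hmid π hbc hb⟩

/-- `A3q_556` along the EK route. -/
theorem a3q_ofEK (hD : DictFQC) (hR : SqrtC) (hM : MidEKC) (hS : MidStableC)
    (hQ : DescQ3EKAll) : WT.A3q_556 := by
  intro ρ Ψ ι hyp hmidAt
  obtain ⟨nfF, πF, hπF, hdata⟩ := hmidAt
  obtain ⟨hquad, hdict⟩ := hD ρ Ψ ι hyp nfF
  have hst := hS ρ Ψ ι hyp nfF πF hπF hdata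
  obtain ⟨π, hπ, hbc⟩ :=
    hQ (fieldF ρ) (hR ρ Ψ hyp) hquad πF hπF hst (hM ρ Ψ ι hyp nfF πF hdata)
  exact ⟨π, hπ, hdict πF hdata π hbc⟩

/-- **THE TOP OF TOWER T7 ALONG THE EK ROUTE** (the top that is USED): the two descent leaves of
the frozen wall, VERBATIM, from the four nodes (`TraceWordsEKAll`, `TraceWordsQEKAll`, `ThinC`,
`RigidAll`) and the leaves without trace formula. -/
theorem topEK (hTW : TraceWordsEKAll) (hTWQ : TraceWordsQEKAll) (hSep : SepAll)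
    (hSeed : SeedEKC) (hMid : MidEKC) (hThin : ThinC) (hRigid : RigidAll)
    (hTw : TwistAll) (hConj : ConjAll) (hMU : MidUniqueFromC) (hMS : MidStableFromUniqueC)
    (hEF : DictEFC) (hFQ : DictFQC) (hR : SqrtC) : WT.A3c_556 ∧ WT.A3q_556 :=
  ⟨a3c_ofEK hEF hSeed (descTrivEKAll_of (descEKAll_of hTW hSep) hTw),
    a3q_ofEK hFQ hR hMid (hMS (hMU hThin hRigid) hConj) (descQ3EKAll_of hTWQ hSep)⟩

end Fermat.Agent.LT.T7

end
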