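import Mathlib
import Fermat.Agent.LT.H556.A0
import Fermat.Agent.LT.T7.Spec
import Fermat.Agent.LT.T7.Comparison
import Fermat.Agent.LT.T7.EK

/-!
# Row LT, tower T7 (architect helper797): the REGULAR trace identity for words and the
# decoupling of the regular place -- first split of `TraceWordsEKC`

OFF-MAIN.  Definitions, frozen Props, PROVED tops.  No `sorry`, nothing assumed.
ADDITIVE: `Spec.lean` v1.2, `Comparison.lean` v0, `EK.lean` are unchanged.

## THE POINT (why `TraceWordsEKC` is not the direct output of T5 + T6)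

The geometric side of T5 is unfolded for `σ`-REGULAR test functions only
(`T5.GeomUnfold`, `T5.RegularOfIwahori`): the component at an auxiliary place `u` (split in `K'`)
is the characteristic function `ρ_m` of `I diag(ϖ^m, 1) I`, and regularity holds for `m ≥ m₀(C)`
where `C` is a compact set containing the components OUTSIDE `u` of the support (product
formula: `q_u^m` must beat the eigenvalue ratios at all the other places).  A word `X` in the
Hecke operators and sphere means ENLARGES the support outside `u`.  Hence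

    the trace identity for `X ⋆ φ` holds for `m ≥ m₀(X)` only, and `m₀(X) → ∞` with `X`.

No single `m` serves all words, so the coefficients of `TraceWordsEKC` are NOT the diagonal
coefficients of one test function.  (Flicker, *Regular trace formula and base change lifting*,
§§1-2: the regular component is decoupled FIRST, by linear independence of characters.)

## The split

    TraceWordsEKC  ⇐  TraceWordsRegC  +  ExpSepC                      (PROVED: `traceWordsEKC_of_reg`)

* `TraceWordsRegC` (NODE, the true output of T5 ∘ T6 ∘ T3 ∘ T2): atoms upstairs and downstairs,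
  each with eigen-data outside `S'` AND a pair `(b, λ)` at the regular place
  (`b` = eigenvalue of the scalar uniformiser at `u`, `λ` = eigenvalue of `q_u^{-1/2} U_u`,
  `U_u = R(1_{I diag(ϖ,1) I})`, on a joint generalised eigenspace), and coefficients `x_i`, `y_j`
  (the traces away from `u`), such that for every word `X` outside `S'`

      ∑_i X(Ĉ_i) x_i b_i^k λ_i^m  =  ∑_j X(C_j) y_j b'_j^k λ'_j^m     for all `k ∈ ℤ`, `m ≥ m₀(X)`.

  Test function upstairs: `X ⋆ (EK ⋆ EK ⋆ φ^u) ⊗ z_u^k ρ_m` at the places `o 0, …, o (ℓ-1)` over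
  `u` (`ρ_m` at `o 0`, the Iwahori idempotent at the others); downstairs the matched function.
* `ExpSepC` (LEAF, analysis, Mathlib only): absolutely summable atoms `(b_i, λ_i)` with
  `|b| = 1`, `|λ| ≤ R` and `|λ| = 1` or `λ² / b > 0` are separated by the functions
  `(b, λ) ↦ b^k λ^m`, `k ∈ ℤ`, `m ≥ m₀`.

## Why the atoms have `|λ| = 1` or `λ² / b > 0`

`U_u` acts on the Iwahori-invariant vectors.  On the `u`-old part `λ` is a root of
`x² - a_u x + b_u` with `conj a_u = a_u conj b_u`, `|b_u| = 1` (unitarity): the roots `α, β`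
satisfy `{conj α, conj β} = {α⁻¹, β⁻¹}`, so `|α| = 1` or `conj α = β⁻¹`, i.e. `α² = |α|² b_u`.
On the `u`-new part `U_u = - T_ω` and `U_u² = S_u`: `λ² = b_u / q_u`.

## Why no polynomial factors in `m`

Downstairs `B = R(f^u)` commutes with `U_u`: `tr (B U_u^m)` is a sum of `β_k λ_k^m`
(simultaneous triangular form).  Upstairs `B = R(φ^u)` commutes with the `U_j = A^j U A^{-j}`
(`A = R(σ)`); on the joint generalised eigenspace `W` of `(U_0, …, U_{ℓ-1})` with eigenvalue
`(λ, …, λ)` (the only ones which `B U^m A` does not move) write `U_0 = λ (1 + N_0)`: then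
`(B N_0^k A)^ℓ = (∏_j A^j B A^{-j}) (∏_j N_j^k)` is nilpotent for `k ≥ 1`, so
`tr (B U_0^m A | W) = λ^m tr (B A | W)`.  Summability: the `W` are independent invariant
subspaces, so `∑_W |tr (B A | W)| ≤` the trace norm (Weyl's inequality).
-/

set_option autoImplicit false
set_option linter.style.haveILetI false

open AutomorphicForm IsDedekindDomain NumberField
open scoped ComplexConjugate

noncomputable section

namespace Fermat.Agent.LT.T7

open Fermat.Agent.LT.H556

/-! ## 1. The separation at the regular place -/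

/-- The parameters `(b, λ)` of an atom at the regular place: `|b| = 1`, `|λ| ≤ R`, and
`|λ| = 1` (tempered) or `λ² = t b` with `t > 0` (complementary series: `t = q^{± 2s}`;
Steinberg: `t = 1/q`). -/
def IsRegParam (R : ℝ) (b l : ℂ) : Prop :=
  ‖b‖ = 1 ∧ ‖l‖ ≤ R ∧ (‖l‖ = 1 ∨ ∃ t : ℝ, 0 < t ∧ l ^ 2 = (t : ℂ) * b)

/-- **LEAF T7.C7 = EXP-SEP (linear independence of characters at the regular place).**
Two absolutely summable families of atoms `(b, λ)` as in `IsRegParam` with
`∑_i a_i b_i^k λ_i^m = ∑_j a'_j b'_j^k λ'_j^m` for all `k ∈ ℤ` and all `m ≥ m₀` have the same mass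
at every point `(b₀, λ₀)`.
Proof.  (1) Fix `m`: the atomic measure `∑ a_i λ_i^m δ_{b_i}` on the unit circle is determined by
its Fourier coefficients (Cesàro means `(2N+1)⁻¹ ∑_{|k| ≤ N} b₀^{-k} (⋯)`, dominated
convergence): one may fix `b = b₀ = ζ₀²`.  (2) With `μ = λ / ζ₀`: `|μ| = 1` or `μ ∈ ℝ`.  The
generating function `G(t) = ∑ a_i μ_i^{m₀} / (1 - μ_i t)` vanishes near `0`, is holomorphic on
the unit disc minus a closed subset of the real axis (connected), hence vanishes there; the
limit of `(1 - μ₀ t) G(t)` along `t = 1/μ₀ + iε` isolates the atoms at a real `μ₀`, `|μ₀| > 1`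
(`|1 - μ_i t| ≥ |μ_i| ε` for real `μ_i`).  (3) Now all `|μ_i| ≤ 1`: the Cesàro means
`N⁻¹ ∑_{m < N} μ₀^{-m} (⋯)` isolate the atoms on the unit circle.  (4) The remaining atoms are
real with `|μ| < 1`: as (2) on `ℂ` minus the two real rays `|t| ≥ 1`.
(FALSE without a condition on the position of the `λ_i`: Wolff's series
`∑ a_i / (z - μ_i) ≡ 0`.)  Mathlib only. -/
def ExpSepC : Prop :=
  ∀ (ι ι' : Type) (a : ι → ℂ) (a' : ι' → ℂ) (b l : ι → ℂ) (b' l' : ι' → ℂ) (R : ℝ) (m₀ : ℕ),
    Summable (fun i => ‖a i‖) → Summable (fun j => ‖a' j‖) →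
    (∀ i, IsRegParam R (b i) (l i)) → (∀ j, IsRegParam R (b' j) (l' j)) →
    (∀ m : ℕ, m₀ ≤ m → ∀ k : ℤ,
      ∑' i, a i * b i ^ k * l i ^ m = ∑' j, a' j * b' j ^ k * l' j ^ m) →
    ∀ b₀ l₀ : ℂ,
      ∑' i : {i : ι // b i = b₀ ∧ l i = l₀}, a i
        = ∑' j : {j : ι' // b' j = b₀ ∧ l' j = l₀}, a' j

/-! ## 2. The regular trace identity for words -/

section Cyclic

variable (K K' : Type) [Field K] [NumberField K] [Field K'] [NumberField K'] [Algebra K K']

/-- **NODE T7.C3-REG = REGULAR TRACE IDENTITY FOR WORDS** (`K'/K` cyclic of odd prime degree,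
`K` totally complex, `Φ` a `Gal(K'/K)`-stable cusp form over `K'` with good EK places).
See the header.  The atoms carry the parameters `(b, λ)` at the regular place; the identity
holds for `m ≥ m₀(X)`; the total coefficient of the atoms of the class of `Φ` at ONE point
`(b₀, λ₀)` is not zero; every downstairs atom whose base change is spherical of parameter `0` at
infinity is realised by a cusp form as in A0.
Sources: `T5.Tower` for `(K', σ)` and `(K, id)`, T6 (`FundLemmaC`, `SplitMatchC`, `SplitInt3C`,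
`BadMatchC`, `NormClassC`, `NormInjC`, `TwCentC`, `NormImageTCC`, `OrbSumIntC`), `T3.EKOpExistC`
(smooth form), `T2.CuspSpec`, the Iwahori--Hecke algebra at `u`, multiplicity one in module form
(non-vanishing). -/
def TraceWordsRegC : Prop :=
  ∀ ℓ : ℕ, IsCycExt K K' ℓ → ℓ ≠ 2 → TotCplx K →
    ∀ Φ : HeckeEigensystem K' ℂ, A0.IsCuspAdelicSph0 K' Φ → ConstOnFibres K Φ →
      GoodEK K' Φ →
      ∃ (S' : Finset (HeightOneSpectrum (𝓞 K'))) (ι ι' : Type)
        (c : ι → HeckeEigensystem K ℂ) (Ch : ι → EigData K') (C : ι' → EigData K')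
        (b l : ι → ℂ) (b' l' : ι' → ℂ) (R : ℝ) (x : ι → ℂ) (y : ι' → ℂ),
        Summable (fun i => ‖x i‖) ∧ Summable (fun j => ‖y j‖) ∧
        (∀ i, (Ch i).IsUnitaryOut S') ∧ (∀ j, (C j).IsUnitaryOut S') ∧
        (∀ i, IsBCEig K K' (c i) (Ch i) S') ∧
        (∀ i, IsRegParam R (b i) (l i)) ∧ (∀ j, IsRegParam R (b' j) (l' j)) ∧
        (∀ X : List (Gen K'), (∀ g ∈ X, g.Out S') →
          ∃ m₀ : ℕ, ∀ m : ℕ, m₀ ≤ m → ∀ k : ℤ,
            ∑' i, wordEv X (Ch i) * x i * b i ^ k * l i ^ m
              = ∑' j, wordEv X (C j) * y j * b' j ^ k * l' j ^ m) ∧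
        (∃ b₀ l₀ : ℂ,
          (∑' j : {j : {j : ι' // b' j = b₀ ∧ l' j = l₀} //
              (C j.1).AgreeOut S' (eigOf Φ)}, y j.1.1) ≠ 0) ∧
        ∀ i, (Ch i).IsSph0 → A0.IsCuspAdelicSph0 K (c i)

end Cyclic

/-- `TraceWordsRegC` for all cyclic extensions. -/
def TraceWordsRegAll : Prop :=
  ∀ (K K' : Type) [Field K] [NumberField K] [Field K'] [NumberField K'] [Algebra K K'],
    TraceWordsRegC K K'

/-- **NODE T7.C3Q-REG = REGULAR TRACE IDENTITY FOR WORDS, `F = ℚ(√-3)` over `ℚ`.**  As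
`TraceWordsRegC`; the regular place is a prime number split in `F`; downstairs the trace
identity is the sum over the `K_∞`-types `0`, `+1`, `-1` (archimedean matching: T6 `P7`). -/
def TraceWordsQRegC (F : Type) [Field F] [NumberField F] : Prop :=
  HasSqrtNegThree F → IsImagQuad F →
    ∀ Φ : HeckeEigensystem F ℂ, A0.IsCuspAdelicSph0 F Φ → ConstOnFibresQ Φ → GoodEK F Φ →
      ∃ (S : Finset ℕ) (S' : Finset (HeightOneSpectrum (𝓞 F))) (ι ι' : Type)
        (c : ι → HeckeEigensystem ℚ ℂ) (Ch : ι → EigData F) (C : ι' → EigData F)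
        (b l : ι → ℂ) (b' l' : ι' → ℂ) (R : ℝ) (x : ι → ℂ) (y : ι' → ℂ),
        (∀ p : ℕ, p.Prime → ∀ w : HeightOneSpectrum (𝓞 F), ((p : ℕ) : 𝓞 F) ∈ w.asIdeal →
          w ∈ S' → p ∈ S) ∧
        Summable (fun i => ‖x i‖) ∧ Summable (fun j => ‖y j‖) ∧
        (∀ i, (Ch i).IsUnitaryOut S') ∧ (∀ j, (C j).IsUnitaryOut S') ∧
        (∀ i, IsBCEigQ F (c i) (Ch i) S) ∧
        (∀ i, IsRegParam R (b i) (l i)) ∧ (∀ j, IsRegParam R (b' j) (l' j)) ∧
        (∀ X : List (Gen F), (∀ g ∈ X, g.Out S') →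
          ∃ m₀ : ℕ, ∀ m : ℕ, m₀ ≤ m → ∀ k : ℤ,
            ∑' i, wordEv X (Ch i) * x i * b i ^ k * l i ^ m
              = ∑' j, wordEv X (C j) * y j * b' j ^ k * l' j ^ m) ∧
        (∃ b₀ l₀ : ℂ,
          (∑' j : {j : {j : ι' // b' j = b₀ ∧ l' j = l₀} //
              (C j.1).AgreeOut S' (eigOf Φ)}, y j.1.1) ≠ 0) ∧
        ∀ i, (Ch i).IsSph0 → A0.notion556.IsCusp ℚ (c i)

/-- `TraceWordsQRegC` for all number fields (i.e. for `ℚ(√-3)`). -/
def TraceWordsQRegAll : Prop := ∀ (F : Type) [Field F] [NumberField F], TraceWordsQRegC F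

/-! ## 3. Words are bounded on unitary eigen-data -/

section Bound

variable {K : Type} [Field K] [NumberField K]

/-- The bound of a generator on unitary eigen-data. -/
def Gen.bd : Gen K → ℝ
  | Gen.T w => ((Ideal.absNorm w.asIdeal : ℝ) + 1) / Real.sqrt (Ideal.absNorm w.asIdeal : ℝ)
  | Gen.S _ => 1
  | Gen.Sinv _ => 1
  | Gen.M _ _ => 4 * Real.pi

theorem Gen.bd_nonneg (g : Gen K) : 0 ≤ g.bd := by
  cases g with
  | T w => exact div_nonneg (by positivity) (Real.sqrt_nonneg _)
  | S w => exact zero_le_one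
  | Sinv w => exact zero_le_one
  | M w d => exact mul_nonneg (by norm_num) Real.pi_pos.le

theorem Gen.norm_ev_le {S : Finset (HeightOneSpectrum (𝓞 K))} {D : EigData K}
    (hD : D.IsUnitaryOut S) (g : Gen K) (hg : g.Out S) : ‖g.ev D‖ ≤ g.bd := by
  cases g with
  | T w =>
    have h := (hD.1 w hg).2.2
    have hq : 0 < (Ideal.absNorm w.asIdeal : ℝ) := by
      have h0 : Ideal.absNorm w.asIdeal ≠ 0 := by
        rw [Ne, Ideal.absNorm_eq_zero_iff]
        exact w.ne_bot
      exact_mod_cast Nat.pos_of_ne_zero h0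
    have hs : 0 < Real.sqrt (Ideal.absNorm w.asIdeal : ℝ) := Real.sqrt_pos.2 hq
    show ‖D.a w‖ ≤ _
    rw [Gen.bd, le_div_iff₀ hs]
    exact h
  | S w =>
    show ‖D.b w‖ ≤ 1
    rw [(hD.1 w hg).1]
  | Sinv w =>
    show ‖(D.b w)⁻¹‖ ≤ 1
    rw [norm_inv, (hD.1 w hg).1, inv_one]
  | M w d =>
    exact (hD.2 w d hg).2

/-- The bound of a word. -/
def wordBd (X : List (Gen K)) : ℝ := (X.map fun g => g.bd).prod

theorem wordBd_nonneg (X : List (Gen K)) : 0 ≤ wordBd X := by
  induction X with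
  | nil => simp [wordBd]
  | cons g X ih =>
    have : wordBd (g :: X) = g.bd * wordBd X := by simp [wordBd]
    rw [this]
    exact mul_nonneg g.bd_nonneg ih

theorem norm_wordEv_le {S : Finset (HeightOneSpectrum (𝓞 K))} {D : EigData K}
    (hD : D.IsUnitaryOut S) (X : List (Gen K)) (hX : ∀ g ∈ X, g.Out S) :
    ‖wordEv X D‖ ≤ wordBd X := by
  induction X with
  | nil => simp [wordEv, wordBd]
  | cons g X ih =>
    have e1 : wordEv (g :: X) D = g.ev D * wordEv X D := by simp [wordEv]
    have e2 : wordBd (g :: X) = g.bd * wordBd X := by simp [wordBd]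
    rw [e1, e2, norm_mul]
    exact mul_le_mul (Gen.norm_ev_le hD g (hX g (List.mem_cons_self)))
      (ih fun g' hg' => hX g' (List.mem_cons_of_mem _ hg')) (norm_nonneg _) g.bd_nonneg

theorem summable_word_mul {S : Finset (HeightOneSpectrum (𝓞 K))} {ι : Type}
    {A : ι → EigData K} {x : ι → ℂ} (hA : ∀ i, (A i).IsUnitaryOut S)
    (hx : Summable fun i => ‖x i‖) (X : List (Gen K)) (hX : ∀ g ∈ X, g.Out S) :
    Summable fun i => ‖wordEv X (A i) * x i‖ := by
  refine Summable.of_nonneg_of_le (fun i => norm_nonneg _) (fun i => ?_)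
    (hx.mul_left (wordBd X))
  rw [norm_mul]
  exact mul_le_mul_of_nonneg_right (norm_wordEv_le (hA i) X hX) (norm_nonneg _)

end Bound

/-! ## 4. The tops (PROVED) -/

/-- **`TraceWordsEKC` from the regular trace identity and the separation at the regular
place.** -/
theorem traceWordsEKC_of_reg (K K' : Type) [Field K] [NumberField K] [Field K']
    [NumberField K'] [Algebra K K'] (hT : TraceWordsRegC K K') (hE : ExpSepC) :
    TraceWordsEKC K K' := by
  intro ℓ hcyc hℓ hcplx Φ hΦ hconst hgood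
  obtain ⟨S', ι, ι', c, Ch, C, b, l, b', l', R, x, y, hx, hy, hUA, hUB, hbc, hp, hp', hword,
    ⟨b₀, l₀, hne⟩, hreal⟩ := hT ℓ hcyc hℓ hcplx Φ hΦ hconst hgood
  refine ⟨S', {i : ι // b i = b₀ ∧ l i = l₀}, {j : ι' // b' j = b₀ ∧ l' j = l₀},
    fun i => c i.1, fun i => Ch i.1, fun j => C j.1, fun i => x i.1, fun j => y j.1,
    hx.subtype _, hy.subtype _, fun i => hUA i.1, fun j => hUB j.1, fun i => hbc i.1, ?_, hne,
    fun i hi => hreal i.1 hi⟩
  intro X hX
  obtain ⟨m₀, hm⟩ := hword X hX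
  exact hE ι ι' (fun i => wordEv X (Ch i) * x i) (fun j => wordEv X (C j) * y j) b l b' l' R m₀
    (summable_word_mul hUA hx X hX) (summable_word_mul hUB hy X hX) hp hp' hm b₀ l₀

/-- `TraceWordsEKAll` from the two Props of this file. -/
theorem traceWordsEKAll_of_reg (hT : TraceWordsRegAll) (hE : ExpSepC) : TraceWordsEKAll :=
  fun K K' _ _ _ _ _ => traceWordsEKC_of_reg K K' (hT K K') hE

/-- **`TraceWordsQEKC` from the regular trace identity and the separation at the regular
place.** -/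
theorem traceWordsQEKC_of_reg (F : Type) [Field F] [NumberField F] (hT : TraceWordsQRegC F)
    (hE : ExpSepC) : TraceWordsQEKC F := by
  intro h3 hquad Φ hΦ hconst hgood
  obtain ⟨S, S', ι, ι', c, Ch, C, b, l, b', l', R, x, y, hSS', hx, hy, hUA, hUB, hbc, hp, hp',
    hword, ⟨b₀, l₀, hne⟩, hreal⟩ := hT h3 hquad Φ hΦ hconst hgood
  refine ⟨S, S', {i : ι // b i = b₀ ∧ l i = l₀}, {j : ι' // b' j = b₀ ∧ l' j = l₀},
    fun i => c i.1, fun i => Ch i.1, fun j => C j.1, fun i => x i.1, fun j => y j.1, hSS',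
    hx.subtype _, hy.subtype _, fun i => hUA i.1, fun j => hUB j.1, fun i => hbc i.1, ?_, hne,
    fun i hi => hreal i.1 hi⟩
  intro X hX
  obtain ⟨m₀, hm⟩ := hword X hX
  exact hE ι ι' (fun i => wordEv X (Ch i) * x i) (fun j => wordEv X (C j) * y j) b l b' l' R m₀
    (summable_word_mul hUA hx X hX) (summable_word_mul hUB hy X hX) hp hp' hm b₀ l₀

/-- `TraceWordsQEKAll` from the two Props of this file. -/
theorem traceWordsQEKAll_of_reg (hT : TraceWordsQRegAll) (hE : ExpSepC) : TraceWordsQEKAll :=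
  fun F _ _ => traceWordsQEKC_of_reg F (hT F) hE

/-- **THE TOP OF TOWER T7, level 2**: the two descent leaves of the frozen wall, VERBATIM, from
the four nodes (`TraceWordsRegAll`, `TraceWordsQRegAll`, `ThinC`, `RigidAll`) and the leaves. -/
theorem topReg (hTW : TraceWordsRegAll) (hTWQ : TraceWordsQRegAll) (hExp : ExpSepC)
    (hSep : SepAll) (hSeed : SeedEKC) (hMid : MidEKC) (hThin : ThinC) (hRigid : RigidAll)
    (hTw : TwistAll) (hConj : ConjAll) (hMU : MidUniqueFromC) (hMS : MidStableFromUniqueC)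
    (hEF : DictEFC) (hFQ : DictFQC) (hR : SqrtC) : WT.A3c_556 ∧ WT.A3q_556 :=
  topEK (traceWordsEKAll_of_reg hTW hExp) (traceWordsQEKAll_of_reg hTWQ hExp) hSep hSeed hMid
    hThin hRigid hTw hConj hMU hMS hEF hFQ hR

/-! ## Appendix (v0.1, additive): the equation lemmas of `Gen.bd` are realised HERE

See the appendix of `Comparison.lean`.  No statement of this file is changed. -/

theorem Gen.bd_eqns_realised797 : True := by
  have _e1 := @Gen.bd.eq_1
  have _e2 := @Gen.bd.eq_2
  have _e3 := @Gen.bd.eq_3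
  have _e4 := @Gen.bd.eq_4
  have _h1 := @Gen.bd.eq_def
  have _h2 := @Gen.bd.eq_unfold
  have _h3 := @wordBd.eq_1
  have _h4 := @wordBd.eq_def
  have _h5 := @wordBd.eq_unfold
  trivial

end Fermat.Agent.LT.T7

end
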