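import Mathlib
import Fermat.Agent.LT.H556.A0
import Fermat.Agent.LT.T7.Spec
import Fermat.Agent.LT.T7.Comparison
import Fermat.Agent.LT.T7.EK
import Fermat.Agent.LT.T7.Reg

/-!
# Row LT, tower T7 (architect helper797): the EK condition as a PARAMETER; the MULTI-PLACE
# condition `GoodEKM` -- ruling on the gap T7.15 / T7.16 (class field theory, existence)

OFF-MAIN.  Definitions, frozen Props, PROVED tops.  No `sorry`, nothing assumed.
ADDITIVE: `Spec.lean`, `Comparison.lean`, `EK.lean`, `Reg.lean` are unchanged.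

## The gap and the ruling

`GoodEK` (`EK.lean`) asks for ONE place `w₀` with `w₀ⁿ = (a₀)`, `a₀ ≡ 1 mod 𝔑`, `n` prime to
the order of the Satake parameters: this is a statement about the ray class of `w₀`, i.e. it
needs the EXISTENCE theorem of class field theory (helper96, helper681, helper589).  The
Eisenstein-killing device does not need a single place: any `a₀ ≡ 1 mod 𝔑` whose ideal is a
product `∏ w^{e_w}` of places prime to the level serves, and then the condition reads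
`∏_w z_w^{e_w} ≠ 1` for every choice of Satake parameters `z_w` at the places `w`
(helper371, helper799, helper604: NO class field theory, only Chebotarev over `ℚ` with a
congruence: `a₀ = -p`, `p ≡ -1 mod N'`, `ρ(Frob_p)` of order `8`; over `E`: `(p) = w₁ w₂ w₃`,
parameters `(i, -i)` at each `w_j`, every product of three of them is `± i`; over `F`:
`(p)` is ONE place, inert over `ℚ`, parameters `(i, -i)`).

RULING.  T7 carries the EK condition as a PARAMETER `P`.  All the tops of `EK.lean` / `Reg.lean`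
are proved here for an arbitrary `P`.  Two instances:

* `P = GoodEK`  (single place of prime norm): route (A), leaves `SeedEKC`, `MidEKC` through the
  existence theorem (sub-tower EX of tower CFT); the trace side needs `T3.EKOpExistC` as closed.
* `P = GoodEKM` (multi-place, no condition on the residue degrees): route (B), leaves
  `SeedEKMC`, `MidEKMC` through Chebotarev over `ℚ`; the trace side needs the MULTI-PLACE form of
  `T3.EKOpExistC` (new station T3.18M) -- for the step `F/ℚ` one place suffices, upstairs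
  (`(p)` inert), so the closed T3 serves there; for the step `E/F` three places are needed.

`GoodEK ⇒ GoodEKM` (`goodEKM_of_goodEK`), so a proof of the `GoodEKM`-nodes gives the
`GoodEK`-nodes.  Whichever route closes first is used.
-/

set_option autoImplicit false
set_option linter.style.haveILetI false

open AutomorphicForm FLT.ExplicitLift EisensteinWeightOne
open WeierstrassCurve CongruenceSubgroup
open IsDedekindDomain NumberField
open scoped MatrixGroups ComplexConjugate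

noncomputable section

namespace Fermat.Agent.LT.T7

open Fermat.Agent.LT.H130 Fermat.Agent.LT.H556

local notation "Γℚ" => (AlgebraicClosure ℚ ≃ₐ[ℚ] AlgebraicClosure ℚ)

/-- A condition on Hecke eigensystems over number fields (the EK condition as a parameter). -/
abbrev EKCond : Type 1 :=
  ∀ (K : Type) [Field K] [NumberField K], HeckeEigensystem K ℂ → Prop

/-- The single-place condition of `EK.lean` as an `EKCond`. -/
def ekSingle : EKCond := fun K _ _ Φ => GoodEK K Φ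

/-! ## 1. The multi-place condition -/

/-- **`Φ` HAS GOOD EK DATA (multi-place)**: for every level `𝔑 ≠ 0` and every finite set `S` of
places there are a finite set `P` of places outside `S`, prime to `𝔑`, exponents `e_w ≥ 1` and
`a₀ ≡ 1 mod 𝔑` with `(a₀) = ∏_{w ∈ P} w^{e_w}`, such that `∏_{w ∈ P} z_w^{e_w} ≠ 1` for EVERY
choice of Satake parameters `z_w` of `Φ` at the places of `P`
(`z_w² - a_w z_w + b_w = 0`).  No condition on the residue degrees. -/
def GoodEKM (K : Type) [Field K] [NumberField K] (Φ : HeckeEigensystem K ℂ) : Prop :=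
  ∀ 𝔑 : Ideal (𝓞 K), 𝔑 ≠ ⊥ → ∀ S : Finset (HeightOneSpectrum (𝓞 K)),
    ∃ (P : Finset (HeightOneSpectrum (𝓞 K))) (e : HeightOneSpectrum (𝓞 K) → ℕ) (a₀ : 𝓞 K),
      P.Nonempty ∧ (∀ w ∈ P, w ∉ S ∧ ¬ w.asIdeal ∣ 𝔑 ∧ 0 < e w) ∧
      Ideal.span {a₀} = ∏ w ∈ P, w.asIdeal ^ e w ∧ a₀ - 1 ∈ 𝔑 ∧
      ∀ z : HeightOneSpectrum (𝓞 K) → ℂ,
        (∀ w ∈ P, z w ^ 2 - Φ.a w * z w + Φ.b w = 0) → ∏ w ∈ P, z w ^ e w ≠ 1

/-- The multi-place condition as an `EKCond`. -/
def ekMulti : EKCond := fun K _ _ Φ => GoodEKM K Φ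

/-- The single-place condition implies the multi-place condition. -/
theorem goodEKM_of_goodEK (K : Type) [Field K] [NumberField K] (Φ : HeckeEigensystem K ℂ)
    (h : GoodEK K Φ) : GoodEKM K Φ := by
  intro 𝔑 h𝔑 S
  obtain ⟨w₀, a₀, n, hS, hN, -, hn, hspan, hmem, hz⟩ := h 𝔑 h𝔑 S
  refine ⟨{w₀}, fun _ => n, a₀, Finset.singleton_nonempty _, ?_, ?_, hmem, ?_⟩
  · intro w hw
    rw [Finset.mem_singleton] at hw
    subst hw
    exact ⟨hS, hN, hn⟩
  · rw [Finset.prod_singleton]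
    exact hspan
  · intro z hz'
    rw [Finset.prod_singleton]
    have h1 := hz' w₀ (Finset.mem_singleton_self _)
    -- the second root
    have h2 : (Φ.a w₀ - z w₀) + z w₀ = Φ.a w₀ := by ring
    have h3 : (Φ.a w₀ - z w₀) * z w₀ = Φ.b w₀ := by linear_combination -h1
    have := hz (z w₀) (Φ.a w₀ - z w₀) (by ring) (by linear_combination h3)
    exact this.1

/-- **LEAF T7.15M = SEED-EK, multi-place (Chebotarev over `ℚ` with a congruence; NO class field
theory).**  Witness (helper799, helper371): `N' > 0` an integer of `𝔑`, `p ∉` the bad set with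
`p ≡ -1 mod N'` and `g = ρ(Frob_p)` of order `8` (compatible: the maximal abelian subfield of the
field of `ρ` is `ℚ(√-3)`, and `det g = -1 ⇔ p ≡ -1 mod 3`); `a₀ = -p`; `g² ∈ Q8` has order `4`
and the image of `g` in `GL₂(𝔽₃)/Q8 = S₃` has order `2`: `(p) = w₁ w₂ w₃` in `E` with residue
degree `2`, `SeedData` gives `a_w = tr Ψ(g²) = 0`, `b_w = 1`, parameters `(i, -i)`; a product of
three of them is `± i ≠ 1`. -/
def SeedEKMC : Prop :=
  ∀ (ρ : Γℚ →* GL (Fin 2) (ZMod 3)) (Ψ : GL (Fin 2) (ZMod 3) →* GL (Fin 2) (ℤ√(-2)))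
    (ι : ℤ√(-2) →+* ℂ), LTB.Hyp ρ Ψ → ∀ (_ : NumberField (fieldE ρ))
    (Φ : HeckeEigensystem (fieldE ρ) ℂ), SeedData (fieldE ρ) ρ Ψ ι Φ → GoodEKM (fieldE ρ) Φ

/-- **LEAF T7.16M = MID-EK, multi-place.**  Same `p`: `(p)` is ONE place `v` of `F` (inert),
`a₀ = -p`, `Frob_v = g²`, `ordQ8 (g²) = 1`, and `MidData` reads `a_v = tr Ψ(g²) = 0`, `b_v = 1`:
parameters `(i, -i)`, `(± i)¹ ≠ 1`. -/
def MidEKMC : Prop :=
  ∀ (ρ : Γℚ →* GL (Fin 2) (ZMod 3)) (Ψ : GL (Fin 2) (ZMod 3) →* GL (Fin 2) (ℤ√(-2)))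
    (ι : ℤ√(-2) →+* ℂ), LTB.Hyp ρ Ψ → ∀ (_ : NumberField (fieldF ρ))
    (π : HeckeEigensystem (fieldF ρ) ℂ), MidData (fieldF ρ) ρ Ψ ι π → GoodEKM (fieldF ρ) π

/-- The two EK leaves for a condition `P`. -/
def SeedP (P : EKCond) : Prop :=
  ∀ (ρ : Γℚ →* GL (Fin 2) (ZMod 3)) (Ψ : GL (Fin 2) (ZMod 3) →* GL (Fin 2) (ℤ√(-2)))
    (ι : ℤ√(-2) →+* ℂ), LTB.Hyp ρ Ψ → ∀ (_ : NumberField (fieldE ρ))
    (Φ : HeckeEigensystem (fieldE ρ) ℂ), SeedData (fieldE ρ) ρ Ψ ι Φ → P (fieldE ρ) Φ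

/-- The two EK leaves for a condition `P`. -/
def MidP (P : EKCond) : Prop :=
  ∀ (ρ : Γℚ →* GL (Fin 2) (ZMod 3)) (Ψ : GL (Fin 2) (ZMod 3) →* GL (Fin 2) (ℤ√(-2)))
    (ι : ℤ√(-2) →+* ℂ), LTB.Hyp ρ Ψ → ∀ (_ : NumberField (fieldF ρ))
    (π : HeckeEigensystem (fieldF ρ) ℂ), MidData (fieldF ρ) ρ Ψ ι π → P (fieldF ρ) π

theorem seedP_single_iff : SeedP ekSingle ↔ SeedEKC := Iff.rfl
theorem midP_single_iff : MidP ekSingle ↔ MidEKC := Iff.rfl
theorem seedP_multi_iff : SeedP ekMulti ↔ SeedEKMC := Iff.rfl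
theorem midP_multi_iff : MidP ekMulti ↔ MidEKMC := Iff.rfl

/-! ## 2. The nodes for a condition `P` -/

section Cyclic

variable (P : EKCond)
variable (K K' : Type) [Field K] [NumberField K] [Field K'] [NumberField K'] [Algebra K K']

/-- `DescEKC` with the condition `P` in place of `GoodEK`. -/
def DescEKP : Prop :=
  ∀ ℓ : ℕ, IsCycExt K K' ℓ → ℓ ≠ 2 → TotCplx K →
    ∀ Φ : HeckeEigensystem K' ℂ, A0.IsCuspAdelicSph0 K' Φ → ConstOnFibres K Φ →
      P K' Φ →
      ∃ π : HeckeEigensystem K ℂ, A0.IsCuspAdelicSph0 K π ∧ IsBC π Φ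

/-- `TraceWordsEKC` with the condition `P` in place of `GoodEK`. -/
def TraceWordsEKP : Prop :=
  ∀ ℓ : ℕ, IsCycExt K K' ℓ → ℓ ≠ 2 → TotCplx K →
    ∀ Φ : HeckeEigensystem K' ℂ, A0.IsCuspAdelicSph0 K' Φ → ConstOnFibres K Φ →
      P K' Φ →
      ∃ (S' : Finset (HeightOneSpectrum (𝓞 K'))) (ι ι' : Type)
        (c : ι → HeckeEigensystem K ℂ) (Ch : ι → EigData K') (C : ι' → EigData K')
        (x : ι → ℂ) (y : ι' → ℂ),
        Summable (fun i => ‖x i‖) ∧ Summable (fun j => ‖y j‖) ∧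
        (∀ i, (Ch i).IsUnitaryOut S') ∧ (∀ j, (C j).IsUnitaryOut S') ∧
        (∀ i, IsBCEig K K' (c i) (Ch i) S') ∧
        (∀ X : List (Gen K'), (∀ g ∈ X, g.Out S') →
          ∑' i, wordEv X (Ch i) * x i = ∑' j, wordEv X (C j) * y j) ∧
        (∑' j : {j : ι' // (C j).AgreeOut S' (eigOf Φ)}, y j) ≠ 0 ∧
        ∀ i, (Ch i).IsSph0 → A0.IsCuspAdelicSph0 K (c i)

/-- **NODE T7.C3-REG for the condition `P`** = `TraceWordsRegC` with `P` in place of
`GoodEK`. -/
def TraceWordsRegP : Prop :=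
  ∀ ℓ : ℕ, IsCycExt K K' ℓ → ℓ ≠ 2 → TotCplx K →
    ∀ Φ : HeckeEigensystem K' ℂ, A0.IsCuspAdelicSph0 K' Φ → ConstOnFibres K Φ →
      P K' Φ →
      ∃ (S' : Finset (HeightOneSpectrum (𝓞 K'))) (ι ι' : Type)
        (c : ι → HeckeEigensystem K ℂ) (Ch : ι → EigData K') (C : ι' → EigData K')
        (b l : ι → ℂ) (b' l' : ι' → ℂ) (R : ℝ) (x : ι → ℂ) (y : ι' → ℂ),
        Summable (fun i => ‖x i‖) ∧ Summable (fun j => ‖y j‖) ∧
        (∀ i, (Ch i).IsUnitaryOut S') ∧ (∀ j, (C j).IsUnitaryOut S') ∧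
        (∀ i, IsBCEig K K' (c i) (Ch i) S') ∧
        (∀ i, IsRegParam R (b i) (l i)) ∧ (∀ j, IsRegParam R (b' j) (l' j)) ∧
        (∀ X : List (Gen K'), (∀ g ∈ X, g.Out S') →
          ∃ m₀ : ℕ, ∀ m : ℕ, m₀ ≤ m → ∀ k : ℤ,
            ∑' i, wordEv X (Ch i) * x i * b i ^ k * l i ^ m
              = ∑' j, wordEv X (C j) * y j * b' j ^ k * l' j ^ m) ∧
        (∃ b₀ l₀ : ℂ,
          (∑' j : {j : {j : ι' // b' j = b₀ ∧ l' j = l₀} //
              (C j.1).AgreeOut S' (eigOf Φ)}, y j.1.1) ≠ 0) ∧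
        ∀ i, (Ch i).IsSph0 → A0.IsCuspAdelicSph0 K (c i)

end Cyclic

/-- `DescEKP` for all cyclic extensions. -/
def DescEKPAll (P : EKCond) : Prop :=
  ∀ (K K' : Type) [Field K] [NumberField K] [Field K'] [NumberField K'] [Algebra K K'],
    DescEKP P K K'

/-- `TraceWordsEKP` for all cyclic extensions. -/
def TraceWordsEKPAll (P : EKCond) : Prop :=
  ∀ (K K' : Type) [Field K] [NumberField K] [Field K'] [NumberField K'] [Algebra K K'],
    TraceWordsEKP P K K'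

/-- `TraceWordsRegP` for all cyclic extensions. -/
def TraceWordsRegPAll (P : EKCond) : Prop :=
  ∀ (K K' : Type) [Field K] [NumberField K] [Field K'] [NumberField K'] [Algebra K K'],
    TraceWordsRegP P K K'

/-- `DescQ3EKC` with the condition `P` in place of `GoodEK`. -/
def DescQ3EKP (P : EKCond) (F : Type) [Field F] [NumberField F] : Prop :=
  HasSqrtNegThree F → IsImagQuad F →
    ∀ Φ : HeckeEigensystem F ℂ, A0.IsCuspAdelicSph0 F Φ → ConstOnFibresQ Φ → P F Φ →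
      ∃ π : HeckeEigensystem ℚ ℂ, A0.notion556.IsCusp ℚ π ∧ IsBCQ π Φ

/-- `DescQ3EKP` for all number fields. -/
def DescQ3EKPAll (P : EKCond) : Prop := ∀ (F : Type) [Field F] [NumberField F], DescQ3EKP P F

/-- `TraceWordsQEKC` with the condition `P` in place of `GoodEK`. -/
def TraceWordsQEKP (P : EKCond) (F : Type) [Field F] [NumberField F] : Prop :=
  HasSqrtNegThree F → IsImagQuad F →
    ∀ Φ : HeckeEigensystem F ℂ, A0.IsCuspAdelicSph0 F Φ → ConstOnFibresQ Φ → P F Φ →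
      ∃ (S : Finset ℕ) (S' : Finset (HeightOneSpectrum (𝓞 F))) (ι ι' : Type)
        (c : ι → HeckeEigensystem ℚ ℂ) (Ch : ι → EigData F) (C : ι' → EigData F)
        (x : ι → ℂ) (y : ι' → ℂ),
        (∀ p : ℕ, p.Prime → ∀ w : HeightOneSpectrum (𝓞 F), ((p : ℕ) : 𝓞 F) ∈ w.asIdeal →
          w ∈ S' → p ∈ S) ∧
        Summable (fun i => ‖x i‖) ∧ Summable (fun j => ‖y j‖) ∧
        (∀ i, (Ch i).IsUnitaryOut S') ∧ (∀ j, (C j).IsUnitaryOut S') ∧
        (∀ i, IsBCEigQ F (c i) (Ch i) S) ∧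
        (∀ X : List (Gen F), (∀ g ∈ X, g.Out S') →
          ∑' i, wordEv X (Ch i) * x i = ∑' j, wordEv X (C j) * y j) ∧
        (∑' j : {j : ι' // (C j).AgreeOut S' (eigOf Φ)}, y j) ≠ 0 ∧
        ∀ i, (Ch i).IsSph0 → A0.notion556.IsCusp ℚ (c i)

/-- `TraceWordsQEKP` for all number fields. -/
def TraceWordsQEKPAll (P : EKCond) : Prop :=
  ∀ (F : Type) [Field F] [NumberField F], TraceWordsQEKP P F

/-- **NODE T7.C3Q-REG for the condition `P`** = `TraceWordsQRegC` with `P` in place of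
`GoodEK`. -/
def TraceWordsQRegP (P : EKCond) (F : Type) [Field F] [NumberField F] : Prop :=
  HasSqrtNegThree F → IsImagQuad F →
    ∀ Φ : HeckeEigensystem F ℂ, A0.IsCuspAdelicSph0 F Φ → ConstOnFibresQ Φ → P F Φ →
      ∃ (S : Finset ℕ) (S' : Finset (HeightOneSpectrum (𝓞 F))) (ι ι' : Type)
        (c : ι → HeckeEigensystem ℚ ℂ) (Ch : ι → EigData F) (C : ι' → EigData F)
        (b l : ι → ℂ) (b' l' : ι' → ℂ) (R : ℝ) (x : ι → ℂ) (y : ι' → ℂ),
        (∀ p : ℕ, p.Prime → ∀ w : HeightOneSpectrum (𝓞 F), ((p : ℕ) : 𝓞 F) ∈ w.asIdeal →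
          w ∈ S' → p ∈ S) ∧
        Summable (fun i => ‖x i‖) ∧ Summable (fun j => ‖y j‖) ∧
        (∀ i, (Ch i).IsUnitaryOut S') ∧ (∀ j, (C j).IsUnitaryOut S') ∧
        (∀ i, IsBCEigQ F (c i) (Ch i) S) ∧
        (∀ i, IsRegParam R (b i) (l i)) ∧ (∀ j, IsRegParam R (b' j) (l' j)) ∧
        (∀ X : List (Gen F), (∀ g ∈ X, g.Out S') →
          ∃ m₀ : ℕ, ∀ m : ℕ, m₀ ≤ m → ∀ k : ℤ,
            ∑' i, wordEv X (Ch i) * x i * b i ^ k * l i ^ m
              = ∑' j, wordEv X (C j) * y j * b' j ^ k * l' j ^ m) ∧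
        (∃ b₀ l₀ : ℂ,
          (∑' j : {j : {j : ι' // b' j = b₀ ∧ l' j = l₀} //
              (C j.1).AgreeOut S' (eigOf Φ)}, y j.1.1) ≠ 0) ∧
        ∀ i, (Ch i).IsSph0 → A0.notion556.IsCusp ℚ (c i)

/-- `TraceWordsQRegP` for all number fields. -/
def TraceWordsQRegPAll (P : EKCond) : Prop :=
  ∀ (F : Type) [Field F] [NumberField F], TraceWordsQRegP P F

/-- `DescTrivEKAll` with the condition `P` in place of `GoodEK`. -/
def DescTrivEKPAll (P : EKCond) : Prop :=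
  ∀ (K K' : Type) [Field K] [NumberField K] [Field K'] [NumberField K'] [Algebra K K'],
    IsCycExt K K' 3 → TotCplx K →
    ∀ Φ : HeckeEigensystem K' ℂ, A0.IsCuspAdelicSph0 K' Φ → ConstOnFibres K Φ →
      TrivCentral Φ → P K' Φ →
      ∃ π : HeckeEigensystem K ℂ, A0.IsCuspAdelicSph0 K π ∧ IsBC π Φ ∧ TrivCentral π

/-! ### The instances `P = GoodEK` are the frozen Props of `EK.lean` / `Reg.lean` -/

theorem descEKPAll_single_iff : DescEKPAll ekSingle ↔ DescEKAll := Iff.rfl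
theorem traceWordsEKPAll_single_iff : TraceWordsEKPAll ekSingle ↔ TraceWordsEKAll := Iff.rfl
theorem traceWordsRegPAll_single_iff : TraceWordsRegPAll ekSingle ↔ TraceWordsRegAll := Iff.rfl
theorem descQ3EKPAll_single_iff : DescQ3EKPAll ekSingle ↔ DescQ3EKAll := Iff.rfl
theorem traceWordsQEKPAll_single_iff : TraceWordsQEKPAll ekSingle ↔ TraceWordsQEKAll :=
  Iff.rfl
theorem traceWordsQRegPAll_single_iff : TraceWordsQRegPAll ekSingle ↔ TraceWordsQRegAll :=
  Iff.rfl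
theorem descTrivEKPAll_single_iff : DescTrivEKPAll ekSingle ↔ DescTrivEKAll := Iff.rfl

/-- The multi-place nodes imply the single-place nodes (`GoodEK ⇒ GoodEKM`). -/
theorem traceWordsRegAll_of_multi (h : TraceWordsRegPAll ekMulti) : TraceWordsRegAll :=
  fun K K' _ _ _ _ _ ℓ hcyc hℓ hcplx Φ hΦ hconst hgood =>
    h K K' ℓ hcyc hℓ hcplx Φ hΦ hconst (goodEKM_of_goodEK K' Φ hgood)

/-- The multi-place nodes imply the single-place nodes (`GoodEK ⇒ GoodEKM`). -/
theorem traceWordsQRegAll_of_multi (h : TraceWordsQRegPAll ekMulti) : TraceWordsQRegAll :=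
  fun F _ _ h3 hquad Φ hΦ hconst hgood =>
    h F h3 hquad Φ hΦ hconst (goodEKM_of_goodEK F Φ hgood)

/-! ## 3. The tops for a condition `P` (PROVED) -/

/-- The cyclic descent for the condition `P` from the trace identity for words. -/
theorem descEKP_of (P : EKCond) (K K' : Type) [Field K] [NumberField K] [Field K']
    [NumberField K'] [Algebra K K'] (hT : TraceWordsEKP P K K') (hS : SepC K') :
    DescEKP P K K' := by
  intro ℓ hcyc hℓ hcplx Φ hΦ hconst hgood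
  obtain ⟨S', ι, ι', c, Ch, C, x, y, hx, hy, hUA, hUB, hbc, hword, hne, hreal⟩ :=
    hT ℓ hcyc hℓ hcplx Φ hΦ hconst hgood
  have hsep := hS S' ι ι' Ch C x y hx hy hUA hUB hword (eigOf Φ)
  rw [← hsep] at hne
  obtain ⟨i, hi⟩ := exists_index_of_tsum_ne_zero hne
  refine ⟨c i, hreal i (isSph0_of_agreeOut hi), S', ?_⟩
  intro w hw v f hvw
  obtain ⟨ha, hb⟩ := hbc i w hw v f hvw
  obtain ⟨ha', hb'⟩ := hi.1 w hw
  exact ⟨by rw [← ha, ha']; rfl, by rw [← hb, hb']; rfl⟩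

theorem descEKPAll_of (P : EKCond) (hT : TraceWordsEKPAll P) (hS : SepAll) : DescEKPAll P :=
  fun K K' _ _ _ _ _ => descEKP_of P K K' (hT K K') (hS K')

/-- The quadratic descent to `ℚ` for the condition `P` from the trace identity for words. -/
theorem descQ3EKP_of (P : EKCond) (F : Type) [Field F] [NumberField F]
    (hT : TraceWordsQEKP P F) (hS : SepC F) : DescQ3EKP P F := by
  intro h3 hquad Φ hΦ hconst hgood
  obtain ⟨S, S', ι, ι', c, Ch, C, x, y, hSS', hx, hy, hUA, hUB, hbc, hword, hne, hreal⟩ :=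
    hT h3 hquad Φ hΦ hconst hgood
  have hsep := hS S' ι ι' Ch C x y hx hy hUA hUB hword (eigOf Φ)
  rw [← hsep] at hne
  obtain ⟨i, hi⟩ := exists_index_of_tsum_ne_zero hne
  refine ⟨c i, hreal i (isSph0_of_agreeOut hi), S, ?_⟩
  intro p hp hpS v hv w f hw hf
  have hwS' : w ∉ S' := fun hmem => hpS (hSS' p hp w hw hmem)
  obtain ⟨ha, hb⟩ := hbc i p hp hpS v hv w f hw hf
  obtain ⟨ha', hb'⟩ := hi.1 w hwS'
  exact ⟨by rw [← ha, ha']; rfl, by rw [← hb, hb']; rfl⟩

theorem descQ3EKPAll_of (P : EKCond) (hT : TraceWordsQEKPAll P) (hS : SepAll) :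
    DescQ3EKPAll P :=
  fun F _ _ => descQ3EKP_of P F (hT F) (hS F)

/-- `DescEKPAll + TwistAll ⇒ DescTrivEKPAll` (the proof of leaf T7.03 by helper557 with the
hypothesis `P` carried along). -/
theorem descTrivEKPAll_of (P : EKCond) (hDesc : DescEKPAll P) (hTw : TwistAll) :
    DescTrivEKPAll P := by
  intro K K' _ _ _ _ _ hcyc hcplx Φ hΦ hconst htriv hgood
  obtain ⟨π₀, hπ₀, S₁, hbc⟩ := hDesc K K' 3 hcyc (by norm_num) hcplx Φ hΦ hconst hgood
  obtain ⟨S₂, htr⟩ := htriv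
  obtain ⟨π', hπ', S₃, htw⟩ := hTw K π₀ hπ₀
  classical
  have key : ∀ (w : HeightOneSpectrum (𝓞 K')) (v : HeightOneSpectrum (𝓞 K)) (f : ℕ),
      w ∉ S₁ → w ∉ S₂ → v ∉ S₃ → HasResDeg K K' v w f →
      (Φ.a w = satakePow f (π'.a v) (π'.b v) ∧ Φ.b w = π'.b v ^ f) ∧ π'.b v = 1 := by
    intro w v f h1 h2 h3 hres
    obtain ⟨ha, hb⟩ := hbc w h1 v f hres
    obtain ⟨ha', hb'⟩ := htw v h3
    have hbf : π₀.b v ^ f = 1 := by rw [← hb, htr w h2]
    have hf := H557.resDeg_cases_557 hcyc hres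
    obtain ⟨e1, e2⟩ := H557.satakePow_twist_557 hf (π₀.a v) (π₀.b v) hbf
    have hb3 : π₀.b v ^ 3 = 1 := by
      rcases hf with rfl | rfl
      · have : π₀.b v = 1 := by simpa using hbf
        rw [this, one_pow]
      · exact hbf
    refine ⟨⟨?_, ?_⟩, ?_⟩
    · rw [ha, ha', hb', e1]
    · rw [hb', e2, htr w h2]
    · rw [hb', hb3]
  refine ⟨π', hπ', ?_, ?_⟩
  · refine ⟨S₁ ∪ S₂ ∪ (H557.finite_over_557 (K' := K') S₃).toFinset, ?_⟩
    intro w hw v f hres
    simp only [Finset.mem_union, Set.Finite.mem_toFinset, Set.mem_ofPred_eq, not_or,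
      not_exists, not_and] at hw
    obtain ⟨⟨h1, h2⟩, h3⟩ := hw
    exact (key w v f h1 h2 (fun hv => h3 v hv hres.1) hres).1
  · refine ⟨S₃ ∪ (H557.finite_under_557 (K := K) (S₁ ∪ S₂)).toFinset, ?_⟩
    intro v hv
    simp only [Finset.mem_union, Set.Finite.mem_toFinset, Set.mem_ofPred_eq, not_or,
      not_exists, not_and] at hv
    obtain ⟨h3, h12⟩ := hv
    obtain ⟨w, hw⟩ := H557.exists_placeOver_557 (K' := K') v
    have hw1 : w ∉ S₁ := fun h => h12 w (Or.inl h) hw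
    have hw2 : w ∉ S₂ := fun h => h12 w (Or.inr h) hw
    haveI : w.asIdeal.LiesOver v.asIdeal := H557.placeOver_liesOver_557 hw
    have hN := Ideal.absNorm_eq_pow_inertiaDeg'_of_liesOver w.asIdeal v.asIdeal v.isPrime
      v.ne_bot
    exact (key w v _ hw1 hw2 h3 ⟨hw, hN⟩).2

/-- `TraceWordsEKP` from the regular trace identity and the separation at the regular place. -/
theorem traceWordsEKP_of_reg (P : EKCond) (K K' : Type) [Field K] [NumberField K] [Field K']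
    [NumberField K'] [Algebra K K'] (hT : TraceWordsRegP P K K') (hE : ExpSepC) :
    TraceWordsEKP P K K' := by
  intro ℓ hcyc hℓ hcplx Φ hΦ hconst hgood
  obtain ⟨S', ι, ι', c, Ch, C, b, l, b', l', R, x, y, hx, hy, hUA, hUB, hbc, hp, hp', hword,
    ⟨b₀, l₀, hne⟩, hreal⟩ := hT ℓ hcyc hℓ hcplx Φ hΦ hconst hgood
  refine ⟨S', {i : ι // b i = b₀ ∧ l i = l₀}, {j : ι' // b' j = b₀ ∧ l' j = l₀},
    fun i => c i.1, fun i => Ch i.1, fun j => C j.1, fun i => x i.1, fun j => y j.1,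
    hx.subtype _, hy.subtype _, fun i => hUA i.1, fun j => hUB j.1, fun i => hbc i.1, ?_, hne,
    fun i hi => hreal i.1 hi⟩
  intro X hX
  obtain ⟨m₀, hm⟩ := hword X hX
  exact hE ι ι' (fun i => wordEv X (Ch i) * x i) (fun j => wordEv X (C j) * y j) b l b' l' R m₀
    (summable_word_mul hUA hx X hX) (summable_word_mul hUB hy X hX) hp hp' hm b₀ l₀

theorem traceWordsEKPAll_of_reg (P : EKCond) (hT : TraceWordsRegPAll P) (hE : ExpSepC) :
    TraceWordsEKPAll P :=
  fun K K' _ _ _ _ _ => traceWordsEKP_of_reg P K K' (hT K K') hE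

/-- `TraceWordsQEKP` from the regular trace identity and the separation at the regular
place. -/
theorem traceWordsQEKP_of_reg (P : EKCond) (F : Type) [Field F] [NumberField F]
    (hT : TraceWordsQRegP P F) (hE : ExpSepC) : TraceWordsQEKP P F := by
  intro h3 hquad Φ hΦ hconst hgood
  obtain ⟨S, S', ι, ι', c, Ch, C, b, l, b', l', R, x, y, hSS', hx, hy, hUA, hUB, hbc, hp, hp',
    hword, ⟨b₀, l₀, hne⟩, hreal⟩ := hT h3 hquad Φ hΦ hconst hgood
  refine ⟨S, S', {i : ι // b i = b₀ ∧ l i = l₀}, {j : ι' // b' j = b₀ ∧ l' j = l₀},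
    fun i => c i.1, fun i => Ch i.1, fun j => C j.1, fun i => x i.1, fun j => y j.1, hSS',
    hx.subtype _, hy.subtype _, fun i => hUA i.1, fun j => hUB j.1, fun i => hbc i.1, ?_, hne,
    fun i hi => hreal i.1 hi⟩
  intro X hX
  obtain ⟨m₀, hm⟩ := hword X hX
  exact hE ι ι' (fun i => wordEv X (Ch i) * x i) (fun j => wordEv X (C j) * y j) b l b' l' R m₀
    (summable_word_mul hUA hx X hX) (summable_word_mul hUB hy X hX) hp hp' hm b₀ l₀

theorem traceWordsQEKPAll_of_reg (P : EKCond) (hT : TraceWordsQRegPAll P) (hE : ExpSepC) :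
    TraceWordsQEKPAll P :=
  fun F _ _ => traceWordsQEKP_of_reg P F (hT F) hE

/-- `A3c_556` for the condition `P`. -/
theorem a3c_ofP (P : EKCond) (hD : DictEFC) (hE : SeedP P) (hT : DescTrivEKPAll P) :
    WT.A3c_556 := by
  intro ρ Ψ ι hyp hseed
  obtain ⟨nfE, Φ, hΦ, hdata⟩ := hseed
  obtain ⟨nfF, alg, -, hcyc, hcplx, hdict⟩ := hD ρ Ψ ι hyp nfE
  obtain ⟨hconst, htriv, hmid⟩ := hdict Φ hdata
  obtain ⟨π, hπ, hbc, hb⟩ :=
    hT (fieldF ρ) (fieldE ρ) hcyc hcplx Φ hΦ hconst htriv (hE ρ Ψ ι hyp nfE Φ hdata)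
  exact ⟨nfF, π, hπ, hmid π hbc hb⟩

/-- `A3q_556` for the condition `P`. -/
theorem a3q_ofP (P : EKCond) (hD : DictFQC) (hR : SqrtC) (hM : MidP P) (hS : MidStableC)
    (hQ : DescQ3EKPAll P) : WT.A3q_556 := by
  intro ρ Ψ ι hyp hmidAt
  obtain ⟨nfF, πF, hπF, hdata⟩ := hmidAt
  obtain ⟨hquad, hdict⟩ := hD ρ Ψ ι hyp nfF
  have hst := hS ρ Ψ ι hyp nfF πF hπF hdata
  obtain ⟨π, hπ, hbc⟩ :=
    hQ (fieldF ρ) (hR ρ Ψ hyp) hquad πF hπF hst (hM ρ Ψ ι hyp nfF πF hdata)
  exact ⟨π, hπ, hdict πF hdata π hbc⟩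

/-- **THE TOP OF TOWER T7 FOR A CONDITION `P`**: the two descent leaves of the frozen wall,
VERBATIM, from the regular trace identities for the `Φ` with `P`, the two leaves "the seed / the
middle forms have `P`", and the leaves without trace formula.  Even two DIFFERENT conditions may
be used for the two steps. -/
theorem topRegP (P Q : EKCond) (hTW : TraceWordsRegPAll P) (hTWQ : TraceWordsQRegPAll Q)
    (hExp : ExpSepC) (hSep : SepAll) (hSeed : SeedP P) (hMid : MidP Q) (hThin : ThinC)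
    (hRigid : RigidAll) (hTw : TwistAll) (hConj : ConjAll) (hMU : MidUniqueFromC)
    (hMS : MidStableFromUniqueC) (hEF : DictEFC) (hFQ : DictFQC) (hR : SqrtC) :
    WT.A3c_556 ∧ WT.A3q_556 :=
  ⟨a3c_ofP P hEF hSeed
      (descTrivEKPAll_of P (descEKPAll_of P (traceWordsEKPAll_of_reg P hTW hExp) hSep) hTw),
    a3q_ofP Q hFQ hR hMid (hMS (hMU hThin hRigid) hConj)
      (descQ3EKPAll_of Q (traceWordsQEKPAll_of_reg Q hTWQ hExp) hSep)⟩

/-- **Route (B)**: multi-place upstairs for `E/F`, multi-place (one inert place) for `F/ℚ`. -/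
theorem topRegM (hTW : TraceWordsRegPAll ekMulti) (hTWQ : TraceWordsQRegPAll ekMulti)
    (hExp : ExpSepC) (hSep : SepAll) (hSeed : SeedEKMC) (hMid : MidEKMC) (hThin : ThinC)
    (hRigid : RigidAll) (hTw : TwistAll) (hConj : ConjAll) (hMU : MidUniqueFromC)
    (hMS : MidStableFromUniqueC) (hEF : DictEFC) (hFQ : DictFQC) (hR : SqrtC) :
    WT.A3c_556 ∧ WT.A3q_556 :=
  topRegP ekMulti ekMulti hTW hTWQ hExp hSep hSeed hMid hThin hRigid hTw hConj hMU hMS hEF hFQ hR

end Fermat.Agent.LT.T7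

end
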