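import Mathlib
import Fermat.Agent.LT.H556.A0
import Fermat.Agent.LT.T5.Spec
import Fermat.Agent.LT.T6.Spec
import Fermat.Agent.LT.T7.Spec
import Fermat.Agent.LT.T7.Comparison
import Fermat.Agent.LT.T7.EK
import Fermat.Agent.LT.T7.Reg

/-!
# Row LT, tower T7 (architect helper797): level 2 of the comparison -- frames, matched pairs,
# the class bijection, the SPECTRAL IDENTITY for matched pairs

OFF-MAIN.  Definitions, frozen Props, PROVED `specIdC_of`.  No `sorry`, nothing assumed.
Vocabulary: `T5/Spec.lean` v4 (sha256 f2d97e70, helper32), `T6/Spec.lean` v3 (sha256 8c5f2ae7,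
helper22), byte-identical copies.

## Content

* `Frame5`, `CompData`, `IsCompData`: the data of the comparison for `K'/K` -- the generator `σ`
  as a `T5.AdelicAut K'`, the image `k` of `K` in `K'`, levels `𝔫` and `𝔑 = 𝔫 𝒪_{K'}`, a frame
  (Haar measure, fundamental domain, ray generator) for each field, `σ` preserving the frame of
  `K'`.
* `IsAdm5`: a test function to which `T5.STFsigma` AND `T5.GeomUnfold` apply (product of two
  Eisenstein-killing test functions, `σ`-regular).
* `IsGlobMatch D φ' f`: `φ'` (over `K'`) and `f` (over `K`) are MATCHED: the global twisted orbital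
  integral of `φ'` at `δ` equals the global orbital integral of `f` at `γ` whenever `N δ` is
  conjugate to the elliptic `γ ∈ GL₂(K)`, and the orbital integrals of `f` vanish at the elliptic
  `γ` which are not norms.  (Orbital integrals over fundamental domains of the centralisers in
  the slab, periodised along the rays, for the measures of the frames: ALL constants -- volumes
  of `U(𝔫)`, of the tori, the factor `ℓ` of the rays `r = r'^ℓ` -- are absorbed in `f`.)
* **LEAF T7.G1 = `GeomC`** (class bijection): matched + regular ⇒ the geometric sides agree.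
  Inputs: `T5.GeomUnfold` (both sides), `T6.NormClassC`, `T6.NormInjC`.
* **PROVED `specIdC_of`**: `T5.Tower` upstairs and downstairs + `GeomC` ⇒ `SpecIdC`, the
  SPECTRAL IDENTITY `∑_j ⟨R(φ') R(σ) e'_j, e'_j⟩ = ∑_i ⟨R(f) e_i, e_i⟩` for every matched
  admissible pair and ALL complete orthonormal sequences of cusp functions.

`SpecIdC` is the interface between the geometric half (existence of matched admissible pairs:
T3 + T6 + factorisation of the global orbital integrals) and the spectral half (atoms,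
parameters at the regular place, non-vanishing: T2 + linear algebra) of `TraceWordsRegC`.
-/

set_option autoImplicit false

open AutomorphicForm IsDedekindDomain NumberField MeasureTheory
open scoped ComplexConjugate

noncomputable section

namespace Fermat.Agent.LT.T7

open Fermat.Agent.LT.H556 Fermat.Agent.LT.H556.A0

attribute [local instance] Fermat.Agent.LT.T5.instMeasurableSpaceG

/-! ## 1. Frames and the data of the comparison -/

/-- A frame of T5: a measure on `GL₂(𝔸_K)`, a fundamental domain, a ray generator. -/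
structure Frame5 (K : Type) [Field K] [NumberField K] where
  /-- the Haar measure -/
  μ : Measure (G K)
  /-- the fundamental domain of `GL₂(K)` in the slab -/
  F : Set (G K)
  /-- the generator of the discrete ray -/
  r : G K

/-- The frame satisfies the hypotheses of T5. -/
structure IsFrame5 {K : Type} [Field K] [NumberField K] (R : Frame5 K) : Prop where
  frame : T5.IsFrame R.μ R.F
  ray : T5.IsRayGen R.r

section Data

variable (K K' : Type) [Field K] [NumberField K] [Field K'] [NumberField K'] [Algebra K K']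

/-- The data of the comparison for `K'/K`. -/
structure CompData where
  /-- the degree -/
  l : ℕ
  /-- the generator of the Galois group with its extension to the adeles -/
  s : T5.AdelicAut K'
  /-- the image of `K` in `K'` -/
  k : Subfield K'
  /-- the level downstairs -/
  𝔫 : Ideal (𝓞 K)
  /-- the level upstairs -/
  𝔑 : Ideal (𝓞 K')
  /-- the frame downstairs -/
  R : Frame5 K
  /-- the frame upstairs -/
  R' : Frame5 K'

variable {K K'}

/-- The data satisfy the hypotheses of the two trace identities. -/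
structure IsCompData (D : CompData K K') : Prop where
  cyc : T5.IsCyclicOfDegree D.s D.l D.k
  base : ∀ x : K', x ∈ D.k ↔ ∃ y : K, algebraMap K K' y = x
  level_ne : D.𝔫 ≠ ⊥
  level : D.𝔑 = Ideal.map (algebraMap (𝓞 K) (𝓞 K')) D.𝔫
  frame : IsFrame5 D.R
  frame' : IsFrame5 D.R'
  aut : T5.AutPreserves D.s D.𝔑 D.R'.μ D.R'.r

end Data

/-! ## 2. Admissible test functions, geometric sides, matched pairs -/

section OneField

variable {K : Type} [Field K] [NumberField K]

/-- The geometric side of the (twisted) trace identity: the integral of the diagonal of the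
twisted kernel over the fundamental domain. -/
def geomSide (s : T5.AdelicAut K) (R : Frame5 K) (φ : G K → ℂ) : ℂ :=
  ∫ x in R.F, T5.twKer R.r s φ x x ∂(R.μ)

/-- The spectral side of the (twisted) trace identity in the complete orthonormal sequence
`e`. -/
def specSide (s : T5.AdelicAut K) (R : Frame5 K) (e : ℕ → G K → ℂ) (φ : G K → ℂ) : ℂ :=
  ∑' i, T5.diagCoeff s R.μ R.F φ (e i)

/-- `φ` is ADMISSIBLE: a test function of level `𝔫` and trivial `K_∞`-type which is `σ`-regular
and the product of two Eisenstein-killing test functions with Eisenstein-killing adjoints (the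
hypotheses of `T5.STFsigma` and of `T5.GeomUnfold`). -/
def IsAdm5 (s : T5.AdelicAut K) (l : ℕ) (k : Subfield K) (𝔫 : Ideal (𝓞 K)) (R : Frame5 K)
    (φ : G K → ℂ) : Prop :=
  T5.IsTestFn 𝔫 T5.trivType φ ∧ T5.IsTwRegular s l k φ ∧
    ∃ φ₁ φ₂ : G K → ℂ, T5.IsTestFn 𝔫 T5.trivType φ₁ ∧ T5.IsTestFn 𝔫 T5.trivType φ₂ ∧
      T5.IsEK R.μ φ₁ ∧ T5.IsEK R.μ (T5.adjointFn φ₁) ∧
      T5.IsEK R.μ φ₂ ∧ T5.IsEK R.μ (T5.adjointFn φ₂) ∧ φ = T5.conv R.μ φ₁ φ₂

end OneField

section TwoFields

variable {K K' : Type} [Field K] [NumberField K] [Field K'] [NumberField K'] [Algebra K K']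

/-- `γ ∈ GL₂(K)` is (conjugate in `GL₂(K')` to) the norm of `δ ∈ GL₂(K')`. -/
def IsNormOf (D : CompData K K') (δ : GL (Fin 2) K') (γ : GL (Fin 2) K) : Prop :=
  IsConj (D.s.normUpTo D.l δ) (Matrix.GeneralLinearGroup.map (algebraMap K K') γ)

/-- **MATCHED PAIR** (global form).  See the header. -/
structure IsGlobMatch (D : CompData K K') (φ' : G K' → ℂ) (f : G K → ℂ) : Prop where
  /-- the twisted orbital integral of `φ'` at `δ` is the orbital integral of `f` at `γ = N δ` -/
  norm : ∀ (δ : GL (Fin 2) K') (γ : GL (Fin 2) K), T6.IsEll γ → IsNormOf D δ γ →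
    ∀ (Fδ : Set (G K')) (Fγ : Set (G K)), T5.IsTwDomain D.s δ Fδ →
      T5.IsTwDomain (T5.AdelicAut.id K) γ Fγ →
      ∫ x in Fδ, T5.twTerm D.R'.r D.s φ' δ x ∂D.R'.μ
        = ∫ x in Fγ, T5.twTerm D.R.r (T5.AdelicAut.id K) f γ x ∂D.R.μ
  /-- the orbital integrals of `f` vanish at the elliptic elements which are not norms -/
  nonnorm : ∀ γ : GL (Fin 2) K, T6.IsEll γ → (¬ ∃ δ : GL (Fin 2) K', IsNormOf D δ γ) →
    ∀ Fγ : Set (G K), T5.IsTwDomain (T5.AdelicAut.id K) γ Fγ →
      ∫ x in Fγ, T5.twTerm D.R.r (T5.AdelicAut.id K) f γ x ∂D.R.μ = 0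

variable (K K')

/-- **LEAF T7.G1 = GEOM (class bijection).**  For a matched pair of `σ`-regular (resp. regular)
test functions the geometric sides of the two trace identities agree.
Proof.  `T5.GeomUnfold` on both sides: finite sums over the `σ`-conjugacy classes of `GL₂(K')`
and over the conjugacy classes of `GL₂(K)`; by regularity only the classes with elliptic regular
norm (resp. the elliptic regular classes) contribute (`IsEllRegOver k (N δ)` ⇔ `N δ` is conjugate
to an elliptic `γ ∈ GL₂(K)`: `T6.NormClassC`, and two elements of `GL₂(K)` conjugate in `GL₂(K')`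
are conjugate in `GL₂(K)`); the norm map is injective on these classes (`T6.NormInjC`); the
classes downstairs which are not norms contribute `0` (`nonnorm`), the others the same as
upstairs (`norm`).  Bridge `T5.normUpTo` ↔ `T6.twNorm`: definitional. -/
def GeomC : Prop :=
  ∀ D : CompData K K', IsCompData D →
    T5.GeomUnfold D.s D.l D.k D.𝔑 T5.trivType →
    T5.GeomUnfold (T5.AdelicAut.id K) 1 ⊤ D.𝔫 T5.trivType →
    T6.NormClassC → T6.NormInjC →
    ∀ (φ' : G K' → ℂ) (f : G K → ℂ),
      T5.IsTestFn D.𝔑 T5.trivType φ' → T5.IsTwRegular D.s D.l D.k φ' →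
      T5.IsTestFn D.𝔫 T5.trivType f → T5.IsTwRegular (T5.AdelicAut.id K) 1 ⊤ f →
      IsGlobMatch D φ' f →
      geomSide D.s D.R' φ' = geomSide (T5.AdelicAut.id K) D.R f

/-- **THE SPECTRAL IDENTITY for matched admissible pairs**, in ALL complete orthonormal
sequences of cusp functions (zero vectors allowed): both sides are absolutely summable and
`∑_j ⟨R(φ') R(σ) e'_j, e'_j⟩ = ∑_i ⟨R(f) e_i, e_i⟩`. -/
def SpecIdC : Prop :=
  ∀ D : CompData K K', IsCompData D →
    ∀ (φ' : G K' → ℂ) (f : G K → ℂ),
      IsAdm5 D.s D.l D.k D.𝔑 D.R' φ' → IsAdm5 (T5.AdelicAut.id K) 1 ⊤ D.𝔫 D.R f →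
      IsGlobMatch D φ' f →
      ∀ (e' : ℕ → G K' → ℂ) (e : ℕ → G K → ℂ),
        T5.IsCuspONB D.𝔑 T5.trivType D.R'.r D.R'.μ D.R'.F e' →
        T5.IsCuspONB D.𝔫 T5.trivType D.R.r D.R.μ D.R.F e →
        Summable (fun j => T5.diagCoeff D.s D.R'.μ D.R'.F φ' (e' j)) ∧
        Summable (fun i => T5.diagCoeff (T5.AdelicAut.id K) D.R.μ D.R.F f (e i)) ∧
        specSide D.s D.R' e' φ' = specSide (T5.AdelicAut.id K) D.R e f

variable {K K'}

/-- **The spectral identity from the two towers of T5 and the class bijection.** -/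
theorem specIdC_of
    (hT' : ∀ D : CompData K K', IsCompData D → T5.Tower D.s D.l D.k D.𝔑 T5.trivType)
    (hT : ∀ 𝔫 : Ideal (𝓞 K), 𝔫 ≠ ⊥ → T5.Tower (T5.AdelicAut.id K) 1 ⊤ 𝔫 T5.trivType)
    (hN : T6.NormClassC) (hI : T6.NormInjC) (hG : GeomC K K') : SpecIdC K K' := by
  intro D hD φ' f hφ' hf hm e' e he' he
  obtain ⟨t', r', φ₁, φ₂, t₁, t₂, k₁, k₁', k₂, k₂', rfl⟩ := hφ'
  obtain ⟨t, r, f₁, f₂, u₁, u₂, j₁, j₁', j₂, j₂', rfl⟩ := hf
  have hup := (hT' D hD).stf D.R'.μ D.R'.F D.R'.r hD.frame'.frame hD.frame'.ray hD.aut e' he'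
    φ₁ φ₂ t₁ t₂ k₁ k₁' k₂ k₂'
  have hdn := (hT D.𝔫 hD.level_ne).stf D.R.μ D.R.F D.R.r hD.frame.frame hD.frame.ray
    (T5.autPreserves_id D.𝔫 D.R.μ D.R.r) e he f₁ f₂ u₁ u₂ j₁ j₁' j₂ j₂'
  refine ⟨hup.1, hdn.1, ?_⟩
  have hgeo := hG D hD (hT' D hD).unfold (hT D.𝔫 hD.level_ne).unfold hN hI _ _ t' r' t r hm
  unfold specSide
  rw [hup.2.2, hdn.2.2]
  exact hgeo

end TwoFields

end Fermat.Agent.LT.T7

end
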