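import Mathlib
import Fermat.Agent.LT.H556.A0
import Fermat.Agent.LT.T5.Spec
import Fermat.Agent.LT.T6.Spec
import Fermat.Agent.LT.T7.Spec
import Fermat.Agent.LT.T7.Comparison
import Fermat.Agent.LT.T7.EK
import Fermat.Agent.LT.T7.Reg
import Fermat.Agent.LT.T7.EKM
import Fermat.Agent.LT.T7.Matching

/-!
# Row LT, tower T7 (architect helper797): LEVEL 2 of the node `TraceWordsRegP` (cyclic case)

OFF-MAIN.  Definitions, frozen Props, PROVED assembly.  No `sorry`, nothing assumed.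
ADDITIVE (new names only).  Vocabulary: A0, `T5/Spec.lean` v4, `T7/Matching.lean`.

    traceWordsRegP_of : SupplyC P K K' → SpecUpC K K' → SpecDownC K K' → SpecIdC K K'
                          → TraceWordsRegP P K K'
    (SpecIdC K K' is PROVED in `Matching.lean` from the two towers of T5 and the leaf `GeomC`.)

## The three nodes

Setting: `K'/K` cyclic of odd prime degree `ℓ`, `K` totally complex, `Φ` a cusp form over `K'`
(A0), constant on the fibres, with the EK condition `P`.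

* **`SupplyC P K K'`** (geometric half; T3 + T5 + T6): there is an `L2Data` with `IsL2Data`:
  the generator `σ`, the frames, a BASE LEVEL `𝔑₀ ⊆ Φ.level` of `K'`, the set `S' = {w ∣ 𝔑₀}`,
  a place `u` of `K` with the `σ`-orbit `o 0, …, o (ℓ-1)` over it (`ℓ` DISTINCT places: `u`
  splits), in `S'`, prime to `Φ.level`, and, FOR EVERY `g ∈ GL₂(𝔸_{K'})` supported at the BAD
  places (`S'` minus the orbit): a level `𝔫 g` of `K` (`u ∣ 𝔫 g`, `𝔑_g = (𝔫 g) 𝒪_{K'} ⊆ 𝔑₀`, same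
  prime divisors as `𝔑₀`; the level DEPENDS ON `g`: the matching at the bad places,
  `T6.BadMatchC`, gives a function `f` bi-invariant under `U(m)` with `m` depending on `φ`), and
  TWO FAMILIES of test functions `φ' g X k m` (over `K'`, level `𝔑_g`), `f g X k m` (over `K`,
  level `𝔫 g`), indexed by a word `X` outside `S'`, the central shift `k ∈ ℤ` and the Iwahori
  depth `m ∈ ℕ` at `o 0`, such that
  - every member is a product of two Eisenstein-killing test functions (`IsEKProd`), and is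
    regular (`T5.IsTwRegular`) for `m ≥ m₀ g X`;
  - `φ' g X k m` and `f g X k m` are MATCHED (`IsGlobMatch`) for `m ≥ m₀ g X`;
  - (OP-up) on a cusp function `ψ` of the BASE level `𝔑₀` which is invariant under the positive
    scalars at infinity and under the Iwahori subgroups along the orbit, with joint eigen-data
    `C` outside `S'` (`IsEigFn`):
    `R(φ' g X k m) ψ = X(C) · c_g(C) · [U g U] Z^k 𝒰^m ψ`,
    `[U g U] = ` the sum of the right translates over a system of representatives of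
    `U(𝔑₀) g U(𝔑₀) / U(𝔑₀)`, `Z` = translation by a scalar uniformiser at `o 0`, `𝒰 = q^{-1/2}`
    times the sum of the right translates over `I t I / I` at `o 0`; `c_g(C)` = the scalar of
    the Eisenstein-killing base (built for the level `𝔑_g`), `c_g(C) ≠ 0` on the class of `Φ`
    (THIS is where `P` is used);
  - (OP-down) on such a `ψ` over `K` with eigen-data `c` and every `Ĉ` = base change of `c`:
    `R(f g X k m) ψ = X(Ĉ) · R(f g [] 0 0) Z^k 𝒰^m ψ`; `R(f g [] 0 0)` preserves the eigen-classes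
    and commutes with `Z` and `𝒰` at `u`;
  - (KILL) every member kills the cusp functions (of level `𝔑_g`, resp. `𝔫 g`) orthogonal to the
    invariant ones (upstairs: of the base level `𝔑₀`), and the orthogonal projection on the
    invariant ones exists (averaging over `U(𝔑₀) / U(𝔑_g)`, over `I / U` along the orbit and over
    the compact torus `A_∞ / ⟨r⟩ Λ`, ruling R1).
* **`SpecUpC K K'`** (spectral half upstairs + NON-VANISHING; T2 + linear algebra + multiplicity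
  one in module form): for such data there are `g`, a complete orthonormal sequence `e'` and
  atoms `(C, b', l', y)` with `specSide (φ' g X k m) = ∑ X(C_t) y_t b'_t^k l'_t^m` for
  `m ≥ m₀ g X`, and the total coefficient of the class of `Φ` at ONE point `(b₀, l₀)` is not `0`.
* **`SpecDownC K K'`** (spectral half downstairs + REALISATION): for such data and every `g` there
  are `e` and atoms `(c, Ĉ, b, l, x)`, `Ĉ_i` the base change of `c_i`, with
  `specSide (f g X k m) = ∑ X(Ĉ_i) x_i b_i^k l_i^m` for `m ≥ m₀ g X`; an atom with `Ĉ_i`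
  spherical of parameter `0` is realised by a cusp form as in A0.

## Proofs (sketch; the sub-architects cut them)

SUPPLY.  `φ₁, φ₂` = Eisenstein-killing test functions of `T3` for the level `𝔑_g` (product
structure: Hecke polynomial at the EK place(s) ⊗ archimedean factor ⊗ unit `e_{U(𝔑₀)}` elsewhere,
Iwahori along the orbit); `φ' g X k m = (X · φ₁) ⋆ [U g U] ⋆ φ₂ ⋆ ρ_{k,m}`, `ρ_{k,m} = q^{-m/2} 1_{ϖ^k I t^m I} / vol I` at
`o 0`; regular for `m ≥ m₀` by `T5.RegularOfIwahoriZ` (closed, helper32) - the compact set depends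
on `(g, X)` but NOT on `k`.  `f g X k m`: local matching of T6 place by place (`FundLemmaC` and
`SatakeEigenC` outside `S'`, `SplitMatchC` at `u` and at the split infinite places, `BadMatchC` at
the bad places: the matching is NOT multiplicative there, so downstairs `f = f₁ ⋆ f₂` with the
unit `e_{U(𝔫 g)}` in `f₁` and the matched function of `1_{U g U}` in `f₂`), all constants absorbed
in `f`; global orbital integral = volume × product of local ones.  KILL: `♮`-averaging.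
SPEC-UP.  Eigenbasis of `T2` (class of T5), classes of finite dimension; the classes which are
not `σ`-stable contribute `0`; on a stable class `V_C`: joint generalised eigenspaces `W` of the
commuting operators `Z_j, 𝒰_j` along the orbit, `R(σ)` permutes them, only the stable ones
contribute, `tr([U g U] Z^k 𝒰^m R(σ) | W) = b^k l^m tr([U g U] R(σ) | W)` (nilpotency trick,
asset helper822); summability by Weyl's inequality + `T2.HSBound`; shape of `(b, l)`: asset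
helper822 `RegParam`; non-vanishing: multiplicity one in module form (helper963, from
`T2.H941.MatchC`) + asset helper616 `RegTrace`.
SPEC-DOWN.  The same without `σ` (commuting operators: simultaneous triangular form).
-/

set_option autoImplicit false

open AutomorphicForm IsDedekindDomain NumberField MeasureTheory
open scoped ComplexConjugate

noncomputable section

namespace Fermat.Agent.LT.T7

open Fermat.Agent.LT.H556 Fermat.Agent.LT.H556.A0

attribute [local instance] Fermat.Agent.LT.T5.instMeasurableSpaceG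

/-! ## 1. Operators on functions on `GL₂(𝔸_K)` -/

section Ops

variable {K : Type} [Field K] [NumberField K]

/-- The sum of the right translates by the elements of `H`. -/
def cosetOp (H : Finset (G K)) (ψ : G K → ℂ) : G K → ℂ := fun x => ∑ h ∈ H, ψ (x * h)

/-- The normalised Iwahori operator `𝒰 = q_w^{-1/2} ∑_{h ∈ H} R(h)` at `w`. -/
def iwOp (w : HeightOneSpectrum (𝓞 K)) (H : Finset (G K)) (ψ : G K → ℂ) : G K → ℂ :=
  fun x => ((Real.sqrt (Ideal.absNorm w.asIdeal : ℝ) : ℝ) : ℂ)⁻¹ * ∑ h ∈ H, ψ (x * h)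

/-- The translation by `z ^ k`. -/
def shiftOp (z : G K) (k : ℤ) (ψ : G K → ℂ) : G K → ℂ := fun x => ψ (x * z ^ k)

/-- A full system of representatives of `I_w diag(ϖ_w, 1) I_w / I_w`: `q_w` elements supported
at `w`, in the double coset, pairwise inequivalent modulo the Iwahori subgroup on the right. -/
def IsIwCosetSystem (w : HeightOneSpectrum (𝓞 K)) (H : Finset (G K)) : Prop :=
  H.card = Ideal.absNorm w.asIdeal ∧
    (∀ h ∈ H, IsLocalAtFin w h ∧ T5.InIwahoriCoset w 1 h) ∧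
    ∀ h ∈ H, ∀ h' ∈ H, h ≠ h' → ¬ T5.InIwahori w (h⁻¹ * h')

/-- A full system of representatives of `U(𝔫) g U(𝔫) / U(𝔫)`. -/
def IsDblCosetSystem (𝔫 : Ideal (𝓞 K)) (g : G K) (H : Finset (G K)) : Prop :=
  (∀ h ∈ H, ∃ u₁ u₂ : G K, InLevelGroup 𝔫 u₁ ∧ InLevelGroup 𝔫 u₂ ∧ h = u₁ * g * u₂) ∧
    (∀ h ∈ H, ∀ h' ∈ H, h ≠ h' → ¬ InLevelGroup 𝔫 (h⁻¹ * h')) ∧
    ∀ u : G K, InLevelGroup 𝔫 u → ∃ h ∈ H, InLevelGroup 𝔫 (h⁻¹ * (u * g))

/-- `ψ` is right invariant under the Iwahori subgroups at the places `o 0, …, o (l-1)`. -/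
def IsIwInv (l : ℕ) (o : ℕ → HeightOneSpectrum (𝓞 K)) (ψ : G K → ℂ) : Prop :=
  ∀ h : G K, (∀ w : InfinitePlace K, TrivAtInf w h) →
    (∀ v : HeightOneSpectrum (𝓞 K), (∀ j < l, v ≠ o j) → TrivAtFin v h) →
    (∀ j < l, T5.InIwahori (o j) h) → ∀ x : G K, ψ (x * h) = ψ x

/-- `ψ` is an eigenfunction of the sphere means at the (complex) place `w`, with eigenvalue
function `m` (`A0.MeanValueComplex` is the case `m = sph0`). -/
def MeanEig (ψ : G K → ℂ) (w : InfinitePlace K) (m : ℝ → ℂ) : Prop :=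
  ∀ d : ℝ, 0 < d → ∀ Y : ℝ → ℝ → G K,
    (∀ α β : ℝ, IsLocalAtInf w (Y α β) ∧ infComp w (Y α β) = rotZ α * rotY β * torus d) →
    ∀ g : G K,
      (∫ α in (0 : ℝ)..(2 * Real.pi), ∫ β in (0 : ℝ)..Real.pi,
          ψ (g * Y α β) * ((Real.sin β : ℝ) : ℂ)) = m d * ψ g

/-- The INVARIANT cusp functions: cusp functions of level `𝔫` (trivial `K_∞`-type, invariant
under the ray generator `r`) which are invariant under the positive scalars at every infinite
place and under the Iwahori subgroups along the orbit. -/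
structure IsWFn (𝔫 : Ideal (𝓞 K)) (r : G K) (l : ℕ) (o : ℕ → HeightOneSpectrum (𝓞 K))
    (ψ : G K → ℂ) : Prop where
  cusp : T5.IsCuspFn 𝔫 T5.trivType r ψ
  arch_scalar : ∀ (w : InfinitePlace K) (z : G K), IsArchPosScalar w z →
    ∀ g : G K, ψ (g * z) = ψ g
  iw : IsIwInv l o ψ

/-- An invariant cusp function with joint eigen-data `C`: eigenfunction of the Hecke operators at
the places prime to `𝔫` and of the sphere means at the infinite places. -/
structure IsEigFn (𝔫 : Ideal (𝓞 K)) (r : G K) (l : ℕ) (o : ℕ → HeightOneSpectrum (𝓞 K))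
    (ψ : G K → ℂ) (C : EigData K) : Prop where
  inv : IsWFn 𝔫 r l o ψ
  hecke : ∀ v : HeightOneSpectrum (𝓞 K), ¬ v.asIdeal ∣ 𝔫 → IsHeckeEigenAt ψ v (C.a v) (C.b v)
  mean : ∀ w : InfinitePlace K, MeanEig ψ w (C.m w)

/-- `φ` is a product of two Eisenstein-killing test functions with Eisenstein-killing adjoints
(the hypothesis of `T5.STFsigma`). -/
def IsEKProd (𝔫 : Ideal (𝓞 K)) (R : Frame5 K) (φ : G K → ℂ) : Prop :=
  T5.IsTestFn 𝔫 T5.trivType φ ∧
    ∃ φ₁ φ₂ : G K → ℂ, T5.IsTestFn 𝔫 T5.trivType φ₁ ∧ T5.IsTestFn 𝔫 T5.trivType φ₂ ∧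
      T5.IsEK R.μ φ₁ ∧ T5.IsEK R.μ (T5.adjointFn φ₁) ∧
      T5.IsEK R.μ φ₂ ∧ T5.IsEK R.μ (T5.adjointFn φ₂) ∧ φ = T5.conv R.μ φ₁ φ₂

theorem isAdm5_of_ekProd {s : T5.AdelicAut K} {l : ℕ} {k : Subfield K} {𝔫 : Ideal (𝓞 K)}
    {R : Frame5 K} {φ : G K → ℂ} (h : IsEKProd 𝔫 R φ) (hr : T5.IsTwRegular s l k φ) :
    IsAdm5 s l k 𝔫 R φ :=
  ⟨h.1, hr, h.2⟩

theorem isRegParam_mono {R R' : ℝ} (h : R ≤ R') {b l : ℂ} (hp : IsRegParam R b l) :
    IsRegParam R' b l :=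
  ⟨hp.1, hp.2.1.trans h, hp.2.2⟩

end Ops

/-! ## 2. The data of level 2 -/

section Data

variable (K K' : Type) [Field K] [NumberField K] [Field K'] [NumberField K'] [Algebra K K']

/-- The data supplied by the geometric half. -/
structure L2Data where
  /-- the degree -/
  l : ℕ
  /-- the generator of the Galois group with its extension to the adeles -/
  s : T5.AdelicAut K'
  /-- the image of `K` in `K'` -/
  k : Subfield K'
  /-- the frame downstairs -/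
  R : Frame5 K
  /-- the frame upstairs -/
  R' : Frame5 K'
  /-- the base level upstairs -/
  𝔑₀ : Ideal (𝓞 K')
  /-- the places of `K'` dividing the base level -/
  S' : Finset (HeightOneSpectrum (𝓞 K'))
  /-- the regular place of `K` -/
  u : HeightOneSpectrum (𝓞 K)
  /-- the `σ`-orbit over `u` -/
  o : ℕ → HeightOneSpectrum (𝓞 K')
  /-- the level downstairs for the bad element `g` -/
  𝔫 : G K' → Ideal (𝓞 K)
  /-- the scalar of the Eisenstein-killing base on the eigen-classes -/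
  c : G K' → EigData K' → ℂ
  /-- the family upstairs -/
  φ' : G K' → List (Gen K') → ℤ → ℕ → G K' → ℂ
  /-- the family downstairs -/
  f : G K' → List (Gen K') → ℤ → ℕ → G K → ℂ
  /-- the regular depth -/
  m₀ : G K' → List (Gen K') → ℕ

variable {K K'}

/-- The data of the comparison for the bad element `g`: levels `𝔫 g` and `(𝔫 g) 𝒪_{K'}`. -/
def L2Data.comp (Dt : L2Data K K') (g : G K') : CompData K K' where
  l := Dt.l
  s := Dt.s
  k := Dt.k
  𝔫 := Dt.𝔫 g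
  𝔑 := Ideal.map (algebraMap (𝓞 K) (𝓞 K')) (Dt.𝔫 g)
  R := Dt.R
  R' := Dt.R'

/-- The level upstairs for the bad element `g`. -/
def L2Data.𝔑 (Dt : L2Data K K') (g : G K') : Ideal (𝓞 K') :=
  Ideal.map (algebraMap (𝓞 K) (𝓞 K')) (Dt.𝔫 g)

/-- `g` is supported at the bad places: the places of `S'` outside the orbit. -/
def L2Data.IsBad (Dt : L2Data K K') (g : G K') : Prop :=
  (∀ w : InfinitePlace K', TrivAtInf w g) ∧
    ∀ v : HeightOneSpectrum (𝓞 K'), (v ∉ Dt.S' ∨ ∃ j < Dt.l, v = Dt.o j) → TrivAtFin v g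

/-- `Ĉ` (over `K'`) is the base change of the eigen-data `c` (over `K`): the finite part outside
`S'` as in `IsBCEig`, the archimedean part by restriction of the places. -/
def IsBCData (c : EigData K) (C : EigData K') (S' : Finset (HeightOneSpectrum (𝓞 K'))) : Prop :=
  (∀ w : HeightOneSpectrum (𝓞 K'), w ∉ S' →
      ∀ (v : HeightOneSpectrum (𝓞 K)) (f : ℕ), HasResDeg K K' v w f →
        C.a w = satakePow f (c.a v) (c.b v) ∧ C.b w = c.b v ^ f) ∧
    ∀ (w : InfinitePlace K') (d : ℝ), C.m w d = c.m (w.comap (algebraMap K K')) d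

/-- **THE PROPERTIES OF THE DATA OF LEVEL 2.**  See the header. -/
structure IsL2Data (ℓ : ℕ) (Φ : HeckeEigensystem K' ℂ) (Dt : L2Data K K') : Prop where
  deg : Dt.l = ℓ
  comp : ∀ g : G K', Dt.IsBad g → IsCompData (Dt.comp g)
  level_le : Dt.𝔑₀ ≤ Φ.level
  level_g : ∀ g : G K', Dt.IsBad g → Dt.𝔑 g ≤ Dt.𝔑₀
  mem_S' : ∀ w : HeightOneSpectrum (𝓞 K'), w ∈ Dt.S' ↔ w.asIdeal ∣ Dt.𝔑₀
  mem_S'_g : ∀ g : G K', Dt.IsBad g →
    ∀ w : HeightOneSpectrum (𝓞 K'), w ∈ Dt.S' ↔ w.asIdeal ∣ Dt.𝔑 g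
  const : ∀ w : HeightOneSpectrum (𝓞 K'), w ∉ Dt.S' →
    ∀ w' : HeightOneSpectrum (𝓞 K'), w' ∉ Dt.S' → ∀ v : HeightOneSpectrum (𝓞 K),
      PlaceOver K K' v w → PlaceOver K K' v w' → Φ.a w = Φ.a w' ∧ Φ.b w = Φ.b w'
  orbit_rel : ∀ j : ℕ, T5.PlaceRel Dt.s (Dt.o j) (Dt.o (j + 1))
  orbit_ne : ∀ j : ℕ, 0 < j → j < ℓ → Dt.o j ≠ Dt.o 0
  orbit_over : ∀ j : ℕ, PlaceOver K K' Dt.u (Dt.o j)
  orbit_level : ∀ j : ℕ, Dt.o j ∈ Dt.S'
  orbit_good : ∀ j : ℕ, ¬ (Dt.o j).asIdeal ∣ Φ.level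
  u_level : ∀ g : G K', Dt.IsBad g → Dt.u.asIdeal ∣ Dt.𝔫 g
  /-- the members upstairs are products of Eisenstein-killing test functions -/
  ekprod_up : ∀ (g : G K') (X : List (Gen K')) (k : ℤ) (m : ℕ), Dt.IsBad g →
    (∀ x ∈ X, x.Out Dt.S') → IsEKProd (Dt.𝔑 g) Dt.R' (Dt.φ' g X k m)
  /-- the members downstairs are products of Eisenstein-killing test functions -/
  ekprod_down : ∀ (g : G K') (X : List (Gen K')) (k : ℤ) (m : ℕ), Dt.IsBad g →
    (∀ x ∈ X, x.Out Dt.S') → IsEKProd (Dt.𝔫 g) Dt.R (Dt.f g X k m)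
  /-- regularity upstairs from the depth `m₀ g X` on -/
  reg_up : ∀ (g : G K') (X : List (Gen K')) (k : ℤ) (m : ℕ), Dt.IsBad g →
    (∀ x ∈ X, x.Out Dt.S') → Dt.m₀ g X ≤ m →
    T5.IsTwRegular Dt.s Dt.l Dt.k (Dt.φ' g X k m)
  /-- regularity downstairs from the depth `m₀ g X` on -/
  reg_down : ∀ (g : G K') (X : List (Gen K')) (k : ℤ) (m : ℕ), Dt.IsBad g →
    (∀ x ∈ X, x.Out Dt.S') → Dt.m₀ g X ≤ m →
    T5.IsTwRegular (T5.AdelicAut.id K) 1 ⊤ (Dt.f g X k m)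
  /-- the members are matched from the depth `m₀ g X` on -/
  matched : ∀ (g : G K') (X : List (Gen K')) (k : ℤ) (m : ℕ), Dt.IsBad g →
    (∀ x ∈ X, x.Out Dt.S') → Dt.m₀ g X ≤ m →
    IsGlobMatch (Dt.comp g) (Dt.φ' g X k m) (Dt.f g X k m)
  /-- the scalar of the base does not vanish on the class of `Φ` -/
  base_ne : ∀ g : G K', Dt.IsBad g →
    ∀ C : EigData K', C.AgreeOut Dt.S' (eigOf Φ) → Dt.c g C ≠ 0
  /-- (OP-up) -/
  op_up : ∀ (g : G K') (X : List (Gen K')) (k : ℤ) (m : ℕ), Dt.IsBad g →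
    (∀ x ∈ X, x.Out Dt.S') →
    ∀ (ψ : G K' → ℂ) (C : EigData K'), IsEigFn Dt.𝔑₀ Dt.R'.r ℓ Dt.o ψ C →
    ∀ (Hg H : Finset (G K')) (z : G K'), IsDblCosetSystem Dt.𝔑₀ g Hg →
      IsIwCosetSystem (Dt.o 0) H → IsScalarUniformizerAt (Dt.o 0) z →
      ∀ x : G K', T5.Rconv Dt.R'.μ (Dt.φ' g X k m) ψ x
        = wordEv X C * Dt.c g C * cosetOp Hg (shiftOp z k ((iwOp (Dt.o 0) H)^[m] ψ)) x
  /-- (KILL-up) -/
  kill_up : ∀ (g : G K') (X : List (Gen K')) (k : ℤ) (m : ℕ), Dt.IsBad g →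
    (∀ x ∈ X, x.Out Dt.S') →
    ∀ ψ : G K' → ℂ, T5.IsCuspFn (Dt.𝔑 g) T5.trivType Dt.R'.r ψ →
      (∀ χ : G K' → ℂ, IsWFn Dt.𝔑₀ Dt.R'.r ℓ Dt.o χ →
        T5.innerD Dt.R'.μ Dt.R'.F ψ χ = 0) →
      ∀ x : G K', T5.Rconv Dt.R'.μ (Dt.φ' g X k m) ψ x = 0
  /-- the orthogonal projection on the invariant cusp functions upstairs -/
  proj_up : ∀ g : G K', Dt.IsBad g →
    ∀ ψ : G K' → ℂ, T5.IsCuspFn (Dt.𝔑 g) T5.trivType Dt.R'.r ψ →
    ∃ ψ₁ : G K' → ℂ, IsWFn Dt.𝔑₀ Dt.R'.r ℓ Dt.o ψ₁ ∧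
      ∀ χ : G K' → ℂ, IsWFn Dt.𝔑₀ Dt.R'.r ℓ Dt.o χ →
        T5.innerD Dt.R'.μ Dt.R'.F (fun x => ψ x - ψ₁ x) χ = 0
  /-- (OP-down) -/
  op_down : ∀ (g : G K') (X : List (Gen K')) (k : ℤ) (m : ℕ), Dt.IsBad g →
    (∀ x ∈ X, x.Out Dt.S') →
    ∀ (ψ : G K → ℂ) (c : EigData K) (C : EigData K'),
      IsEigFn (Dt.𝔫 g) Dt.R.r 1 (fun _ => Dt.u) ψ c → IsBCData c C Dt.S' →
    ∀ (H : Finset (G K)) (z : G K), IsIwCosetSystem Dt.u H → IsScalarUniformizerAt Dt.u z →
      ∀ x : G K, T5.Rconv Dt.R.μ (Dt.f g X k m) ψ x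
        = wordEv X C
          * T5.Rconv Dt.R.μ (Dt.f g [] 0 0) (shiftOp z k ((iwOp Dt.u H)^[m] ψ)) x
  /-- the base downstairs preserves the eigen-classes -/
  class_down : ∀ g : G K', Dt.IsBad g → ∀ (ψ : G K → ℂ) (c : EigData K),
    IsEigFn (Dt.𝔫 g) Dt.R.r 1 (fun _ => Dt.u) ψ c →
    IsEigFn (Dt.𝔫 g) Dt.R.r 1 (fun _ => Dt.u) (T5.Rconv Dt.R.μ (Dt.f g [] 0 0) ψ) c
  /-- the base downstairs commutes with the operators at `u` -/
  comm_down : ∀ g : G K', Dt.IsBad g → ∀ ψ : G K → ℂ,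
    IsWFn (Dt.𝔫 g) Dt.R.r 1 (fun _ => Dt.u) ψ →
    ∀ (H : Finset (G K)) (z : G K), IsIwCosetSystem Dt.u H → IsScalarUniformizerAt Dt.u z →
      (∀ x : G K, T5.Rconv Dt.R.μ (Dt.f g [] 0 0) (iwOp Dt.u H ψ) x
        = iwOp Dt.u H (T5.Rconv Dt.R.μ (Dt.f g [] 0 0) ψ) x) ∧
      ∀ (k : ℤ) (x : G K), T5.Rconv Dt.R.μ (Dt.f g [] 0 0) (shiftOp z k ψ) x
        = shiftOp z k (T5.Rconv Dt.R.μ (Dt.f g [] 0 0) ψ) x
  /-- (KILL-down) -/
  kill_down : ∀ (g : G K') (X : List (Gen K')) (k : ℤ) (m : ℕ), Dt.IsBad g →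
    (∀ x ∈ X, x.Out Dt.S') →
    ∀ ψ : G K → ℂ, T5.IsCuspFn (Dt.𝔫 g) T5.trivType Dt.R.r ψ →
      (∀ χ : G K → ℂ, IsWFn (Dt.𝔫 g) Dt.R.r 1 (fun _ => Dt.u) χ →
        T5.innerD Dt.R.μ Dt.R.F ψ χ = 0) →
      ∀ x : G K, T5.Rconv Dt.R.μ (Dt.f g X k m) ψ x = 0
  /-- the orthogonal projection on the invariant cusp functions downstairs -/
  proj_down : ∀ g : G K', Dt.IsBad g →
    ∀ ψ : G K → ℂ, T5.IsCuspFn (Dt.𝔫 g) T5.trivType Dt.R.r ψ →
    ∃ ψ₁ : G K → ℂ, IsWFn (Dt.𝔫 g) Dt.R.r 1 (fun _ => Dt.u) ψ₁ ∧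
      ∀ χ : G K → ℂ, IsWFn (Dt.𝔫 g) Dt.R.r 1 (fun _ => Dt.u) χ →
        T5.innerD Dt.R.μ Dt.R.F (fun x => ψ x - ψ₁ x) χ = 0

end Data

/-! ## 3. The three nodes -/

section Nodes

variable (P : EKCond)
variable (K K' : Type) [Field K] [NumberField K] [Field K'] [NumberField K'] [Algebra K K']

/-- **NODE T7.L2.1 = SUPPLY** (geometric half: T3 + T5 + T6).  See the header. -/
def SupplyC : Prop :=
  ∀ ℓ : ℕ, IsCycExt K K' ℓ → ℓ ≠ 2 → TotCplx K →
    ∀ Φ : HeckeEigensystem K' ℂ, A0.IsCuspAdelicSph0 K' Φ → ConstOnFibres K Φ → P K' Φ →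
      ∃ Dt : L2Data K K', IsL2Data ℓ Φ Dt

/-- **NODE T7.L2.2 = SPEC-UP** (spectral half upstairs + non-vanishing).  See the header. -/
def SpecUpC : Prop :=
  ∀ ℓ : ℕ, IsCycExt K K' ℓ → ℓ ≠ 2 → TotCplx K →
    ∀ Φ : HeckeEigensystem K' ℂ, A0.IsCuspAdelicSph0 K' Φ → ConstOnFibres K Φ →
      ∀ Dt : L2Data K K', IsL2Data ℓ Φ Dt →
      ∃ (g : G K') (e' : ℕ → G K' → ℂ) (ι' : Type) (C : ι' → EigData K') (b' l' : ι' → ℂ)
        (R : ℝ) (y : ι' → ℂ),
        Dt.IsBad g ∧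
        T5.IsCuspONB (Dt.𝔑 g) T5.trivType Dt.R'.r Dt.R'.μ Dt.R'.F e' ∧
        Summable (fun j => ‖y j‖) ∧ (∀ j, (C j).IsUnitaryOut Dt.S') ∧
        (∀ j, IsRegParam R (b' j) (l' j)) ∧
        (∀ X : List (Gen K'), (∀ x ∈ X, x.Out Dt.S') → ∀ (k : ℤ) (m : ℕ), Dt.m₀ g X ≤ m →
          specSide Dt.s Dt.R' e' (Dt.φ' g X k m)
            = ∑' j, wordEv X (C j) * y j * b' j ^ k * l' j ^ m) ∧
        ∃ b₀ l₀ : ℂ,
          (∑' j : {j : {j : ι' // b' j = b₀ ∧ l' j = l₀} //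
              (C j.1).AgreeOut Dt.S' (eigOf Φ)}, y j.1.1) ≠ 0

/-- **NODE T7.L2.3 = SPEC-DOWN** (spectral half downstairs + realisation).  See the header. -/
def SpecDownC : Prop :=
  ∀ ℓ : ℕ, IsCycExt K K' ℓ → ℓ ≠ 2 → TotCplx K →
    ∀ Φ : HeckeEigensystem K' ℂ, A0.IsCuspAdelicSph0 K' Φ → ConstOnFibres K Φ →
      ∀ Dt : L2Data K K', IsL2Data ℓ Φ Dt → ∀ g : G K', Dt.IsBad g →
      ∃ (e : ℕ → G K → ℂ) (ι : Type) (c : ι → HeckeEigensystem K ℂ) (Ch : ι → EigData K')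
        (b l : ι → ℂ) (R : ℝ) (x : ι → ℂ),
        T5.IsCuspONB (Dt.𝔫 g) T5.trivType Dt.R.r Dt.R.μ Dt.R.F e ∧
        Summable (fun i => ‖x i‖) ∧ (∀ i, (Ch i).IsUnitaryOut Dt.S') ∧
        (∀ i, IsBCEig K K' (c i) (Ch i) Dt.S') ∧
        (∀ i, IsRegParam R (b i) (l i)) ∧
        (∀ X : List (Gen K'), (∀ x ∈ X, x.Out Dt.S') → ∀ (k : ℤ) (m : ℕ), Dt.m₀ g X ≤ m →
          specSide (T5.AdelicAut.id K) Dt.R e (Dt.f g X k m)
            = ∑' i, wordEv X (Ch i) * x i * b i ^ k * l i ^ m) ∧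
        ∀ i, (Ch i).IsSph0 → A0.IsCuspAdelicSph0 K (c i)

variable {P K K'}

/-- **THE ASSEMBLY OF LEVEL 2**: the regular trace identity for words from the three nodes and
the spectral identity for matched pairs. -/
theorem traceWordsRegP_of (hS : SupplyC P K K') (hU : SpecUpC K K') (hD : SpecDownC K K')
    (hI : SpecIdC K K') : TraceWordsRegP P K K' := by
  intro ℓ hcyc hℓ hcplx Φ hΦ hconst hP
  obtain ⟨Dt, hDt⟩ := hS ℓ hcyc hℓ hcplx Φ hΦ hconst hP
  obtain ⟨g, e', ι', C, b', l', R', y, hg, he', hy, hUB, hp', hexp', hne⟩ :=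
    hU ℓ hcyc hℓ hcplx Φ hΦ hconst Dt hDt
  obtain ⟨e, ι, c, Ch, b, l, R, x, he, hx, hUA, hbc, hp, hexp, hreal⟩ :=
    hD ℓ hcyc hℓ hcplx Φ hΦ hconst Dt hDt g hg
  refine ⟨Dt.S', ι, ι', c, Ch, C, b, l, b', l', max R R', x, y, hx, hy, hUA, hUB, hbc,
    fun i => isRegParam_mono (le_max_left _ _) (hp i),
    fun j => isRegParam_mono (le_max_right _ _) (hp' j), ?_, hne, hreal⟩
  intro X hX
  refine ⟨Dt.m₀ g X, fun m hm k => ?_⟩
  have hid := (hI (Dt.comp g) (hDt.comp g hg) (Dt.φ' g X k m) (Dt.f g X k m)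
    (isAdm5_of_ekProd (hDt.ekprod_up g X k m hg hX) (hDt.reg_up g X k m hg hX hm))
    (isAdm5_of_ekProd (hDt.ekprod_down g X k m hg hX) (hDt.reg_down g X k m hg hX hm))
    (hDt.matched g X k m hg hX hm) e' e he' he).2.2
  rw [← hexp X hX k m hm, ← hexp' X hX k m hm]
  exact hid.symm

end Nodes

end Fermat.Agent.LT.T7

end
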