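import Mathlib
import Fermat.Agent.LT.T7.Level2

/-!
# Row LT, tower T7 (architect helper797): LEVEL 2 with a GALOIS-STABLE BASE LEVEL

OFF-MAIN.  ADDITIVE to `Level2.lean` (sha256 1551664660339642, unchanged): new names only.

Remark of the referees helper880 and helper288: `IsL2Data` does not say that the BASE level `𝔑₀`
is stable under `σ`, so `R(σ)` need not preserve the invariant cusp functions of level `𝔑₀`, and
the proof of `SpecUpC` in the header of `Level2.lean` does not apply to such data.  The geometric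
half always chooses `𝔑₀ = 𝔫₀ 𝒪_{K'}` for an ideal `𝔫₀ ≠ 0` of `K`.  This file records it:

* `L2Data.IsStable`  : `𝔑₀ = 𝔫₀ 𝒪_{K'}` for some ideal `𝔫₀ ≠ 0` of `K`;
* `SupplySC`         : `SupplyC` with stable data   (THE node of the geometric half);
* `SpecUpSC`         : `SpecUpC` for stable data    (THE node of the spectral half upstairs);
* PROVED `traceWordsRegP_ofS : SupplySC P K K' → SpecUpSC K K' → SpecDownC K K' → SpecIdC K K'
  → TraceWordsRegP P K K'`, and the comparisons `supplyC_of_S`, `specUpSC_of`.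

`SpecDownC` is unchanged.  The owners of `SupplyC` / `SpecUpC` deliver `SupplySC` / `SpecUpSC`.
-/

set_option autoImplicit false

open AutomorphicForm IsDedekindDomain NumberField MeasureTheory
open scoped ComplexConjugate

noncomputable section

namespace Fermat.Agent.LT.T7

open Fermat.Agent.LT.H556 Fermat.Agent.LT.H556.A0

attribute [local instance] Fermat.Agent.LT.T5.instMeasurableSpaceG

section

variable {K K' : Type} [Field K] [NumberField K] [Field K'] [NumberField K'] [Algebra K K']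

/-- The base level is the extension of a non-zero ideal of `K` (hence stable under the Galois
group). -/
def L2Data.IsStable (Dt : L2Data K K') : Prop :=
  ∃ 𝔫₀ : Ideal (𝓞 K), 𝔫₀ ≠ ⊥ ∧ Dt.𝔑₀ = Ideal.map (algebraMap (𝓞 K) (𝓞 K')) 𝔫₀

end

section Nodes

variable (P : EKCond)
variable (K K' : Type) [Field K] [NumberField K] [Field K'] [NumberField K'] [Algebra K K']

/-- **NODE T7.L2.1 = SUPPLY, stable form** (geometric half: T3 + T5 + T6). -/
def SupplySC : Prop :=
  ∀ ℓ : ℕ, IsCycExt K K' ℓ → ℓ ≠ 2 → TotCplx K →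
    ∀ Φ : HeckeEigensystem K' ℂ, A0.IsCuspAdelicSph0 K' Φ → ConstOnFibres K Φ → P K' Φ →
      ∃ Dt : L2Data K K', IsL2Data ℓ Φ Dt ∧ Dt.IsStable

/-- **NODE T7.L2.2 = SPEC-UP, stable form** (spectral half upstairs + non-vanishing). -/
def SpecUpSC : Prop :=
  ∀ ℓ : ℕ, IsCycExt K K' ℓ → ℓ ≠ 2 → TotCplx K →
    ∀ Φ : HeckeEigensystem K' ℂ, A0.IsCuspAdelicSph0 K' Φ → ConstOnFibres K Φ →
      ∀ Dt : L2Data K K', IsL2Data ℓ Φ Dt → Dt.IsStable →
      ∃ (g : G K') (e' : ℕ → G K' → ℂ) (ι' : Type) (C : ι' → EigData K') (b' l' : ι' → ℂ)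
        (R : ℝ) (y : ι' → ℂ),
        Dt.IsBad g ∧
        T5.IsCuspONB (Dt.𝔑 g) T5.trivType Dt.R'.r Dt.R'.μ Dt.R'.F e' ∧
        Summable (fun j => ‖y j‖) ∧ (∀ j, (C j).IsUnitaryOut Dt.S') ∧
        (∀ j, IsRegParam R (b' j) (l' j)) ∧
        (∀ X : List (Gen K'), (∀ x ∈ X, x.Out Dt.S') → ∀ (k : ℤ) (m : ℕ), Dt.m₀ g X ≤ m →
          specSide Dt.s Dt.R' e' (Dt.φ' g X k m)
            = ∑' j, wordEv X (C j) * y j * b' j ^ k * l' j ^ m) ∧
        ∃ b₀ l₀ : ℂ,
          (∑' j : {j : {j : ι' // b' j = b₀ ∧ l' j = l₀} //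
              (C j.1).AgreeOut Dt.S' (eigOf Φ)}, y j.1.1) ≠ 0

variable {P K K'}

theorem supplyC_of_S (h : SupplySC P K K') : SupplyC P K K' :=
  fun ℓ hcyc hℓ hcplx Φ hΦ hconst hP =>
    let ⟨Dt, hDt, _⟩ := h ℓ hcyc hℓ hcplx Φ hΦ hconst hP
    ⟨Dt, hDt⟩

theorem specUpSC_of (h : SpecUpC K K') : SpecUpSC K K' :=
  fun ℓ hcyc hℓ hcplx Φ hΦ hconst Dt hDt _ => h ℓ hcyc hℓ hcplx Φ hΦ hconst Dt hDt

/-- **THE ASSEMBLY OF LEVEL 2, stable form.** -/
theorem traceWordsRegP_ofS (hS : SupplySC P K K') (hU : SpecUpSC K K') (hD : SpecDownC K K')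
    (hI : SpecIdC K K') : TraceWordsRegP P K K' := by
  intro ℓ hcyc hℓ hcplx Φ hΦ hconst hP
  obtain ⟨Dt, hDt, hst⟩ := hS ℓ hcyc hℓ hcplx Φ hΦ hconst hP
  obtain ⟨g, e', ι', C, b', l', R', y, hg, he', hy, hUB, hp', hexp', hne⟩ :=
    hU ℓ hcyc hℓ hcplx Φ hΦ hconst Dt hDt hst
  obtain ⟨e, ι, c, Ch, b, l, R, x, he, hx, hUA, hbc, hp, hexp, hreal⟩ :=
    hD ℓ hcyc hℓ hcplx Φ hΦ hconst Dt hDt g hg
  refine ⟨Dt.S', ι, ι', c, Ch, C, b, l, b', l', max R R', x, y, hx, hy, hUA, hUB, hbc,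
    fun i => isRegParam_mono (le_max_left _ _) (hp i),
    fun j => isRegParam_mono (le_max_right _ _) (hp' j), ?_, hne, hreal⟩
  intro X hX
  refine ⟨Dt.m₀ g X, fun m hm k => ?_⟩
  have hid := (hI (Dt.comp g) (hDt.comp g hg) (Dt.φ' g X k m) (Dt.f g X k m)
    (isAdm5_of_ekProd (hDt.ekprod_up g X k m hg hX) (hDt.reg_up g X k m hg hX hm))
    (isAdm5_of_ekProd (hDt.ekprod_down g X k m hg hX) (hDt.reg_down g X k m hg hX hm))
    (hDt.matched g X k m hg hX hm) e' e he' he).2.2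
  rw [← hexp X hX k m hm, ← hexp' X hX k m hm]
  exact hid.symm

/-- **THE REGULAR TRACE IDENTITY FOR ALL CYCLIC EXTENSIONS from the nodes of level 2**, for the
multi-place condition (which implies the single-place node `TraceWordsRegAll`). -/
theorem traceWordsRegPAll_ofS (P : EKCond)
    (hS : ∀ (K K' : Type) [Field K] [NumberField K] [Field K'] [NumberField K'] [Algebra K K'],
      SupplySC P K K')
    (hU : ∀ (K K' : Type) [Field K] [NumberField K] [Field K'] [NumberField K'] [Algebra K K'],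
      SpecUpSC K K')
    (hD : ∀ (K K' : Type) [Field K] [NumberField K] [Field K'] [NumberField K'] [Algebra K K'],
      SpecDownC K K')
    (hI : ∀ (K K' : Type) [Field K] [NumberField K] [Field K'] [NumberField K'] [Algebra K K'],
      SpecIdC K K') : TraceWordsRegPAll P :=
  fun K K' _ _ _ _ _ => traceWordsRegP_ofS (hS K K') (hU K K') (hD K K') (hI K K')

end Nodes

end Fermat.Agent.LT.T7

end
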